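import Fermat.Agent.S20.RR.Defs
import Fermat.Agent.S24.ZerosBackupThm
import Fermat.Agent.S24.PrincipalDegreeCore
import Fermat.Agent.S24.PlaceDeg
import Fermat.Agent.S24.Exchange

/-!
# The standing hypotheses `Hyp K F` of the Riemann–Roch block hold for every function field of
one variable over an algebraically closed field of characteristic zero (S24 Part A).
-/

set_option autoImplicit false

open AlgebraicCurve KaehlerDifferential IntermediateField

namespace Fermat.Agent.S20.RR.HypOfS24

open Fermat.Agent.S24

variable {K F : Type*} [Field K] [Field F] [Algebra K F] [IsAlgClosed K] [CharZero K]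

/-- `Hyp K F` from S24 Part A. -/
theorem hyp (hF : IsFunctionField1 K F) : Fermat.Agent.S20.RR.Hyp K F where
  ff := hF
  res := fun v => Expansion.residue_hyp hF v
  deg_one := fun v => deg_eq_one v (Expansion.oneVariable_of_isFunctionField1 hF)
  fin := fun f hf => PrincipalDegreeCore.ord_support_finite ZerosBackup.zerosTheorem hF f hf
  sum := fun f hf => PrincipalDegreeCore.sum_ord_eq_zero ZerosBackup.zerosTheorem hF f hf
  zeros := fun y hy =>
    (ZerosBackup.zerosTheorem y hy (Exchange.finiteDimensional_adjoin_of_transcendental hF hy)).2

end Fermat.Agent.S20.RR.HypOfS24
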