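import Mathlib
import Fermat.Prelude.Def_AlgebraicCurve_Repartitions
import Fermat.Prelude.Def_AlgebraicCurve_CanonicalDivisor
import Fermat.Agent.S24.Defs
import Fermat.Agent.S24.HurwitzCore
import Fermat.Agent.S24.Expansion

/-!
# Riemann–Roch for function fields (block RR of the S20 / S21 wave): shared definitions

`K` is a field, `F / K` a function field of one variable, in the Prelude's language
(`AlgebraicCurve.Place`, `Divisor`, `riemannRochSpace`, `repartitions`, `H1`, `genusFF`,
`Place.ordDifferential`, `genus`).  All inputs from S24 Part A are bundled in the hypothesis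
structure `Hyp K F`.  The goal of the block is

  `Module.finrank K (regularDifferentials K F) = AlgebraicCurve.genus K F`  (and `= genusFF K F`).
-/

set_option autoImplicit false

open AlgebraicCurve KaehlerDifferential IntermediateField

namespace Fermat.Agent.S20.RR

variable (K F : Type*) [Field K] [Field F] [Algebra K F]

/-- Standing hypotheses on `F / K`.  For `K` algebraically closed of characteristic zero and
`F / K` a function field of one variable, all fields are theorems of S24 Part A
(`PlaceDeg`, `Expansion.residue_hyp`, `PrincipalDegree`, `Zeros`). -/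
structure Hyp : Prop where
  /-- `F / K` is a function field of one variable. -/
  ff : Fermat.Agent.S24.IsFunctionField1 K F
  /-- every residue field is `K`: `O_v = K + m_v`. -/
  res : ∀ (v : Place K F) (f : F), f ≠ 0 → 0 ≤ v.ord f →
    ∃ c : K, f = algebraMap K F c ∨ 0 < v.ord (f - algebraMap K F c)
  /-- all places have degree one. -/
  deg_one : ∀ v : Place K F, v.deg = 1
  /-- a nonzero function has finitely many zeros and poles. -/
  fin : ∀ f : F, f ≠ 0 → {v : Place K F | v.ord f ≠ 0}.Finite
  /-- principal divisors have degree zero. -/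
  sum : ∀ f : F, f ≠ 0 → ∑ᶠ v : Place K F, v.ord f = 0
  /-- the zero divisor of a non-constant `y` has degree `[F : K(y)]`. -/
  zeros : ∀ y : F, Transcendental K y →
    ∑ᶠ v ∈ {v : Place K F | 0 < v.ord y}, v.ord y = (Module.finrank K⟮y⟯ F : ℤ)

variable {K F}

/-- The divisor of a function (`0` for `f = 0`). -/
noncomputable def Hyp.div (h : Hyp K F) (f : F) : Divisor K F :=
  open scoped Classical in
  if hf : f = 0 then 0 else Finsupp.ofSupportFinite (fun v => v.ord f) (h.fin f hf)

theorem Hyp.div_apply (h : Hyp K F) {f : F} (hf : f ≠ 0) (v : Place K F) :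
    h.div f v = v.ord f := by
  unfold Hyp.div
  rw [dif_neg hf]
  rfl

@[simp]
theorem Hyp.div_zero (h : Hyp K F) : h.div (0 : F) = 0 := by
  unfold Hyp.div
  rw [dif_pos rfl]

theorem Hyp.degree_eq_finsum (h : Hyp K F) (D : Divisor K F) :
    Divisor.degree D = ∑ᶠ v, D v :=
  Fermat.Agent.S24.HurwitzCore.degree_eq_finsum h.deg_one D

theorem Hyp.degree_div (h : Hyp K F) (f : F) : Divisor.degree (h.div f) = 0 := by
  rcases eq_or_ne f 0 with rfl | hf
  · simp
  · rw [h.degree_eq_finsum]
    have : (fun v => h.div f v) = fun v => v.ord f := funext fun v => h.div_apply hf v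
    rw [this]
    exact h.sum f hf

theorem Hyp.div_mul (h : Hyp K F) {f g : F} (hf : f ≠ 0) (hg : g ≠ 0) :
    h.div (f * g) = h.div f + h.div g := by
  ext v
  rw [Finsupp.add_apply, h.div_apply (mul_ne_zero hf hg), h.div_apply hf, h.div_apply hg,
    v.ord_mul hf hg]

theorem Hyp.div_inv (h : Hyp K F) (f : F) : h.div f⁻¹ = -h.div f := by
  rcases eq_or_ne f 0 with rfl | hf
  · simp
  ext v
  rw [Finsupp.neg_apply, h.div_apply (inv_ne_zero hf), h.div_apply hf, v.ord_inv]

/-- `ℓ(D) = dim_K L(D)`, with `L(D) = riemannRochSpace D` of the Prelude. -/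
noncomputable def ell (D : Divisor K F) : ℕ := Module.finrank K (riemannRochSpace D)

/-- `i(D) = dim_K H¹(D)`, with `H¹(D) = A / (A(D) + F)` of the Prelude. -/
noncomputable def ind (D : Divisor K F) : ℕ := Module.finrank K (H1 D)

/-- A uniformizer `π_v` at `v` with `v.dCoord = d π_v` (a fixed choice). -/
noncomputable def unif (v : Place K F) : F :=
  (Fermat.Agent.S24.exists_uniformizer_dCoord v).choose

theorem ord_unif (v : Place K F) : v.ord (unif v) = 1 :=
  (Fermat.Agent.S24.exists_uniformizer_dCoord v).choose_spec.1

theorem dCoord_eq_D_unif (v : Place K F) : v.dCoord = D K F (unif v) :=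
  (Fermat.Agent.S24.exists_uniformizer_dCoord v).choose_spec.2

theorem unif_ne_zero (v : Place K F) : unif v ≠ 0 := by
  intro h0
  have := ord_unif v
  rw [h0] at this
  simp at this

/-- A *chart* at `v`: a `K`-algebra embedding of `F` into `K((X))` inducing `ord_v`. -/
def IsChart (v : Place K F) (σ : F →ₐ[K] LaurentSeries K) : Prop :=
  ∀ f : F, f ≠ 0 → (σ f).order = v.ord f

/-- The expansion at `v` in the uniformizer `unif v` (a fixed choice): `σ_v (unif v) = X`. -/
noncomputable def expand (h : Hyp K F) (v : Place K F) : F →ₐ[K] LaurentSeries K :=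
  (Fermat.Agent.S24.Expansion.exists_expansion_of_res v (h.res v) (unif v) (ord_unif v)).choose

theorem isChart_expand (h : Hyp K F) (v : Place K F) : IsChart v (expand h v) :=
  (Fermat.Agent.S24.Expansion.exists_expansion_of_res v (h.res v) (unif v)
    (ord_unif v)).choose_spec.1

theorem expand_unif (h : Hyp K F) (v : Place K F) :
    expand h v (unif v) = HahnSeries.single (1 : ℤ) (1 : K) :=
  (Fermat.Agent.S24.Expansion.exists_expansion_of_res v (h.res v) (unif v)
    (ord_unif v)).choose_spec.2

/-- The residue of a Kähler differential at `v`: the coefficient of `X⁻¹` in the expansion of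
`η / d π_v` (`differentialCoeff` of the Prelude). -/
noncomputable def res (h : Hyp K F) (v : Place K F) (η : Ω[F⁄K]) : K :=
  (expand h v (v.differentialCoeff η)).coeff (-1)

/-- `η` is regular (holomorphic) at every place. -/
def IsRegular (η : Ω[F⁄K]) : Prop := ∀ v : Place K F, 0 ≤ v.ordDifferential η

/-- `η ∈ Ω(D)`: `η = 0` or `div η ≥ D`. -/
def MemOmega (D : Divisor K F) (η : Ω[F⁄K]) : Prop :=
  η = 0 ∨ ∀ v : Place K F, D v ≤ v.ordDifferential η

end Fermat.Agent.S20.RR
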