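import Fermat.Agent.S20.RR.Defs

/-!
# S20 block RR, row RR-D2 (Reparam): adapted charts

* `exists_root` : `e`-th roots of power series with nonzero constant coefficient
  (`K` algebraically closed of characteristic zero), via the binomial series.
* `exists_algHom_X` : for `u` of order `1`, the inverse substitution: an order preserving
  `K`-algebra endomorphism of `K((X))` sending `u` to `X`.
* `exists_chart_pow` : if `ord_v y = e > 0` there is a chart `σ` at `v` with `σ y = X ^ e`.
-/

set_option autoImplicit false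

open AlgebraicCurve KaehlerDifferential IntermediateField

namespace Fermat.Agent.S20.RR.Reparam

variable {K F : Type*} [Field K] [Field F] [Algebra K F]

section Root

variable [CharZero K]

/-- `(1+X)^(n r) = ((1+X)^r)^n` for binomial series. -/
theorem binomialSeries_nat_mul (r : ℚ) (n : ℕ) :
    PowerSeries.binomialSeries K ((n : ℚ) * r) = PowerSeries.binomialSeries K r ^ n := by
  induction n with
  | zero => simp
  | succ n ih =>
    rw [Nat.cast_succ, add_mul, one_mul, PowerSeries.binomialSeries_add, ih, pow_succ]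

theorem exists_root [IsAlgClosed K] (w : PowerSeries K) (hw : PowerSeries.constantCoeff w ≠ 0)
    (e : ℕ) (he : 0 < e) : ∃ r : PowerSeries K, r ^ e = w := by
  set a := PowerSeries.constantCoeff w with ha
  obtain ⟨c, hc⟩ := IsAlgClosed.exists_pow_nat_eq a he
  let z : PowerSeries K := PowerSeries.C a⁻¹ * w - 1
  have hz : PowerSeries.constantCoeff z = 0 := by
    simp [z, ← ha, inv_mul_cancel₀ hw]
  have hsub : PowerSeries.HasSubst z := PowerSeries.HasSubst.of_constantCoeff_zero' hz
  let B : PowerSeries K := PowerSeries.binomialSeries K ((e : ℚ)⁻¹)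
  have hB : B ^ e = 1 + PowerSeries.X := by
    have h1 := binomialSeries_nat_mul (K := K) ((e : ℚ)⁻¹) e
    rw [mul_inv_cancel₀ (by exact_mod_cast he.ne')] at h1
    have h2 := PowerSeries.binomialSeries_nat (R := ℚ) (A := K) 1
    rw [Nat.cast_one, pow_one] at h2
    rw [← h1, h2]
  refine ⟨PowerSeries.C c * B.subst z, ?_⟩
  rw [mul_pow, ← map_pow, hc, ← PowerSeries.subst_pow hsub, hB, PowerSeries.subst_add hsub,
    PowerSeries.subst_X hsub]
  have h1 : (1 : PowerSeries K).subst z = 1 := by
    rw [← map_one (PowerSeries.C (R := K)), PowerSeries.subst_C]; rfl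
  rw [h1]
  simp only [z]
  rw [add_sub_cancel, ← mul_assoc, ← map_mul, mul_inv_cancel₀ hw, map_one, one_mul]

end Root

section Subst

open Fermat.Agent.S24.Expansion

theorem exists_unit_of_order_one (u : PowerSeries K) (hu : PowerSeries.order u = 1) :
    ∃ u' : (PowerSeries K)ˣ, u = PowerSeries.X * (u' : PowerSeries K) := by
  obtain ⟨h1, h0⟩ := PowerSeries.order_eq_nat.mp hu
  have hc : PowerSeries.constantCoeff u = 0 := by
    have := h0 0 one_pos
    simpa using this
  obtain ⟨u', rfl⟩ := PowerSeries.X_dvd_iff.mpr hc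
  have hu' : PowerSeries.constantCoeff u' ≠ 0 := by
    have : PowerSeries.coeff 1 (PowerSeries.X * u') = PowerSeries.coeff 0 u' := by
      rw [show (1 : ℕ) = 0 + 1 from rfl, PowerSeries.coeff_succ_X_mul]
    rw [this] at h1
    simpa using h1
  exact ⟨(PowerSeries.isUnit_iff_constantCoeff.mpr (IsUnit.mk0 _ hu')).unit, rfl⟩

theorem expHyp_powerSeries (u : PowerSeries K) (hu : PowerSeries.order u = 1) :
    ExpHyp K u := by
  obtain ⟨u', rfl⟩ := exists_unit_of_order_one u hu
  have hXne : (PowerSeries.X : PowerSeries K) * (u' : PowerSeries K) ≠ 0 :=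
    mul_ne_zero PowerSeries.X_ne_zero u'.ne_zero
  refine ⟨?_, ?_, ?_, ?_⟩
  · intro a
    have h1 : PowerSeries.constantCoeff (a - PowerSeries.C (PowerSeries.constantCoeff a)) = 0 := by
      simp
    obtain ⟨b, hb⟩ := PowerSeries.X_dvd_iff.mpr h1
    refine ⟨PowerSeries.constantCoeff a, ((u'⁻¹ : (PowerSeries K)ˣ) : PowerSeries K) * b, ?_⟩
    have h2 : PowerSeries.X * (u' : PowerSeries K) * (((u'⁻¹ : (PowerSeries K)ˣ) : PowerSeries K) * b)
        = PowerSeries.X * b := by
      have : (u' : PowerSeries K) * ((u'⁻¹ : (PowerSeries K)ˣ) : PowerSeries K) = 1 := by simp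
      linear_combination (PowerSeries.X * b) * this
    rw [h2, ← hb]
    simp
  · intro b hb
    exact (mul_eq_zero.mp hb).resolve_left hXne
  · intro hunit
    have := PowerSeries.isUnit_iff_constantCoeff.mp hunit
    simp at this
  · intro a ha
    ext i
    obtain ⟨b, hb⟩ := ha (i + 1)
    have hX : PowerSeries.X ^ (i + 1) ∣ a :=
      ⟨(u' : PowerSeries K) ^ (i + 1) * b, by rw [hb, mul_pow]; ring⟩
    have := PowerSeries.X_pow_dvd_iff.mp hX i (Nat.lt_succ_self i)
    simpa using this


/-- The inverse substitution `X ↦ u⁻¹(X)` on power series: the `K`-algebra endomorphism of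
`K⟦X⟧` sending `u` to `X`. -/
noncomputable def tauPS (u : PowerSeries K) (hu : PowerSeries.order u = 1) :
    PowerSeries K →ₐ[K] PowerSeries K :=
  tauAlgHom (expHyp_powerSeries u hu)

theorem tauPS_self (u : PowerSeries K) (hu : PowerSeries.order u = 1) :
    tauPS u hu u = PowerSeries.X :=
  tau_varpi (expHyp_powerSeries u hu)

theorem tauPS_injective (u : PowerSeries K) (hu : PowerSeries.order u = 1) :
    Function.Injective (tauPS u hu) :=
  tau_injective (expHyp_powerSeries u hu)

theorem constantCoeff_tauPS (u : PowerSeries K) (hu : PowerSeries.order u = 1)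
    (a : PowerSeries K) :
    PowerSeries.constantCoeff (tauPS u hu a) = PowerSeries.constantCoeff a := by
  have h := expHyp_powerSeries u hu
  show PowerSeries.constantCoeff (tau h a) = _
  rw [constantCoeff_tau]
  have hs := spec h a
  have := congrArg PowerSeries.constantCoeff hs
  have hc : PowerSeries.constantCoeff u = 0 := by
    obtain ⟨_, h0⟩ := PowerSeries.order_eq_nat.mp hu
    simpa using h0 0 one_pos
  rw [map_add, map_mul, hc, zero_mul, add_zero] at this
  rw [this]
  simp

/-- order (as a Laurent series) of `X^m * c`, `c` with nonzero constant coefficient -/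
theorem order_ofPowerSeries_X_pow_mul (m : ℕ) (c : PowerSeries K)
    (hc : PowerSeries.constantCoeff c ≠ 0) :
    (HahnSeries.ofPowerSeries ℤ K (PowerSeries.X ^ m * c)).order = (m : ℤ) := by
  have h1 := order_ofPowerSeries_of_constantCoeff_ne_zero c hc
  have hne : HahnSeries.ofPowerSeries ℤ K c ≠ 0 := by
    intro h0
    apply hc
    have := HahnSeries.ofPowerSeries_injective (Γ := ℤ) (R := K)
      (h0.trans (map_zero (HahnSeries.ofPowerSeries ℤ K)).symm)
    rw [this, map_zero]
  have hsne : HahnSeries.single (m : ℤ) (1 : K) ≠ 0 := by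
    rw [Ne, HahnSeries.single_eq_zero_iff]
    exact one_ne_zero
  rw [map_mul, HahnSeries.ofPowerSeries_X_pow, HahnSeries.order_mul hsne hne, h1,
    HahnSeries.order_single one_ne_zero, add_zero]

theorem order_ofPowerSeries_tauPS (u : PowerSeries K) (hu : PowerSeries.order u = 1)
    (a : PowerSeries K) (ha : a ≠ 0) :
    (HahnSeries.ofPowerSeries ℤ K (tauPS u hu a)).order =
      (HahnSeries.ofPowerSeries ℤ K a).order := by
  obtain ⟨u', hu'⟩ := exists_unit_of_order_one u hu
  -- `X = u * u'⁻¹`, so `tauPS X = X * tauPS u'⁻¹`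
  have hX : (PowerSeries.X : PowerSeries K) = u * ((u'⁻¹ : (PowerSeries K)ˣ) : PowerSeries K) := by
    have : (u' : PowerSeries K) * ((u'⁻¹ : (PowerSeries K)ˣ) : PowerSeries K) = 1 := by simp
    rw [hu', mul_assoc, this, mul_one]
  set t := tauPS u hu ((u'⁻¹ : (PowerSeries K)ˣ) : PowerSeries K) with ht
  have htX : tauPS u hu PowerSeries.X = PowerSeries.X * t := by
    conv_lhs => rw [hX]
    rw [map_mul, tauPS_self]
  have htc : PowerSeries.constantCoeff t ≠ 0 := by
    rw [ht, constantCoeff_tauPS]
    have := (PowerSeries.isUnit_iff_constantCoeff.mp (u'⁻¹).isUnit)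
    exact this.ne_zero
  -- decompose `a`
  set m := a.order.toNat with hm
  set a₁ := PowerSeries.divXPowOrder a with ha₁
  have hdec : PowerSeries.X ^ m * a₁ = a := PowerSeries.X_pow_order_mul_divXPowOrder
  have ha₁c : PowerSeries.constantCoeff a₁ ≠ 0 := by
    rw [ha₁, Ne, PowerSeries.constantCoeff_divXPowOrder_eq_zero_iff]
    exact ha
  have h1 : (HahnSeries.ofPowerSeries ℤ K a).order = (m : ℤ) := by
    conv_lhs => rw [← hdec]
    exact order_ofPowerSeries_X_pow_mul m a₁ ha₁c
  have h2 : tauPS u hu a = PowerSeries.X ^ m * (t ^ m * tauPS u hu a₁) := by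
    conv_lhs => rw [← hdec]
    rw [map_mul, map_pow, htX, mul_pow, mul_assoc]
  rw [h1, h2]
  apply order_ofPowerSeries_X_pow_mul
  rw [map_mul, map_pow, constantCoeff_tauPS u hu a₁]
  exact mul_ne_zero (pow_ne_zero _ htc) ha₁c

theorem exists_algHom_X (u : PowerSeries K) (hu : PowerSeries.order u = 1) :
    ∃ τ : LaurentSeries K →ₐ[K] LaurentSeries K,
      (∀ s : LaurentSeries K, s ≠ 0 → (τ s).order = s.order) ∧
      τ (HahnSeries.ofPowerSeries ℤ K u) = HahnSeries.single (1 : ℤ) (1 : K) := by
  classical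
  let g : PowerSeries K →+* LaurentSeries K :=
    (HahnSeries.ofPowerSeries ℤ K).comp (tauPS u hu).toRingHom
  have hg : Function.Injective g :=
    HahnSeries.ofPowerSeries_injective.comp (tauPS_injective u hu)
  let τ₀ : LaurentSeries K →+* LaurentSeries K := IsFractionRing.lift hg
  have hτ₀ : ∀ a : PowerSeries K,
      τ₀ (HahnSeries.ofPowerSeries ℤ K a) = HahnSeries.ofPowerSeries ℤ K (tauPS u hu a) :=
    fun a => IsFractionRing.lift_algebraMap hg a
  let τ : LaurentSeries K →ₐ[K] LaurentSeries K :=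
    { τ₀ with
      commutes' := fun c => by
        show τ₀ (algebraMap K (LaurentSeries K) c) = algebraMap K (LaurentSeries K) c
        rw [LaurentSeries.algebraMap_apply, ← HahnSeries.ofPowerSeries_C, hτ₀]
        congr 1
        have : (PowerSeries.C c : PowerSeries K) = algebraMap K (PowerSeries K) c := rfl
        rw [this, AlgHom.commutes] }
  have hτ : ∀ s, τ s = τ₀ s := fun s => rfl
  refine ⟨τ, ?_, ?_⟩
  · intro s hs
    obtain ⟨p, q, hq, hpq⟩ := IsFractionRing.div_surjective (A := PowerSeries K) s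
    have hq0 : q ≠ 0 := nonZeroDivisors.ne_zero hq
    simp only [LaurentSeries.coe_algebraMap] at hpq
    have hqL : HahnSeries.ofPowerSeries ℤ K q ≠ 0 := by
      intro h0
      exact hq0 (HahnSeries.ofPowerSeries_injective (Γ := ℤ) (R := K)
        (h0.trans (map_zero (HahnSeries.ofPowerSeries ℤ K)).symm))
    have hp0 : p ≠ 0 := by
      rintro rfl
      apply hs
      rw [← hpq]; simp
    have hmul : s * HahnSeries.ofPowerSeries ℤ K q = HahnSeries.ofPowerSeries ℤ K p := by
      rw [← hpq, div_mul_cancel₀ _ hqL]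
    have hmul' : τ s * HahnSeries.ofPowerSeries ℤ K (tauPS u hu q) =
        HahnSeries.ofPowerSeries ℤ K (tauPS u hu p) := by
      rw [← hτ₀, ← hτ₀, ← hτ, ← hτ, ← map_mul, hmul]
    have hτs : τ s ≠ 0 := by
      rw [hτ]
      exact (map_ne_zero τ₀).mpr hs
    have hτq : HahnSeries.ofPowerSeries ℤ K (tauPS u hu q) ≠ 0 := by
      intro h0
      have := HahnSeries.ofPowerSeries_injective (Γ := ℤ) (R := K)
        (h0.trans (map_zero (HahnSeries.ofPowerSeries ℤ K)).symm)
      exact hq0 (tauPS_injective u hu (this.trans (map_zero _).symm))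
    have e1 := congrArg HahnSeries.order hmul
    have e2 := congrArg HahnSeries.order hmul'
    rw [HahnSeries.order_mul hs hqL] at e1
    rw [HahnSeries.order_mul hτs hτq, order_ofPowerSeries_tauPS u hu q hq0,
      order_ofPowerSeries_tauPS u hu p hp0] at e2
    linarith
  · rw [hτ, hτ₀, tauPS_self, HahnSeries.ofPowerSeries_X]

end Subst

section Chart

variable [IsAlgClosed K] [CharZero K]

/-- **Adapted charts.** If `ord_v y = e > 0`, there is a chart at `v` in which `y = X^e`. -/
theorem exists_chart_pow (h : Hyp K F) (v : Place K F) (y : F) (e : ℕ) (he : 0 < e)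
    (hy : v.ord y = (e : ℤ)) :
    ∃ σ : F →ₐ[K] LaurentSeries K, IsChart v σ ∧ σ y = HahnSeries.single (e : ℤ) (1 : K) := by
  have hy0 : y ≠ 0 := by
    rintro rfl
    rw [Place.ord_zero] at hy
    have : (e : ℤ) = 0 := hy.symm
    omega
  set σ₀ := expand h v with hσ₀
  have hch : IsChart v σ₀ := isChart_expand h v
  have hord : (σ₀ y).order = (e : ℤ) := by rw [hch y hy0, hy]
  have hσy0 : σ₀ y ≠ 0 := (map_ne_zero σ₀.toRingHom).mpr hy0
  -- `σ₀ y = X^e * w`
  set w := LaurentSeries.powerSeriesPart (σ₀ y) with hw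
  have hwdec : HahnSeries.single (e : ℤ) (1 : K) * HahnSeries.ofPowerSeries ℤ K w = σ₀ y := by
    rw [← hord]
    exact LaurentSeries.single_order_mul_powerSeriesPart (σ₀ y)
  have hwc : PowerSeries.constantCoeff w ≠ 0 := by
    rw [← PowerSeries.coeff_zero_eq_constantCoeff_apply, hw,
      LaurentSeries.powerSeriesPart_coeff]
    simpa using (HahnSeries.coeff_order_eq_zero (x := σ₀ y)).not.mpr hσy0
  obtain ⟨r, hr⟩ := exists_root w hwc e he
  have hrc : PowerSeries.constantCoeff r ≠ 0 := by
    intro h0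
    apply hwc
    rw [← hr, map_pow, h0, zero_pow he.ne']
  set u : PowerSeries K := PowerSeries.X * r with hu
  have huo : PowerSeries.order u = 1 := by
    rw [show (1 : ℕ∞) = ((1 : ℕ) : ℕ∞) from rfl, PowerSeries.order_eq_nat]
    refine ⟨?_, ?_⟩
    · rw [hu, show (1 : ℕ) = 0 + 1 from rfl, PowerSeries.coeff_succ_X_mul]
      simpa using hrc
    · intro i hi
      have : i = 0 := by omega
      subst this
      simp [hu]
  obtain ⟨τ, hτord, hτu⟩ := exists_algHom_X u huo
  refine ⟨τ.comp σ₀, ?_, ?_⟩
  · intro f hf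
    have hσf : σ₀ f ≠ 0 := (map_ne_zero σ₀.toRingHom).mpr hf
    rw [AlgHom.comp_apply, hτord _ hσf, hch f hf]
  · rw [AlgHom.comp_apply, ← hwdec, ← hr]
    have h1 : HahnSeries.single (e : ℤ) (1 : K) * HahnSeries.ofPowerSeries ℤ K (r ^ e) =
        (HahnSeries.ofPowerSeries ℤ K u) ^ e := by
      rw [hu, map_mul, mul_pow, HahnSeries.ofPowerSeries_X, map_pow, HahnSeries.single_pow]
      simp
    rw [h1, map_pow, hτu, HahnSeries.single_pow]
    simp

end Chart

end Fermat.Agent.S20.RR.Reparam
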