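import Mathlib
import Fermat.Agent.S20.RR.Defs
import Fermat.Agent.S24.KaehlerGen
import Fermat.Agent.S24.DiffOrderCore
import Fermat.Agent.S24.OrdBasic

/-!
# Riemann–Roch block, D1: local residue calculus

Chart invariance of the residue `res (f dg) = coeff_{-1} (σ f · ∂ σ g)`, linearity of the
residue, vanishing / non-vanishing criteria, and the `K`-submodule `Ω(D)`.
-/

set_option autoImplicit false

open AlgebraicCurve KaehlerDifferential IntermediateField

namespace Fermat.Agent.S20.RR.ResLocal

open Fermat.Agent.S20.RR Fermat.Agent.S24 Fermat.Agent.S24.DiffOrder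

/-! ### Formal Laurent series lemmas -/

section Laurent

variable {K : Type*} [Field K]

/-- A derivative has no `X⁻¹` term. -/
theorem coeff_neg_one_lsD (G : LaurentSeries K) : (lsD G).coeff (-1) = 0 := by
  rw [coeff_lsD]
  simp

/-- If the coefficients of `a` vanish below `m₁` and those of `b` below `m₂`, then those of
`a * b` vanish below `m₁ + m₂`. -/
theorem coeff_mul_eq_zero_of_lt {a b : LaurentSeries K} {m₁ m₂ n : ℤ}
    (ha : ∀ i < m₁, a.coeff i = 0) (hb : ∀ j < m₂, b.coeff j = 0) (hn : n < m₁ + m₂) :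
    (a * b).coeff n = 0 := by
  rcases eq_or_ne a 0 with rfl | ha0
  · simp
  rcases eq_or_ne b 0 with rfl | hb0
  · simp
  have h1 : m₁ ≤ a.order := by
    by_contra hlt
    rw [not_le] at hlt
    exact ha0 (HahnSeries.coeff_order_eq_zero.mp (ha _ hlt))
  have h2 : m₂ ≤ b.order := by
    by_contra hlt
    rw [not_le] at hlt
    exact hb0 (HahnSeries.coeff_order_eq_zero.mp (hb _ hlt))
  apply HahnSeries.coeff_eq_zero_of_lt_order
  rw [HahnSeries.order_mul ha0 hb0]
  omega

/-- The coefficients of `∂ a` vanish below `m - 1` if those of `a` vanish below `m`. -/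
theorem coeff_lsD_eq_zero_of_lt {a : LaurentSeries K} {m : ℤ}
    (ha : ∀ i < m, a.coeff i = 0) : ∀ i < m - 1, (lsD a).coeff i = 0 := by
  intro i hi
  rw [coeff_lsD, ha (i + 1) (by omega), mul_zero]

/-- The coefficients of `∂ a` vanish in negative degrees if those of `a` do. -/
theorem coeff_lsD_eq_zero_of_neg {a : LaurentSeries K}
    (ha : ∀ i < 0, a.coeff i = 0) : ∀ i < 0, (lsD a).coeff i = 0 := by
  intro i hi
  rw [coeff_lsD]
  rcases eq_or_lt_of_le (show i ≤ -1 by omega) with h | h
  · subst h; simp
  · rw [ha (i + 1) (by omega), mul_zero]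

theorem coeff_eq_zero_of_lt_of_le_order {a : LaurentSeries K} {m : ℤ} (h : a = 0 ∨ m ≤ a.order) :
    ∀ i < m, a.coeff i = 0 := by
  intro i hi
  rcases h with rfl | h
  · simp
  · exact HahnSeries.coeff_eq_zero_of_lt_order (lt_of_lt_of_le hi h)

theorem le_order_of_coeff_eq_zero {a : LaurentSeries K} {m : ℤ} (ha0 : a ≠ 0)
    (h : ∀ i < m, a.coeff i = 0) : m ≤ a.order := by
  by_contra hlt
  rw [not_le] at hlt
  exact ha0 (HahnSeries.coeff_order_eq_zero.mp (h _ hlt))

/-- For `k ≠ -1`, `u ^ k * ∂ u` is a derivative (characteristic zero), hence has no residue. -/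
theorem coeff_neg_one_zpow_mul_lsD [CharZero K] (u : LaurentSeries K) {k : ℤ} (hk : k ≠ -1) :
    (u ^ k * lsD u).coeff (-1) = 0 := by
  have hk1 : ((k + 1 : ℤ) : K) ≠ 0 := by
    have : k + 1 ≠ 0 := by omega
    exact_mod_cast this
  have h1 : lsDeriv (u ^ (k + 1)) = (k + 1) • u ^ (k + 1 - 1) • lsDeriv u :=
    Derivation.leibniz_zpow lsDeriv u (k + 1)
  rw [add_sub_cancel_right, smul_eq_mul, lsDeriv_apply, lsDeriv_apply] at h1
  have h2 : u ^ k * lsD u = HahnSeries.C (((k + 1 : ℤ) : K))⁻¹ * lsD (u ^ (k + 1)) := by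
    rw [h1, ← Int.cast_smul_eq_zsmul K, ← HahnSeries.C_mul_eq_smul, ← mul_assoc, ← map_mul,
      inv_mul_cancel₀ hk1, map_one, one_mul]
  rw [h2, HahnSeries.C_mul_eq_smul, HahnSeries.coeff_smul, coeff_neg_one_lsD, smul_zero]

/-- The logarithmic derivative of a series with nonzero constant term and no polar part has no
residue. -/
theorem coeff_neg_one_inv_mul_lsD_of_order_zero {w : LaurentSeries K} (hw0 : w ≠ 0)
    (hw : w.order = 0) : (w⁻¹ * lsD w).coeff (-1) = 0 := by
  have hwi : w⁻¹ ≠ 0 := inv_ne_zero hw0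
  have hoi : (w⁻¹).order = 0 := by
    have h1 : (w⁻¹ * w).order = (w⁻¹).order + w.order := HahnSeries.order_mul hwi hw0
    rw [inv_mul_cancel₀ hw0, HahnSeries.order_one, hw, add_zero] at h1
    exact h1.symm
  refine coeff_mul_eq_zero_of_lt (m₁ := 0) (m₂ := 0)
    (coeff_eq_zero_of_lt_of_le_order (Or.inr hoi.ge))
    (coeff_lsD_eq_zero_of_neg (coeff_eq_zero_of_lt_of_le_order (Or.inr hw.ge))) (by norm_num)

/-- **Residue of a logarithmic derivative**: `res (∂u / u) = ord u`. -/
theorem coeff_neg_one_inv_mul_lsD {u : LaurentSeries K} (hu : u ≠ 0) :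
    (u⁻¹ * lsD u).coeff (-1) = (u.order : K) := by
  set n := u.order with hn
  set w : LaurentSeries K := HahnSeries.single (-n) (1 : K) * u with hw
  have hs : (HahnSeries.single (-n) (1 : K) : LaurentSeries K) ≠ 0 := by
    rw [Ne, HahnSeries.single_eq_zero_iff]; exact one_ne_zero
  have hs' : (HahnSeries.single n (1 : K) : LaurentSeries K) ≠ 0 := by
    rw [Ne, HahnSeries.single_eq_zero_iff]; exact one_ne_zero
  have hw0 : w ≠ 0 := mul_ne_zero hs hu
  have hwo : w.order = 0 := by
    rw [hw, HahnSeries.order_mul hs hu, HahnSeries.order_single one_ne_zero, ← hn]; omega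
  have hss : (HahnSeries.single n (1 : K) : LaurentSeries K) * HahnSeries.single (-n) 1 = 1 := by
    rw [HahnSeries.single_mul_single, mul_one, add_neg_cancel]; rfl
  have hu' : u = HahnSeries.single n (1 : K) * w := by
    rw [hw, ← mul_assoc, hss, one_mul]
  have hD : lsD u = HahnSeries.C (n : K) * (HahnSeries.single (n - 1) (1 : K) * w) +
      HahnSeries.single n (1 : K) * lsD w := by
    conv_lhs => rw [hu']
    exact lsD_single_mul n w
  have hinv : u⁻¹ = HahnSeries.single (-n) (1 : K) * w⁻¹ := by
    rw [hu', mul_inv]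
    congr 1
    exact inv_eq_of_mul_eq_one_right hss
  have hkey : u⁻¹ * lsD u = HahnSeries.C (n : K) * HahnSeries.single (-1) (1 : K) +
      w⁻¹ * lsD w := by
    have e1 : (HahnSeries.single (n - 1) (1 : K) : LaurentSeries K) =
        HahnSeries.single n 1 * HahnSeries.single (-1) 1 := by
      rw [HahnSeries.single_mul_single, mul_one]; congr 1
    rw [hinv, hD, e1]
    have hsw : HahnSeries.single (-n) (1 : K) * HahnSeries.single n (1 : K) =
        (1 : LaurentSeries K) := by rw [mul_comm]; exact hss
    have hww : w⁻¹ * w = 1 := inv_mul_cancel₀ hw0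
    calc HahnSeries.single (-n) (1 : K) * w⁻¹ *
          (HahnSeries.C (n : K) * (HahnSeries.single n 1 * HahnSeries.single (-1) 1 * w) +
            HahnSeries.single n 1 * lsD w)
        = (HahnSeries.single (-n) (1 : K) * HahnSeries.single n (1 : K)) * (w⁻¹ * w) *
            (HahnSeries.C (n : K) * HahnSeries.single (-1) 1) +
          (HahnSeries.single (-n) (1 : K) * HahnSeries.single n (1 : K)) * (w⁻¹ * lsD w) := by
          ring
      _ = _ := by rw [hsw, hww]; ring
  rw [hkey, HahnSeries.coeff_add, coeff_neg_one_inv_mul_lsD_of_order_zero hw0 hwo, add_zero,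
    HahnSeries.C_mul_eq_smul, HahnSeries.coeff_smul, HahnSeries.coeff_single_same, smul_eq_mul,
    mul_one]

end Laurent

/-! ### The derivation `f ↦ ∂ (σ f)` attached to an embedding `σ : F → K((X))` -/

section ChainRule

variable {K F : Type*} [Field K] [Field F] [Algebra K F]

/-- Chain rule through an embedding `σ : F →ₐ[K] K((X))`: if `dg = c • dt` in `Ω[F⁄K]` then
`∂ (σ g) = σ c * ∂ (σ t)`. -/
theorem lsD_map_eq_of_D_eq (σ : F →ₐ[K] LaurentSeries K) {g t c : F}
    (hgt : D K F g = c • D K F t) : lsD (σ g) = σ c * lsD (σ t) := by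
  classical
  let _ : Module F (LaurentSeries K) :=
    Module.compHom (LaurentSeries K) (σ : F →+* LaurentSeries K)
  have hsmul : ∀ (f : F) (m : LaurentSeries K), f • m = σ f * m := fun f m => rfl
  have hσalg : ∀ k : K, σ (algebraMap K F k) = HahnSeries.C k := by
    intro k; rw [σ.commutes, algebraMap_laurent_eq_C]
  have : IsScalarTower K F (LaurentSeries K) := ⟨fun k f m => by
    rw [hsmul, hsmul, Algebra.smul_def, map_mul, hσalg, mul_assoc, HahnSeries.C_mul_eq_smul]⟩
  let d1 : Derivation K F (LaurentSeries K) :=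
    { toFun := fun f => lsDeriv (σ f)
      map_add' := fun f g => by rw [map_add, map_add]
      map_smul' := fun k f => by
        simp only [RingHom.id_apply]
        rw [Algebra.smul_def, map_mul, hσalg, lsDeriv_apply, lsD_C_mul, HahnSeries.C_mul_eq_smul]
        rfl
      map_one_eq_zero' := by
        show lsDeriv (σ 1) = 0
        rw [map_one, Derivation.map_one_eq_zero]
      leibniz' := fun a b => by
        show lsDeriv (σ (a * b)) = a • lsDeriv (σ b) + b • lsDeriv (σ a)
        rw [map_mul, Derivation.leibniz, hsmul, hsmul, smul_eq_mul, smul_eq_mul] }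
  have hd1 : ∀ f, d1 f = lsD (σ f) := fun f => rfl
  have h1 := KaehlerGen.derivation_apply_eq_smul d1 hgt
  rw [hd1, hd1, hsmul] at h1
  exact h1

end ChainRule

/-! ### Local residue calculus at a place -/

section Place

variable {K F : Type*} [Field K] [Field F] [Algebra K F] [CharZero K]

theorem differentialCoeff_add (h : Hyp K F) (v : Place K F) (η η' : Ω[F⁄K]) :
    v.differentialCoeff (η + η') = v.differentialCoeff η + v.differentialCoeff η' := by
  haveI := KaehlerGen.FF.dCoordGenerates h.ff v
  haveI := KaehlerGen.FF.nontrivial h.ff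
  apply v.differentialCoeff_unique
  rw [add_smul, v.differentialCoeff_smul_dCoord, v.differentialCoeff_smul_dCoord]

/-- `dg = (dg/dπ) dπ`. -/
theorem differentialCoeff_D (h : Hyp K F) (v : Place K F) (g : F) :
    D K F g = v.differentialCoeff (D K F g) • D K F (unif v) := by
  haveI := KaehlerGen.FF.dCoordGenerates h.ff v
  rw [← dCoord_eq_D_unif, v.differentialCoeff_smul_dCoord]

theorem expand_differentialCoeff_D (h : Hyp K F) (v : Place K F)
    (σ : F →ₐ[K] LaurentSeries K) (hσ : IsChart v σ) (g : F) :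
    lsD (σ g) = σ (v.differentialCoeff (D K F g)) * lsD (σ (unif v)) :=
  lsD_map_eq_of_D_eq σ (differentialCoeff_D h v g)

omit [CharZero K] in
/-- Vanishing of low coefficients does not depend on the chart. -/
theorem coeff_transfer (v : Place K F) {τ σ : F →ₐ[K] LaurentSeries K} (hτ : IsChart v τ)
    (hσ : IsChart v σ) {φ : F} {m : ℤ} (hφ : ∀ k < m, (τ φ).coeff k = 0) :
    ∀ k < m, (σ φ).coeff k = 0 := by
  rcases eq_or_ne φ 0 with rfl | h0
  · intro k _; simp
  have hτ0 : τ φ ≠ 0 := (map_ne_zero τ).mpr h0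
  have h1 : m ≤ (τ φ).order := le_order_of_coeff_eq_zero hτ0 hφ
  rw [hτ φ h0, ← hσ φ h0] at h1
  exact coeff_eq_zero_of_lt_of_le_order (Or.inr h1)

/-- **Chart invariance of the residue**, coefficient form. -/
theorem coeff_neg_one_chart (h : Hyp K F) (v : Place K F) (σ : F →ₐ[K] LaurentSeries K)
    (hσ : IsChart v σ) (φ : F) :
    (expand h v φ).coeff (-1) = (σ φ * lsD (σ (unif v))).coeff (-1) := by
  set τ := expand h v with hτdef
  have hτ : IsChart v τ := isChart_expand h v
  set π := unif v with hπdef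
  have hτπ : τ π = HahnSeries.single (1 : ℤ) (1 : K) := expand_unif h v
  set u := σ π with hu
  have hπ0 : π ≠ 0 := unif_ne_zero v
  have hu0 : u ≠ 0 := (map_ne_zero σ).mpr hπ0
  have huo : u.order = 1 := by rw [hu, hσ π hπ0, ord_unif]
  have hLu : ∀ i < 0, (lsD u).coeff i = 0 := by
    have := coeff_lsD_eq_zero_of_lt (a := u) (m := 1)
      (coeff_eq_zero_of_lt_of_le_order (Or.inr huo.ge))
    simpa using this
  have hsingle : ∀ k : ℤ, (HahnSeries.single (1 : ℤ) (1 : K)) ^ k = HahnSeries.single k (1 : K) :=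
    fun k => (RatFunc.single_zpow k).symm
  -- the statement for powers of `π`
  have hpow : ∀ k : ℤ, (τ (π ^ k)).coeff (-1) = (σ (π ^ k) * lsD u).coeff (-1) := by
    intro k
    rw [map_zpow₀, map_zpow₀, hτπ, ← hu, hsingle]
    by_cases hk : k = -1
    · subst hk
      rw [HahnSeries.coeff_single_same, zpow_neg_one, coeff_neg_one_inv_mul_lsD hu0, huo]
      simp
    · rw [HahnSeries.coeff_single_of_ne (Ne.symm hk), coeff_neg_one_zpow_mul_lsD u hk]
  -- induction on the pole order
  have key : ∀ n : ℕ, ∀ φ : F, (∀ k < -(n : ℤ), (τ φ).coeff k = 0) →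
      (τ φ).coeff (-1) = (σ φ * lsD u).coeff (-1) := by
    intro n
    induction n with
    | zero =>
      intro φ hφ
      have hφ' : ∀ k < (0 : ℤ), (τ φ).coeff k = 0 := by
        intro k hk; apply hφ; simpa using hk
      rw [hφ' (-1) (by norm_num)]
      symm
      exact coeff_mul_eq_zero_of_lt (m₁ := 0) (m₂ := 0) (coeff_transfer v hτ hσ hφ') hLu
        (by norm_num)
    | succ n ih =>
      intro φ hφ
      set c := (τ φ).coeff (-((n : ℤ) + 1)) with hc
      set φ' := φ - algebraMap K F c * π ^ (-((n : ℤ) + 1)) with hφ'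
      have hτφ' : τ φ' = τ φ - HahnSeries.single (-((n : ℤ) + 1)) c := by
        rw [hφ', map_sub, map_mul, map_zpow₀, hτπ, hsingle, τ.commutes, algebraMap_laurent_eq_C,
          HahnSeries.C_apply, HahnSeries.single_mul_single, zero_add, mul_one]
      have h' : ∀ k < -(n : ℤ), (τ φ').coeff k = 0 := by
        intro k hk
        rw [hτφ', HahnSeries.coeff_sub]
        by_cases hk' : k = -((n : ℤ) + 1)
        · subst hk'; rw [HahnSeries.coeff_single_same, sub_self]
        · rw [HahnSeries.coeff_single_of_ne hk', sub_zero]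
          apply hφ
          push_cast
          omega
      have e := ih φ' h'
      have hφeq : φ = φ' + algebraMap K F c * π ^ (-((n : ℤ) + 1)) := by
        rw [hφ', sub_add_cancel]
      rw [hφeq, map_add, map_add, map_mul, map_mul, τ.commutes, σ.commutes,
        algebraMap_laurent_eq_C, add_mul, HahnSeries.coeff_add, HahnSeries.coeff_add, e,
        mul_assoc, HahnSeries.C_mul_eq_smul, HahnSeries.C_mul_eq_smul, HahnSeries.coeff_smul,
        HahnSeries.coeff_smul, hpow]
  refine key (-(τ φ).order).toNat φ ?_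
  intro k hk
  apply HahnSeries.coeff_eq_zero_of_lt_order
  have := Int.self_le_toNat (-(τ φ).order)
  omega

/-- **Chart invariance of the residue.** -/
theorem res_smul_D_eq_coeff (h : Hyp K F) (v : Place K F) (σ : F →ₐ[K] LaurentSeries K)
    (hσ : IsChart v σ) (f g : F) :
    res h v (f • D K F g) = (σ f * lsD (σ g)).coeff (-1) := by
  haveI := KaehlerGen.FF.dCoordGenerates h.ff v
  haveI := KaehlerGen.FF.nontrivial h.ff
  unfold res
  rw [v.differentialCoeff_smul, coeff_neg_one_chart h v σ hσ, map_mul, mul_assoc,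
    ← expand_differentialCoeff_D h v σ hσ g]

theorem res_add (h : Hyp K F) (v : Place K F) (η η' : Ω[F⁄K]) :
    res h v (η + η') = res h v η + res h v η' := by
  unfold res
  rw [differentialCoeff_add h v, map_add, HahnSeries.coeff_add]

theorem differentialCoeff_algebraMap_smul (h : Hyp K F) (v : Place K F) (k : K) (η : Ω[F⁄K]) :
    v.differentialCoeff (k • η) = algebraMap K F k * v.differentialCoeff η := by
  haveI := KaehlerGen.FF.dCoordGenerates h.ff v
  haveI := KaehlerGen.FF.nontrivial h.ff
  rw [← v.differentialCoeff_smul, algebraMap_smul]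

theorem res_smul (h : Hyp K F) (v : Place K F) (k : K) (η : Ω[F⁄K]) :
    res h v (k • η) = k * res h v η := by
  unfold res
  rw [differentialCoeff_algebraMap_smul h v, map_mul, (expand h v).commutes,
    algebraMap_laurent_eq_C, HahnSeries.C_mul_eq_smul, HahnSeries.coeff_smul, smul_eq_mul]

/-- The residue at `v` as a `K`-linear form on `Ω[F⁄K]`. -/
noncomputable def resLin (h : Hyp K F) (v : Place K F) : Ω[F⁄K] →ₗ[K] K where
  toFun := res h v
  map_add' := res_add h v
  map_smul' := fun k η => by
    simp only [RingHom.id_apply, smul_eq_mul]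
    exact res_smul h v k η

@[simp]
theorem resLin_apply (h : Hyp K F) (v : Place K F) (η : Ω[F⁄K]) : resLin h v η = res h v η := rfl

@[simp]
theorem res_zero (h : Hyp K F) (v : Place K F) : res h v (0 : Ω[F⁄K]) = 0 :=
  (resLin h v).map_zero

theorem res_neg (h : Hyp K F) (v : Place K F) (η : Ω[F⁄K]) : res h v (-η) = -res h v η :=
  (resLin h v).map_neg η

theorem res_sub (h : Hyp K F) (v : Place K F) (η η' : Ω[F⁄K]) :
    res h v (η - η') = res h v η - res h v η' :=
  (resLin h v).map_sub η η'

theorem res_sum (h : Hyp K F) (v : Place K F) {ι : Type*} (s : Finset ι) (η : ι → Ω[F⁄K]) :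
    res h v (∑ i ∈ s, η i) = ∑ i ∈ s, res h v (η i) :=
  map_sum (resLin h v) η s

omit [CharZero K] in
/-- A differential which is regular at `v` has no residue at `v`. -/
theorem res_eq_zero_of_ord_nonneg (h : Hyp K F) (v : Place K F) {η : Ω[F⁄K]}
    (hη : 0 ≤ v.ordDifferential η) : res h v η = 0 := by
  unfold res
  rcases eq_or_ne (v.differentialCoeff η) 0 with h0 | h0
  · rw [h0, map_zero, HahnSeries.coeff_zero]
  · apply HahnSeries.coeff_eq_zero_of_lt_order
    rw [isChart_expand h v _ h0]
    exact lt_of_lt_of_le (by norm_num) hη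

theorem differentialCoeff_ne_zero (h : Hyp K F) (v : Place K F) {η : Ω[F⁄K]} (hη : η ≠ 0) :
    v.differentialCoeff η ≠ 0 := by
  haveI := KaehlerGen.FF.dCoordGenerates h.ff v
  intro h0
  apply hη
  rw [← v.differentialCoeff_smul_dCoord η, h0, zero_smul]

theorem differentialCoeff_eq_zero_iff (h : Hyp K F) (v : Place K F) {η : Ω[F⁄K]} :
    v.differentialCoeff η = 0 ↔ η = 0 := by
  haveI := KaehlerGen.FF.dCoordGenerates h.ff v
  haveI := KaehlerGen.FF.nontrivial h.ff
  constructor
  · intro h0
    by_contra hη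
    exact differentialCoeff_ne_zero h v hη h0
  · rintro rfl
    exact v.differentialCoeff_zero

/-- A differential of order exactly `-1` at `v` has a nonzero residue at `v`. -/
theorem res_ne_zero_of_ord_add (h : Hyp K F) (v : Place K F) {η : Ω[F⁄K]} (hη : η ≠ 0) {f : F}
    (hf : f ≠ 0) (hord : v.ord f + v.ordDifferential η = -1) : res h v (f • η) ≠ 0 := by
  haveI := KaehlerGen.FF.dCoordGenerates h.ff v
  haveI := KaehlerGen.FF.nontrivial h.ff
  unfold res
  have hx : v.differentialCoeff η ≠ 0 := differentialCoeff_ne_zero h v hη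
  have hfx : f * v.differentialCoeff η ≠ 0 := mul_ne_zero hf hx
  rw [v.differentialCoeff_smul]
  have ho : (expand h v (f * v.differentialCoeff η)).order = -1 := by
    rw [isChart_expand h v _ hfx, v.ord_mul hf hx]
    exact hord
  have hne : expand h v (f * v.differentialCoeff η) ≠ 0 := (map_ne_zero _).mpr hfx
  rw [← ho]
  exact fun h0 => hne (HahnSeries.coeff_order_eq_zero.mp h0)

theorem ordDifferential_smul (h : Hyp K F) (v : Place K F) {f : F} (hf : f ≠ 0) {η : Ω[F⁄K]}
    (hη : η ≠ 0) : v.ordDifferential (f • η) = v.ord f + v.ordDifferential η := by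
  haveI := KaehlerGen.FF.dCoordGenerates h.ff v
  haveI := KaehlerGen.FF.nontrivial h.ff
  exact ordDifferential_smul_core v f hf η hη

/-- `Ω(D)` as a `K`-submodule of `Ω[F⁄K]`. -/
noncomputable def omegaOf (h : Hyp K F) (D : Divisor K F) : Submodule K Ω[F⁄K] where
  carrier := {η | MemOmega D η}
  zero_mem' := Or.inl rfl
  add_mem' := by
    intro η η' hη hη'
    rcases eq_or_ne η 0 with rfl | h0
    · simpa using hη'
    rcases eq_or_ne η' 0 with rfl | h0'
    · simpa using hη
    rcases eq_or_ne (η + η') 0 with hs | hs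
    · exact Or.inl hs
    have hη1 := hη.resolve_left h0
    have hη1' := hη'.resolve_left h0'
    refine Or.inr fun v => ?_
    have hx := differentialCoeff_ne_zero h v h0
    have hx' := differentialCoeff_ne_zero h v h0'
    have hxs := differentialCoeff_ne_zero h v hs
    rw [differentialCoeff_add h v] at hxs
    have hge := OrdBasic.ord_add_ge v hxs hx hx'
    show D v ≤ v.ord (v.differentialCoeff (η + η'))
    rw [differentialCoeff_add h v]
    exact le_trans (le_min (hη1 v) (hη1' v)) hge
  smul_mem' := by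
    intro k η hη
    rcases eq_or_ne k 0 with rfl | hk
    · exact Or.inl (zero_smul K η)
    rcases hη with rfl | hη
    · exact Or.inl (smul_zero k)
    refine Or.inr fun v => ?_
    show D v ≤ v.ord (v.differentialCoeff (k • η))
    rw [differentialCoeff_algebraMap_smul h v]
    rcases eq_or_ne (v.differentialCoeff η) 0 with hx | hx
    · have := hη v
      rw [Place.ordDifferential, hx] at this
      rw [hx, mul_zero]
      exact this
    · rw [v.ord_mul ((map_ne_zero _).mpr hk) hx, OrdBasic.ord_algebraMap v hk, zero_add]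
      exact hη v

theorem mem_omegaOf (h : Hyp K F) (D : Divisor K F) (η : Ω[F⁄K]) :
    η ∈ omegaOf h D ↔ MemOmega D η := Iff.rfl

/-- Exact differentials have no residue. -/
theorem res_D (h : Hyp K F) (v : Place K F) (g : F) : res h v (D K F g) = 0 := by
  have := res_smul_D_eq_coeff h v (expand h v) (isChart_expand h v) 1 g
  rw [one_smul, map_one, one_mul, coeff_neg_one_lsD] at this
  exact this

/-- The residue of a logarithmic differential is the order. -/
theorem res_dlog (h : Hyp K F) (v : Place K F) {g : F} (hg : g ≠ 0) :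
    res h v (g⁻¹ • D K F g) = (v.ord g : K) := by
  rw [res_smul_D_eq_coeff h v (expand h v) (isChart_expand h v) g⁻¹ g, map_inv₀,
    coeff_neg_one_inv_mul_lsD ((map_ne_zero _).mpr hg), isChart_expand h v g hg]

end Place

end Fermat.Agent.S20.RR.ResLocal
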