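-- S20 / RR-D4a (lemmas-queue row 103): trace = sum over `n` distinct embeddings, and the
-- substitution `X ↦ ζ X^M` on `LaurentSeries K`.  Pure field theory + Hahn series; Mathlib only.
-- Owner: helper58.
import Mathlib

set_option autoImplicit false

namespace Fermat.Agent.S20.RR.TraceEmb

open HahnSeries

/-! ### Trace as a sum over a full family of embeddings -/

section Trace

/-- If `L/k` is finite separable of degree `n` and `φ` is a family of `n` distinct `k`-embeddings
`L → E` (into any field), then the trace is the sum of the `φ i`. -/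
theorem trace_eq_sum_of_card_eq {k L E ι : Type*} [Field k] [Field L] [Field E] [Algebra k L]
    [Algebra k E] [FiniteDimensional k L] [Algebra.IsSeparable k L] [Fintype ι]
    (φ : ι → L →ₐ[k] E) (hφ : Function.Injective φ)
    (hcard : Fintype.card ι = Module.finrank k L) (x : L) :
    algebraMap k E (Algebra.trace k L x) = ∑ i, φ i x := by
  let j : E →ₐ[k] AlgebraicClosure E := IsScalarTower.toAlgHom k E (AlgebraicClosure E)
  have hj : Function.Injective j := (algebraMap E (AlgebraicClosure E)).injective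
  let ψ : ι → (L →ₐ[k] AlgebraicClosure E) := fun i => j.comp (φ i)
  have hψ : Function.Injective ψ := by
    intro a b hab
    apply hφ
    ext y
    apply hj
    exact DFunLike.congr_fun hab y
  have hbij : Function.Bijective ψ :=
    (Fintype.bijective_iff_injective_and_card ψ).mpr
      ⟨hψ, by rw [hcard, AlgHom.card k L (AlgebraicClosure E)]⟩
  apply hj
  rw [AlgHom.commutes, map_sum, trace_eq_sum_embeddings (AlgebraicClosure E)]
  exact (Fintype.sum_bijective ψ hbij _ _ (fun i => rfl)).symm

end Trace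

/-! ### The substitution `X ↦ ζ X^M` on Laurent series -/

section Subst

variable {K : Type*} [Field K]

/-- Coefficient of a product of Hahn series, computed over arbitrary partially well-ordered
supersets of the two supports. -/
theorem coeff_mul_of_subset {x y : LaurentSeries K} {s t : Set ℤ} (hs : s.IsPWO) (ht : t.IsPWO)
    (hxs : x.support ⊆ s) (hyt : y.support ⊆ t) (a : ℤ) :
    (x * y).coeff a
      = ∑ ij ∈ Finset.antidiagonal hs ht a, x.coeff ij.1 * y.coeff ij.2 := by
  rw [HahnSeries.coeff_mul]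
  refine Finset.sum_subset (fun ij hij => ?_) (fun ij hij hnot => ?_)
  · rw [Finset.mem_antidiagonal] at hij ⊢
    exact ⟨hxs hij.1, hyt hij.2.1, hij.2.2⟩
  · rw [Finset.mem_antidiagonal] at hij hnot
    by_cases h1 : ij.1 ∈ x.support
    · by_cases h2 : ij.2 ∈ y.support
      · exact absurd ⟨h1, h2, hij.2.2⟩ hnot
      · rw [HahnSeries.mem_support, not_not] at h2
        rw [h2, mul_zero]
    · rw [HahnSeries.mem_support, not_not] at h1
      rw [h1, zero_mul]

/-- The underlying function of the rotation `X ↦ ζ X`: multiply the `k`-th coefficient by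
`ζ ^ k`. -/
noncomputable def rotFun (ζ : K) (f : LaurentSeries K) : LaurentSeries K :=
  HahnSeries.ofSuppBddBelow (fun k : ℤ => ζ ^ k * f.coeff k) (by
    refine ⟨f.order, fun k hk => ?_⟩
    by_contra hlt
    rw [not_le] at hlt
    apply hk
    show ζ ^ k * f.coeff k = 0
    rw [HahnSeries.coeff_eq_zero_of_lt_order hlt, mul_zero])

theorem coeff_rotFun (ζ : K) (f : LaurentSeries K) (k : ℤ) :
    (rotFun ζ f).coeff k = ζ ^ k * f.coeff k := rfl

theorem support_rotFun_subset (ζ : K) (f : LaurentSeries K) :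
    (rotFun ζ f).support ⊆ f.support := by
  intro k hk
  rw [HahnSeries.mem_support, coeff_rotFun] at hk
  rw [HahnSeries.mem_support]
  exact right_ne_zero_of_mul hk

theorem rotFun_one (ζ : K) : rotFun ζ (1 : LaurentSeries K) = 1 := by
  ext k
  rw [coeff_rotFun, HahnSeries.coeff_one]
  split_ifs with h
  · subst h; simp
  · simp

theorem rotFun_zero (ζ : K) : rotFun ζ (0 : LaurentSeries K) = 0 := by
  ext k
  rw [coeff_rotFun]
  simp

theorem rotFun_add (ζ : K) (f g : LaurentSeries K) :
    rotFun ζ (f + g) = rotFun ζ f + rotFun ζ g := by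
  ext k
  simp only [coeff_rotFun, HahnSeries.coeff_add, mul_add]

theorem rotFun_mul {ζ : K} (hζ : ζ ≠ 0) (f g : LaurentSeries K) :
    rotFun ζ (f * g) = rotFun ζ f * rotFun ζ g := by
  ext k
  rw [coeff_rotFun, HahnSeries.coeff_mul,
    coeff_mul_of_subset f.isPWO_support g.isPWO_support (support_rotFun_subset ζ f)
      (support_rotFun_subset ζ g), Finset.mul_sum]
  refine Finset.sum_congr rfl (fun ij hij => ?_)
  rw [Finset.mem_antidiagonal] at hij
  rw [coeff_rotFun, coeff_rotFun, ← hij.2.2, zpow_add₀ hζ]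
  ring

theorem rotFun_C (ζ : K) (c : K) : rotFun ζ (HahnSeries.C c) = HahnSeries.C c := by
  ext k
  rw [coeff_rotFun, HahnSeries.C_apply, HahnSeries.coeff_single]
  split_ifs with h
  · subst h; simp
  · simp

/-- The rotation `X ↦ ζ X` as a ring homomorphism. -/
noncomputable def rotHom (ζ : K) (hζ : ζ ≠ 0) : LaurentSeries K →+* LaurentSeries K where
  toFun := rotFun ζ
  map_one' := rotFun_one ζ
  map_mul' := rotFun_mul hζ
  map_zero' := rotFun_zero ζ
  map_add' := rotFun_add ζ

/-- The expansion `X ↦ X ^ M` as a ring homomorphism. -/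
noncomputable def powHom (M : ℕ) (hM : 0 < M) : LaurentSeries K →+* LaurentSeries K :=
  HahnSeries.embDomainRingHom (AddMonoidHom.mulLeft (M : ℤ))
    (mul_right_injective₀ (by exact_mod_cast hM.ne'))
    (fun _ _ => mul_le_mul_iff_of_pos_left (by exact_mod_cast hM))

theorem coeff_powHom (M : ℕ) (hM : 0 < M) (f : LaurentSeries K) (k : ℤ) :
    (powHom M hM f).coeff ((M : ℤ) * k) = f.coeff k :=
  HahnSeries.embDomain_coeff

theorem coeff_powHom_of_not_dvd (M : ℕ) (hM : 0 < M) (f : LaurentSeries K) {n : ℤ}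
    (hn : ¬ (M : ℤ) ∣ n) : (powHom M hM f).coeff n = 0 := by
  refine HahnSeries.embDomain_of_notMem_range ?_
  rintro ⟨m, rfl⟩
  exact hn ⟨m, rfl⟩

/-- The substitution `X ↦ ζ X ^ M` on Laurent series, as a `K`-algebra homomorphism. -/
noncomputable def substPow (ζ : K) (hζ : ζ ≠ 0) (M : ℕ) (hM : 0 < M) :
    LaurentSeries K →ₐ[K] LaurentSeries K where
  toRingHom := (powHom M hM).comp (rotHom ζ hζ)
  commutes' c := by
    show powHom M hM (rotFun ζ (algebraMap K (LaurentSeries K) c)) =
      algebraMap K (LaurentSeries K) c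
    rw [LaurentSeries.algebraMap_apply, rotFun_C]
    exact HahnSeries.embDomainRingHom_C

theorem substPow_apply (ζ : K) (hζ : ζ ≠ 0) (M : ℕ) (hM : 0 < M) (s : LaurentSeries K) :
    substPow ζ hζ M hM s = powHom M hM (rotFun ζ s) := rfl

theorem coeff_substPow (ζ : K) (hζ : ζ ≠ 0) (M : ℕ) (hM : 0 < M) (s : LaurentSeries K) (k : ℤ) :
    (substPow ζ hζ M hM s).coeff ((M : ℤ) * k) = ζ ^ k * s.coeff k := by
  rw [substPow_apply, coeff_powHom, coeff_rotFun]

theorem coeff_substPow_of_not_dvd (ζ : K) (hζ : ζ ≠ 0) (M : ℕ) (hM : 0 < M)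
    (s : LaurentSeries K) (n : ℤ) (hn : ¬ (M : ℤ) ∣ n) :
    (substPow ζ hζ M hM s).coeff n = 0 := by
  rw [substPow_apply]
  exact coeff_powHom_of_not_dvd M hM _ hn

theorem substPow_single (ζ : K) (hζ : ζ ≠ 0) (M : ℕ) (hM : 0 < M) (k : ℤ) :
    substPow ζ hζ M hM (HahnSeries.single k (1 : K)) = HahnSeries.single ((M : ℤ) * k) (ζ ^ k) := by
  ext n
  by_cases hn : (M : ℤ) ∣ n
  · obtain ⟨m, rfl⟩ := hn
    rw [coeff_substPow, HahnSeries.coeff_single, HahnSeries.coeff_single]
    have hM0 : (M : ℤ) ≠ 0 := by exact_mod_cast hM.ne'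
    by_cases hmk : m = k
    · subst hmk; simp
    · have : (M : ℤ) * m ≠ (M : ℤ) * k := fun h => hmk (mul_left_cancel₀ hM0 h)
      rw [if_neg hmk, if_neg this, mul_zero]
  · rw [coeff_substPow_of_not_dvd ζ hζ M hM _ n hn, HahnSeries.coeff_single, if_neg]
    rintro rfl
    exact hn ⟨k, rfl⟩

theorem substPow_injective (ζ : K) (hζ : ζ ≠ 0) (M : ℕ) (hM : 0 < M) :
    Function.Injective (substPow ζ hζ M hM) := by
  intro s t hst
  ext k
  have h := congrArg (fun u : LaurentSeries K => u.coeff ((M : ℤ) * k)) hst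
  simp only [coeff_substPow] at h
  exact mul_left_cancel₀ (zpow_ne_zero k hζ) h

end Subst

end Fermat.Agent.S20.RR.TraceEmb
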