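import Mathlib
import Fermat.Agent.S20.RR.Defs
import Fermat.Agent.S20.RR.ResLocal
import Fermat.Agent.S20.RR.Reparam
import Fermat.Agent.S20.RR.TraceEmb
import Fermat.Agent.S20.TraceEmb
import Fermat.Agent.S24.Exchange
import Fermat.Agent.S24.DiffOrderCore

/-!
# The local trace formula (row RR-D4 of the S20 Riemann–Roch wave)

`Σ_{v | a} res_v (f dx) = res_a (Tr_{F/K(x)} f dx)` for `a : K` and for `a = ∞`.
-/

set_option autoImplicit false

open AlgebraicCurve KaehlerDifferential IntermediateField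

namespace Fermat.Agent.S20.RR.LocalTrace

open Fermat.Agent.S20.RR.TraceEmb Fermat.Agent.S24.DiffOrder

section Subst

variable {K : Type*} [Field K]

/-- `substPow` multiplies orders by `M`. -/
theorem order_substPow (ζ : K) (hζ : ζ ≠ 0) (M : ℕ) (hM : 0 < M) {s : LaurentSeries K}
    (hs : s ≠ 0) : (substPow ζ hζ M hM s).order = (M : ℤ) * s.order := by
  have hne : (substPow ζ hζ M hM s).coeff ((M : ℤ) * s.order) ≠ 0 := by
    rw [coeff_substPow]
    exact mul_ne_zero (zpow_ne_zero _ hζ) (HahnSeries.coeff_order_eq_zero.not.mpr hs)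
  refine le_antisymm (HahnSeries.order_le_of_coeff_ne_zero hne) ?_
  by_contra hlt
  rw [not_le] at hlt
  have hne' : substPow ζ hζ M hM s ≠ 0 := HahnSeries.ne_zero_of_coeff_ne_zero hne
  have h0 : (substPow ζ hζ M hM s).coeff (substPow ζ hζ M hM s).order ≠ 0 :=
    HahnSeries.coeff_order_eq_zero.not.mpr hne'
  by_cases hdvd : (M : ℤ) ∣ (substPow ζ hζ M hM s).order
  · obtain ⟨j, hj⟩ := hdvd
    rw [hj, coeff_substPow] at h0
    have hjlt : j < s.order := by
      rw [hj] at hlt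
      exact lt_of_mul_lt_mul_left hlt (by positivity)
    rw [HahnSeries.coeff_eq_zero_of_lt_order hjlt, mul_zero] at h0
    exact h0 rfl
  · exact h0 (coeff_substPow_of_not_dvd ζ hζ M hM s _ hdvd)

theorem lsD_C_add_single (c : K) (n : ℤ) :
    lsD (HahnSeries.C c + HahnSeries.single n (1 : K)) = HahnSeries.single (n - 1) (n : K) := by
  ext j
  rw [coeff_lsD, HahnSeries.coeff_add, HahnSeries.C_apply]
  by_cases hj : j = n - 1
  · subst hj
    rw [sub_add_cancel, HahnSeries.coeff_single_same, HahnSeries.coeff_single_same]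
    by_cases hn : n = 0
    · subst hn; simp
    · rw [HahnSeries.coeff_single_of_ne hn]
      push_cast
      ring
  · have hj' : j + 1 ≠ n := by omega
    rw [HahnSeries.coeff_single_of_ne hj, HahnSeries.coeff_single_of_ne hj']
    by_cases h0 : j + 1 = 0
    · have : ((j : K) + 1) = 0 := by exact_mod_cast congrArg (Int.cast (R := K)) h0
      rw [this, zero_mul]
    · rw [HahnSeries.coeff_single_of_ne h0, add_zero, mul_zero]

theorem coeff_mul_single_sub_one (s : LaurentSeries K) (n : ℤ) (r : K) :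
    (s * HahnSeries.single (n - 1) r).coeff (-1) = s.coeff (-n) * r := by
  have h := HahnSeries.coeff_mul_single_add (x := s) (a := -n) (b := n - 1) (r := r)
  rwa [show -n + (n - 1) = -1 by ring] at h

end Subst


section Core

variable {K F : Type*} [Field K] [Field F] [Algebra K F]

/-- Two `K`-algebra homomorphisms out of `K⟮x⟯` agreeing at `x` are equal. -/
theorem algHom_ext_gen {x : F} {L : Type*} [Field L] [Algebra K L] {ψ₁ ψ₂ : K⟮x⟯ →ₐ[K] L}
    (h : ψ₁ (AdjoinSimple.gen K x) = ψ₂ (AdjoinSimple.gen K x)) : ψ₁ = ψ₂ := by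
  apply IntermediateField.adjoin_algHom_ext
  intro y hy
  rw [Set.mem_singleton_iff] at hy
  subst hy
  exact h

/-- A place is determined by a positive multiple of its order function. -/
theorem place_eq_of_mul_ord_eq {v w : Place K F} {a b : ℤ} (ha : 0 < a) (hb : 0 < b)
    (h : ∀ g : F, g ≠ 0 → a * v.ord g = b * w.ord g) : v = w := by
  apply Place.ext
  ext g
  rcases eq_or_ne g 0 with rfl | hg
  · simp only [zero_mem]
  constructor
  · intro hgv
    apply Fermat.Agent.S24.Expansion.mem_of_ord_nonneg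
    have h1 := Fermat.Agent.S24.Expansion.ord_nonneg_of_mem v hgv hg
    have h2 : 0 ≤ b * w.ord g := by rw [← h g hg]; positivity
    exact (mul_nonneg_iff_of_pos_left hb).mp h2
  · intro hgw
    apply Fermat.Agent.S24.Expansion.mem_of_ord_nonneg
    have h1 := Fermat.Agent.S24.Expansion.ord_nonneg_of_mem w hgw hg
    have h2 : 0 ≤ a * v.ord g := by rw [h g hg]; positivity
    exact (mul_nonneg_iff_of_pos_left ha).mp h2

variable [IsAlgClosed K] [CharZero K]

/-- **Core computation.**  Let `x : F` with `[F : K(x)] = n`, `κ₀ : K(x) → K((X))` an embedding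
with `κ₀ x = c + X^m`, and `(σ_v)_{v ∈ Z}` charts with `σ_v x = c + X^(e_v m)`,
`Σ_{v ∈ Z} e_v = n`.  Then for every `f : F` and `k : ℤ`
`coeff_k (κ₀ (Tr f)) = Σ_{v ∈ Z} e_v * coeff_{e_v k} (σ_v f)`. -/
theorem coeff_trace_eq_sum (x : F) [FiniteDimensional K⟮x⟯ F]
    (κ₀ : K⟮x⟯ →ₐ[K] LaurentSeries K) (c : K) (m : ℤ)
    (hκ₀ : κ₀ (AdjoinSimple.gen K x) = HahnSeries.C c + HahnSeries.single m (1 : K))
    (Z : Finset (Place K F)) (e : Place K F → ℕ+)
    (hsum : ∑ v ∈ Z, (e v : ℕ) = Module.finrank K⟮x⟯ F)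
    (σ : Place K F → F →ₐ[K] LaurentSeries K)
    (hchart : ∀ v ∈ Z, IsChart v (σ v))
    (hσx : ∀ v ∈ Z, σ v x = HahnSeries.C c + HahnSeries.single (((e v : ℕ) : ℤ) * m) (1 : K))
    (f : F) (k : ℤ) :
    (κ₀ (Algebra.trace K⟮x⟯ F f)).coeff k =
      ∑ v ∈ Z, ((e v : ℕ) : K) * (σ v f).coeff (((e v : ℕ) : ℤ) * k) := by
  classical
  -- the exponents
  set N : ℕ := ∏ v ∈ Z, (e v : ℕ) with hNdef
  have hN : 0 < N := Finset.prod_pos fun v _ => (e v).pos
  set M : Place K F → ℕ := fun v => ∏ w ∈ Z.erase v, (e w : ℕ) with hMdef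
  have hM : ∀ v, 0 < M v := fun v => Finset.prod_pos fun w _ => (e w).pos
  have heM : ∀ v ∈ Z, (e v : ℕ) * M v = N := fun v hv =>
    Finset.mul_prod_erase Z (fun w => (e w : ℕ)) hv
  -- roots of unity
  have hζex : ∀ v : Place K F, ∃ ζ : K, IsPrimitiveRoot ζ (e v : ℕ) := fun v => by
    have : NeZero (((e v : ℕ)) : K) := ⟨Nat.cast_ne_zero.mpr (e v).ne_zero⟩
    exact HasEnoughRootsOfUnity.exists_primitiveRoot K (e v : ℕ)
  choose ζ hζ using hζex
  have hζ0 : ∀ v, ζ v ≠ 0 := fun v => (hζ v).ne_zero (e v).ne_zero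
  have hζpow : ∀ (v : Place K F) (i : ℕ) (j : ℤ),
      (ζ v ^ i) ^ (((e v : ℕ) : ℤ) * j) = 1 := by
    intro v i j
    rw [zpow_mul, zpow_natCast, ← pow_mul, mul_comm, pow_mul, (hζ v).pow_eq_one, one_pow,
      one_zpow]
  -- the embeddings
  let S : (v : Place K F) → ℕ → (LaurentSeries K →ₐ[K] LaurentSeries K) := fun v i =>
    substPow (ζ v ^ i) (pow_ne_zero _ (hζ0 v)) (M v) (hM v)
  let τ : (Σ v : ↥Z, Fin (e (v : Place K F) : ℕ)) → F →+* LaurentSeries K := fun p =>
    ((S p.1 (p.2 : ℕ)).comp (σ p.1)).toRingHom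
  have hτ_apply : ∀ (v : ↥Z) (i : Fin (e (v : Place K F) : ℕ)) (g : F),
      τ ⟨v, i⟩ g = S v i (σ v g) := fun v i g => rfl
  let κ : K⟮x⟯ →ₐ[K] LaurentSeries K := (substPow (1 : K) one_ne_zero N hN).comp κ₀
  -- compatibility on `K⟮x⟯`
  have hτκ : ∀ p r, τ p (algebraMap K⟮x⟯ F r) = κ.toRingHom r := by
    rintro ⟨v, i⟩ r
    have hext : ((S v i).comp ((σ v).comp (IsScalarTower.toAlgHom K K⟮x⟯ F))) = κ := by
      apply algHom_ext_gen
      have h1 : (IsScalarTower.toAlgHom K K⟮x⟯ F) (AdjoinSimple.gen K x) = x := rfl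
      simp only [AlgHom.comp_apply, h1, κ]
      rw [hσx v v.2, hκ₀, map_add, map_add, ← algebraMap_laurent_eq_C, AlgHom.commutes,
        AlgHom.commutes]
      congr 1
      simp only [S]
      have hMe : ((M v : ℤ) * (((e (v : Place K F) : ℕ)) : ℤ)) = (N : ℤ) := by
        have := heM v v.2
        rw [mul_comm] at this
        exact_mod_cast this
      rw [substPow_single, substPow_single, hζpow, one_zpow, ← mul_assoc, hMe]
    exact DFunLike.congr_fun hext r
  -- orders
  have hτord : ∀ (v : ↥Z) (i : Fin (e (v : Place K F) : ℕ)) (g : F), g ≠ 0 →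
      (τ ⟨v, i⟩ g).order = (M v : ℤ) * (v : Place K F).ord g := by
    intro v i g hg
    rw [hτ_apply]
    have hne : σ v g ≠ 0 := (map_ne_zero_iff _ (σ v).toRingHom.injective).mpr hg
    simp only [S]
    rw [order_substPow _ _ _ _ hne, hchart v v.2 g hg]
  -- injectivity
  have hinj : Function.Injective τ := by
    rintro ⟨v, i⟩ ⟨w, j⟩ hpq
    have hvw : (v : Place K F) = w := by
      apply place_eq_of_mul_ord_eq (a := (M v : ℤ)) (b := (M w : ℤ))
        (by exact_mod_cast hM v) (by exact_mod_cast hM w)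
      intro g hg
      rw [← hτord v i g hg, ← hτord w j g hg, hpq]
    obtain rfl : v = w := Subtype.ext hvw
    have hij : (i : ℕ) = j := by
      set π := unif (v : Place K F) with hπ
      have hπ0 : π ≠ 0 := unif_ne_zero _
      have hne : σ v π ≠ 0 := (map_ne_zero_iff _ (σ v).toRingHom.injective).mpr hπ0
      have hord : (σ v π).order = 1 := by rw [hchart v v.2 π hπ0, ord_unif]
      have hc1 : (σ v π).coeff 1 ≠ 0 := by
        rw [← hord]; exact HahnSeries.coeff_order_eq_zero.not.mpr hne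
      have h1 := congrArg (fun t : F →+* LaurentSeries K => (t π).coeff ((M v : ℤ) * 1)) hpq
      simp only [hτ_apply, S] at h1
      rw [coeff_substPow, coeff_substPow, zpow_one, zpow_one] at h1
      have h2 := mul_right_cancel₀ hc1 h1
      exact (hζ v).pow_inj i.2 j.2 h2
    have : i = j := Fin.ext hij
    subst this
    rfl
  -- cardinality
  have hcard : Fintype.card (Σ v : ↥Z, Fin (e (v : Place K F) : ℕ)) =
      Module.finrank K⟮x⟯ F := by
    rw [Fintype.card_sigma, ← hsum]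
    simp only [Fintype.card_fin]
    exact Finset.sum_coe_sort Z (fun v => (e v : ℕ))
  -- separability
  have : CharZero K⟮x⟯ := charZero_of_injective_algebraMap (algebraMap K K⟮x⟯).injective
  -- the trace formula
  have htr := Fermat.Agent.S20.TraceEmb.trace_eq_sum_ringHom κ.toRingHom τ hτκ hinj hcard f
  -- compare coefficients at `N * k`
  have hL : (κ.toRingHom (Algebra.trace K⟮x⟯ F f)).coeff ((N : ℤ) * k) =
      (κ₀ (Algebra.trace K⟮x⟯ F f)).coeff k := by
    show ((substPow (1 : K) one_ne_zero N hN) (κ₀ _)).coeff ((N : ℤ) * k) = _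
    rw [coeff_substPow, one_zpow, one_mul]
  rw [← hL, htr, HahnSeries.coeff_sum, Fintype.sum_sigma]
  rw [← Finset.sum_coe_sort Z
    (fun v => ((e v : ℕ) : K) * (σ v f).coeff (((e v : ℕ) : ℤ) * k))]
  refine Finset.sum_congr rfl fun v _ => ?_
  have hterm : ∀ i : Fin (e (v : Place K F) : ℕ),
      (τ ⟨v, i⟩ f).coeff ((N : ℤ) * k) = (σ v f).coeff (((e (v : Place K F) : ℕ) : ℤ) * k) := by
    intro i
    have hNk : (N : ℤ) * k = (M v : ℤ) * ((((e (v : Place K F) : ℕ)) : ℤ) * k) := by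
      rw [← mul_assoc]
      congr 1
      have := heM v v.2
      rw [mul_comm] at this
      exact_mod_cast this.symm
    rw [hτ_apply, hNk]
    simp only [S]
    rw [coeff_substPow, hζpow, one_mul]
  rw [Finset.sum_congr rfl fun i _ => hterm i, Finset.sum_const, Finset.card_univ,
    Fintype.card_fin, nsmul_eq_mul]

end Core

section Apply

variable {K F : Type*} [Field K] [Field F] [Algebra K F] [IsAlgClosed K] [CharZero K]

/-- **Local trace formula at a finite point `x = a`.** -/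
theorem sum_res_zerosOver_of (h : Hyp K F) (x : F) (hx : Transcendental K x)
    [FiniteDimensional K⟮x⟯ F] (a : K) (κ₀ : K⟮x⟯ →ₐ[K] LaurentSeries K)
    (hκ₀ : κ₀ (AdjoinSimple.gen K x) = HahnSeries.C a + HahnSeries.single 1 (1 : K)) (f : F) :
    ∑ᶠ v ∈ Fermat.Agent.S24.zerosOver x a, res h v (f • D K F x) =
      (κ₀ (Algebra.trace K⟮x⟯ F f)).coeff (-1) := by
  classical
  set y : F := x - algebraMap K F a with hy
  have hytr : Transcendental K y := Fermat.Agent.S24.Exchange.transcendental_sub_algebraMap hx a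
  have hy0 : y ≠ 0 := fun h0 => hytr (h0 ▸ isAlgebraic_zero)
  have hfin : (Fermat.Agent.S24.zerosOver x a).Finite :=
    (h.fin y hy0).subset fun v hv => ne_of_gt hv
  set Z : Finset (Place K F) := hfin.toFinset with hZ
  have hmemZ : ∀ v, v ∈ Z ↔ 0 < v.ord y := fun v => by
    rw [hZ, Set.Finite.mem_toFinset]; rfl
  -- ramification indices
  let e : Place K F → ℕ+ := fun v =>
    if hv : 0 < v.ord y then ⟨(v.ord y).toNat, by omega⟩ else 1
  have he : ∀ v ∈ Z, (((e v : ℕ)) : ℤ) = v.ord y := by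
    intro v hv
    have hv' := (hmemZ v).mp hv
    have hev : e v = ⟨(v.ord y).toNat, by omega⟩ := dif_pos hv'
    rw [hev, PNat.mk_coe]
    omega
  have hsum : ∑ v ∈ Z, (e v : ℕ) = Module.finrank K⟮x⟯ F := by
    have h1 := h.zeros y hytr
    rw [Fermat.Agent.S24.Exchange.finrank_adjoin_sub_algebraMap x a] at h1
    have h2 : ∑ᶠ v ∈ {v : Place K F | 0 < v.ord y}, v.ord y = ∑ v ∈ Z, v.ord y :=
      finsum_mem_eq_finite_toFinset_sum _ hfin
    rw [h2, ← Finset.sum_congr rfl he] at h1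
    exact_mod_cast h1
  -- adapted charts
  have hσex : ∀ v : Place K F, ∃ σ : F →ₐ[K] LaurentSeries K,
      v ∈ Z → IsChart v σ ∧ σ y = HahnSeries.single (((e v : ℕ)) : ℤ) (1 : K) := by
    intro v
    by_cases hv : v ∈ Z
    · obtain ⟨σ, h1, h2⟩ := Reparam.exists_chart_pow h v y (e v : ℕ) (e v).pos (he v hv).symm
      exact ⟨σ, fun _ => ⟨h1, h2⟩⟩
    · exact ⟨expand h v, fun hv' => absurd hv' hv⟩
  choose σ hσ using hσex
  have hσx : ∀ v ∈ Z, σ v x =
      HahnSeries.C a + HahnSeries.single ((((e v : ℕ)) : ℤ) * 1) (1 : K) := by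
    intro v hv
    have hxy : x = algebraMap K F a + y := by rw [hy]; ring
    rw [hxy, map_add, AlgHom.commutes, (hσ v hv).2, algebraMap_laurent_eq_C, mul_one]
  have hcore := coeff_trace_eq_sum x κ₀ a 1 hκ₀ Z e hsum σ
    (fun v hv => (hσ v hv).1) hσx f (-1)
  rw [finsum_mem_eq_finite_toFinset_sum _ hfin, hcore]
  refine Finset.sum_congr rfl fun v hv => ?_
  rw [ResLocal.res_smul_D_eq_coeff h v (σ v) (hσ v hv).1 f x, hσx v hv, lsD_C_add_single]
  rw [coeff_mul_single_sub_one, show -((((e v : ℕ)) : ℤ) * 1) = (((e v : ℕ)) : ℤ) * -1 by ring]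
  push_cast
  ring

/-- **Local trace formula at `x = ∞`.** -/
theorem sum_res_polesOf_of (h : Hyp K F) (x : F) (hx : Transcendental K x)
    [FiniteDimensional K⟮x⟯ F] (κ₀ : K⟮x⟯ →ₐ[K] LaurentSeries K)
    (hκ₀ : κ₀ (AdjoinSimple.gen K x) = HahnSeries.single (-1 : ℤ) (1 : K)) (f : F) :
    ∑ᶠ v ∈ Fermat.Agent.S24.polesOf K x, res h v (f • D K F x) =
      -(κ₀ (Algebra.trace K⟮x⟯ F f)).coeff 1 := by
  classical
  have hx0 : x ≠ 0 := fun h0 => hx (h0 ▸ isAlgebraic_zero)
  set y : F := x⁻¹ with hy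
  have hytr : Transcendental K y := Fermat.Agent.S24.Exchange.transcendental_inv hx
  have hfin : (Fermat.Agent.S24.polesOf K x).Finite :=
    (h.fin x hx0).subset fun v hv => ne_of_lt hv
  set Z : Finset (Place K F) := hfin.toFinset with hZ
  have hmemZ : ∀ v, v ∈ Z ↔ v.ord x < 0 := fun v => by
    rw [hZ, Set.Finite.mem_toFinset]; rfl
  have hordy : ∀ v : Place K F, v.ord y = -v.ord x := fun v => by rw [hy, Place.ord_inv]
  let e : Place K F → ℕ+ := fun v =>
    if hv : v.ord x < 0 then ⟨(-v.ord x).toNat, by omega⟩ else 1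
  have he : ∀ v ∈ Z, (((e v : ℕ)) : ℤ) = v.ord y := by
    intro v hv
    have hv' := (hmemZ v).mp hv
    have hev : e v = ⟨(-v.ord x).toNat, by omega⟩ := dif_pos hv'
    rw [hordy, hev, PNat.mk_coe]
    omega
  have hset : {v : Place K F | 0 < v.ord y} = Fermat.Agent.S24.polesOf K x := by
    ext v
    rw [Fermat.Agent.S24.mem_polesOf]
    show 0 < v.ord y ↔ _
    rw [hordy]
    omega
  have hsum : ∑ v ∈ Z, (e v : ℕ) = Module.finrank K⟮x⟯ F := by
    have h1 := h.zeros y hytr
    rw [hy, Fermat.Agent.S24.Exchange.finrank_adjoin_inv x, ← hy, hset] at h1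
    have h2 : ∑ᶠ v ∈ Fermat.Agent.S24.polesOf K x, v.ord y = ∑ v ∈ Z, v.ord y :=
      finsum_mem_eq_finite_toFinset_sum _ hfin
    rw [h2, ← Finset.sum_congr rfl he] at h1
    exact_mod_cast h1
  have hσex : ∀ v : Place K F, ∃ σ : F →ₐ[K] LaurentSeries K,
      v ∈ Z → IsChart v σ ∧ σ y = HahnSeries.single (((e v : ℕ)) : ℤ) (1 : K) := by
    intro v
    by_cases hv : v ∈ Z
    · obtain ⟨σ, h1, h2⟩ := Reparam.exists_chart_pow h v y (e v : ℕ) (e v).pos (he v hv).symm
      exact ⟨σ, fun _ => ⟨h1, h2⟩⟩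
    · exact ⟨expand h v, fun hv' => absurd hv' hv⟩
  choose σ hσ using hσex
  have hσx : ∀ v ∈ Z, σ v x =
      HahnSeries.C 0 + HahnSeries.single ((((e v : ℕ)) : ℤ) * -1) (1 : K) := by
    intro v hv
    have h1 : σ v x * HahnSeries.single (((e v : ℕ)) : ℤ) (1 : K) = 1 := by
      rw [← (hσ v hv).2, ← map_mul, hy, mul_inv_cancel₀ hx0, map_one]
    have h2 : HahnSeries.single ((((e v : ℕ)) : ℤ) * -1) (1 : K) *
        HahnSeries.single (((e v : ℕ)) : ℤ) (1 : K) = 1 := by
      rw [HahnSeries.single_mul_single, mul_one, mul_neg_one, neg_add_cancel]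
      rfl
    have hne : HahnSeries.single (((e v : ℕ)) : ℤ) (1 : K) ≠ 0 :=
      HahnSeries.single_ne_zero one_ne_zero
    rw [map_zero, zero_add]
    exact mul_right_cancel₀ hne (h1.trans h2.symm)
  have hκ : κ₀ (AdjoinSimple.gen K x) =
      HahnSeries.C 0 + HahnSeries.single (-1 : ℤ) (1 : K) := by
    rw [hκ₀, map_zero, zero_add]
  have hcore := coeff_trace_eq_sum x κ₀ 0 (-1) hκ Z e hsum σ
    (fun v hv => (hσ v hv).1) hσx f 1
  rw [finsum_mem_eq_finite_toFinset_sum _ hfin, hcore, ← Finset.sum_neg_distrib]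
  refine Finset.sum_congr rfl fun v hv => ?_
  rw [ResLocal.res_smul_D_eq_coeff h v (σ v) (hσ v hv).1 f x, hσx v hv, lsD_C_add_single]
  rw [coeff_mul_single_sub_one, show -((((e v : ℕ)) : ℤ) * -1) = (((e v : ℕ)) : ℤ) * 1 by ring]
  push_cast
  ring

end Apply

end Fermat.Agent.S20.RR.LocalTrace
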