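import Fermat.Agent.S20.RR.Defs
import Fermat.Agent.S24.OrdBasic
import Fermat.Agent.S24.KaehlerGen
import Fermat.Agent.S24.DiffOrder

/-!
# RR-D5: the residue theorem `Σ_v res_v η = 0` on a function field of one variable

Block RR of the S20 wave, row D5.  `K` algebraically closed of characteristic zero, `F / K` a
function field of one variable with the standing hypotheses `Hyp K F`.

The file is organised in two layers.

* The **bookkeeping core** (`res_finite_support_of`, `residue_theorem_core`): the global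
  statements deduced from
  - `hD1`: a differential that is regular at `v` has residue zero at `v` (row D1,
    `ResLocal.res_eq_zero_of_ord_nonneg`);
  - `hD3`: the residue theorem on `ℙ¹`, in the abstract shape `∑ᶠ a, rA a r = rI r` (row D3,
    `ResP1.sum_res_eq` with `rA a r = (iotaAt hx a r).coeff (-1)`, `rI r = (iotaInf hx r).coeff 1`);
  - `hD4z`, `hD4p`: the local trace formulas over a finite point and over `∞` (row D4,
    `LocalTrace.sum_res_zerosOver`, `LocalTrace.sum_res_polesOf`, with `T = Algebra.trace K⟮x⟯ F`).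
  These are explicit hypotheses, so that this file depends only on `RR/Defs` and S24 Part A.
* The covering / disjointness lemmas `cover`, `eq_of_mem_zerosOver`,
  `not_mem_zerosOver_of_mem_polesOf` for the fibres of `x : F → ℙ¹(K)`, from `Hyp K F` alone.
-/

set_option autoImplicit false

open AlgebraicCurve KaehlerDifferential IntermediateField

namespace Fermat.Agent.S20.RR.ResidueThm

open Fermat.Agent.S24 (zerosOver polesOf mem_zerosOver mem_polesOf)
open Fermat.Agent.S24.OrdBasic

variable {K F : Type*} [Field K] [Field F] [Algebra K F]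

/-! ### The fibres of `x : F → ℙ¹(K)` -/

theorem ne_zero_of_transcendental {x : F} (hx : Transcendental K x) : x ≠ 0 := by
  rintro rfl
  exact hx isAlgebraic_zero

theorem sub_algebraMap_ne_zero {x : F} (hx : Transcendental K x) (a : K) :
    x - algebraMap K F a ≠ 0 := by
  intro h0
  apply hx
  rw [sub_eq_zero.mp h0]
  exact isAlgebraic_algebraMap a

/-- A pole of `x` is not a zero of any `x - a`. -/
theorem not_mem_zerosOver_of_mem_polesOf {x : F} {v : Place K F}
    (hv : v ∈ polesOf K x) (a : K) : v ∉ zerosOver x a := by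
  intro hva
  rw [mem_polesOf] at hv
  rw [mem_zerosOver, ord_sub_algebraMap_of_neg v hv a] at hva
  omega

/-- A place is a zero of `x - a` for at most one `a`. -/
theorem eq_of_mem_zerosOver {x : F} (hx : Transcendental K x) {v : Place K F} {a b : K}
    (ha : v ∈ zerosOver x a) (hb : v ∈ zerosOver x b) : a = b := by
  by_contra hab
  rw [mem_zerosOver] at ha hb
  have hxa := sub_algebraMap_ne_zero hx a
  have hxb := sub_algebraMap_ne_zero hx b
  have hba : b - a ≠ 0 := sub_ne_zero.mpr (Ne.symm hab)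
  have hc : algebraMap K F (b - a) ≠ 0 := (map_ne_zero _).mpr hba
  have hsub : (x - algebraMap K F a) - (x - algebraMap K F b) = algebraMap K F (b - a) := by
    rw [map_sub]; ring
  have h := ord_sub_ge v (by rw [hsub]; exact hc) hxa hxb
  rw [hsub, ord_algebraMap v hba] at h
  have : 0 < min (v.ord (x - algebraMap K F a)) (v.ord (x - algebraMap K F b)) := lt_min ha hb
  omega

theorem disjoint_zerosOver {x : F} (hx : Transcendental K x) {a b : K} (hab : a ≠ b) :
    Disjoint (zerosOver (F := F) x a) (zerosOver x b) :=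
  Set.disjoint_left.mpr fun _ ha hb => hab (eq_of_mem_zerosOver hx ha hb)

theorem disjoint_zerosOver_polesOf (x : F) (a : K) :
    Disjoint (zerosOver (F := F) x a) (polesOf K x) :=
  Set.disjoint_left.mpr fun _ ha hp => not_mem_zerosOver_of_mem_polesOf hp a ha

/-- Every place is a pole of `x` or a zero of `x - a` for some `a : K`. -/
theorem cover (h : Hyp K F) {x : F} (hx : Transcendental K x) (v : Place K F) :
    v ∈ polesOf K x ∨ ∃ a : K, v ∈ zerosOver x a := by
  by_cases hv : v.ord x < 0
  · exact Or.inl hv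
  · right
    obtain ⟨c, hc | hc⟩ := h.res v x (ne_zero_of_transcendental hx) (not_lt.mp hv)
    · exact absurd (hc ▸ isAlgebraic_algebraMap c) hx
    · exact ⟨c, hc⟩

theorem zerosOver_finite (h : Hyp K F) {x : F} (hx : Transcendental K x) (a : K) :
    (zerosOver (F := F) x a).Finite :=
  (h.fin _ (sub_algebraMap_ne_zero hx a)).subset fun _ hv => ne_of_gt hv

theorem polesOf_finite (h : Hyp K F) {x : F} (hx : Transcendental K x) :
    (polesOf K x).Finite :=
  (h.fin x (ne_zero_of_transcendental hx)).subset fun _ hv => ne_of_lt hv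

/-! ### Regularity of `f dx` away from the poles of `x` and `f` -/

section

variable [IsAlgClosed K] [CharZero K]

/-- `dx` is regular at every place that is not a pole of `x`. -/
theorem ordDifferential_D_nonneg (h : Hyp K F) {x : F} (hx : Transcendental K x)
    (v : Place K F) (hv : 0 ≤ v.ord x) : 0 ≤ v.ordDifferential (D K F x) := by
  rcases cover h hx v with hp | ⟨a, ha⟩
  · rw [mem_polesOf] at hp
    omega
  · have hD : D K F (x - algebraMap K F a) = D K F x := by
      rw [map_sub, Derivation.map_algebraMap, sub_zero]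
    rw [← hD, Fermat.Agent.S24.DiffOrder.ordDifferential_D h.ff v _ (ne_of_gt ha)]
    rw [mem_zerosOver] at ha
    omega

omit [IsAlgClosed K] in
theorem ordDifferential_zero_nonneg (h : Hyp K F) (v : Place K F) :
    0 ≤ v.ordDifferential (0 : Ω[F⁄K]) := by
  have := Fermat.Agent.S24.KaehlerGen.FF.dCoordGenerates h.ff v
  have := Fermat.Agent.S24.KaehlerGen.FF.nontrivial h.ff
  rw [Place.ordDifferential, Place.differentialCoeff_zero, Place.ord_zero]

/-- `f dx` is regular at every place that is neither a pole of `x` nor a pole of `f`. -/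
theorem ordDifferential_smul_D_nonneg (h : Hyp K F) {x : F} (hx : Transcendental K x)
    (f : F) (v : Place K F) (hvx : 0 ≤ v.ord x) (hvf : 0 ≤ v.ord f) :
    0 ≤ v.ordDifferential (f • D K F x) := by
  rcases eq_or_ne f 0 with rfl | hf
  · rw [zero_smul]
    exact ordDifferential_zero_nonneg h v
  · rw [Fermat.Agent.S24.DiffOrder.ordDifferential_smul' h.ff v f hf _
      (Fermat.Agent.S24.KaehlerGen.FF.D_ne_zero h.ff hx)]
    have := ordDifferential_D_nonneg h hx v hvx
    omega

/-- **Finite support of the residues**, from row D1 (`hD1`). -/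
theorem res_finite_support_of (h : Hyp K F)
    (hD1 : ∀ (v : Place K F) (η : Ω[F⁄K]), 0 ≤ v.ordDifferential η → res h v η = 0)
    (η : Ω[F⁄K]) : {v : Place K F | res h v η ≠ 0}.Finite := by
  obtain ⟨x, hx, hfin⟩ := id h.ff
  have := hfin
  have : Algebra.IsAlgebraic K⟮x⟯ F := Algebra.IsAlgebraic.of_finite _ _
  obtain ⟨f, rfl⟩ := Fermat.Agent.S24.KaehlerGen.exists_eq_smul_D x η
  rcases eq_or_ne f 0 with rfl | hf
  · have h0 : ∀ v : Place K F, res h v ((0 : F) • D K F x) = 0 := fun v =>
      hD1 v _ (by rw [zero_smul]; exact ordDifferential_zero_nonneg h v)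
    have hempty : {v : Place K F | res h v ((0 : F) • D K F x) ≠ 0} = ∅ :=
      Set.eq_empty_of_forall_notMem fun v hv => hv (h0 v)
    rw [hempty]
    exact Set.finite_empty
  · refine ((h.fin x (ne_zero_of_transcendental hx)).union (h.fin f hf)).subset ?_
    intro v hv
    by_contra hnot
    simp only [Set.mem_union, Set.mem_ofPred_eq, not_or, not_not] at hnot
    exact hv (hD1 v _ (ordDifferential_smul_D_nonneg h hx f v (by omega) (by omega)))

/-- **Bookkeeping core of the residue theorem.**  `T` plays the role of the trace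
`Algebra.trace K⟮x⟯ F`, `rA a r` the residue of `r dx` at `x = a` on `ℙ¹`, `rI r` *minus* the
residue of `r dx` at `x = ∞` on `ℙ¹`. -/
theorem residue_theorem_core (h : Hyp K F)
    (hD1 : ∀ (v : Place K F) (η : Ω[F⁄K]), 0 ≤ v.ordDifferential η → res h v η = 0)
    {x : F} (hx : Transcendental K x) [Algebra.IsAlgebraic K⟮x⟯ F]
    {E : Type*} (T : F → E) (rA : K → E → K) (rI : E → K)
    (hD3 : ∀ r : E, ∑ᶠ a : K, rA a r = rI r)
    (hD4z : ∀ (a : K) (f : F),
      ∑ᶠ v ∈ zerosOver x a, res h v (f • D K F x) = rA a (T f))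
    (hD4p : ∀ f : F, ∑ᶠ v ∈ polesOf K x, res h v (f • D K F x) = -rI (T f))
    (η : Ω[F⁄K]) : ∑ᶠ v : Place K F, res h v η = 0 := by
  classical
  obtain ⟨f, rfl⟩ := Fermat.Agent.S24.KaehlerGen.exists_eq_smul_D x η
  set ρ : Place K F → K := fun v => res h v (f • D K F x) with hρ
  have hS : (Function.support ρ).Finite := res_finite_support_of h hD1 (f • D K F x)
  -- the finite set of points `a` with a contributing place over them
  set A : Set K := {a | ∃ v ∈ Function.support ρ, v ∈ zerosOver x a} with hA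
  have hAfin : A.Finite := by
    have hsub : A ⊆ ⋃ v ∈ Function.support ρ, {a | v ∈ zerosOver x a} := by
      rintro a ⟨v, hv, hva⟩
      exact Set.mem_biUnion hv hva
    refine (Set.Finite.biUnion hS fun v _ => ?_).subset hsub
    exact Set.Subsingleton.finite fun a ha b hb => eq_of_mem_zerosOver hx ha hb
  have hZfin : ∀ a, (zerosOver (F := F) x a).Finite := zerosOver_finite h hx
  have hPfin : (polesOf K x).Finite := polesOf_finite h hx
  have hsupp : Function.support ρ ⊆ (⋃ a ∈ A, zerosOver x a) ∪ polesOf K x := by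
    intro v hv
    rcases cover h hx v with hp | ⟨a, ha⟩
    · exact Or.inr hp
    · exact Or.inl (Set.mem_biUnion (show a ∈ A from ⟨v, hv, ha⟩) ha)
  have hdisj : Disjoint (⋃ a ∈ A, zerosOver (F := F) x a) (polesOf K x) := by
    rw [Set.disjoint_left]
    intro v hv hp
    simp only [Set.mem_iUnion] at hv
    obtain ⟨a, -, hva⟩ := hv
    exact not_mem_zerosOver_of_mem_polesOf hp a hva
  have hUfin : (⋃ a ∈ A, zerosOver (F := F) x a).Finite := hAfin.biUnion fun a _ => hZfin a
  -- step 1: restrict the sum to the union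
  have h1 : ∑ᶠ v : Place K F, ρ v
      = ∑ᶠ v ∈ (⋃ a ∈ A, zerosOver x a) ∪ polesOf K x, ρ v := by
    rw [← finsum_mem_univ]
    refine finsum_mem_inter_support_eq' ρ _ _ fun v hv => ?_
    exact ⟨fun _ => hsupp hv, fun _ => Set.mem_univ v⟩
  -- step 2: split off the poles
  have h2 : ∑ᶠ v ∈ (⋃ a ∈ A, zerosOver x a) ∪ polesOf K x, ρ v
      = ∑ᶠ v ∈ ⋃ a ∈ A, zerosOver x a, ρ v + ∑ᶠ v ∈ polesOf K x, ρ v :=
    finsum_mem_union hdisj hUfin hPfin
  -- step 3: the finite fibres
  have h3 : ∑ᶠ v ∈ ⋃ a ∈ A, zerosOver x a, ρ v = ∑ᶠ a ∈ A, ∑ᶠ v ∈ zerosOver x a, ρ v :=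
    finsum_mem_biUnion (fun a _ b _ hab => disjoint_zerosOver hx hab) hAfin fun a _ => hZfin a
  -- step 4: outside `A` the fibre sums vanish
  have h4 : ∑ᶠ a ∈ A, ∑ᶠ v ∈ zerosOver x a, ρ v = ∑ᶠ a : K, rA a (T f) := by
    have hcongr : ∀ a, ∑ᶠ v ∈ zerosOver x a, ρ v = rA a (T f) := fun a => hD4z a f
    have hout : ∀ a ∈ Function.support (fun a => rA a (T f)), a ∈ A := by
      intro a ha
      by_contra haA
      apply ha
      show rA a (T f) = 0
      rw [← hcongr a]
      refine finsum_mem_eq_zero_of_forall_eq_zero fun v hv => ?_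
      by_contra hne
      exact haA ⟨v, hne, hv⟩
    calc ∑ᶠ a ∈ A, ∑ᶠ v ∈ zerosOver x a, ρ v
        = ∑ᶠ a ∈ A, rA a (T f) := finsum_mem_congr rfl fun a _ => hcongr a
      _ = ∑ᶠ a ∈ (Set.univ : Set K), rA a (T f) :=
          finsum_mem_inter_support_eq' (fun a => rA a (T f)) _ _ fun a ha =>
            ⟨fun _ => Set.mem_univ a, fun _ => hout a ha⟩
      _ = ∑ᶠ a : K, rA a (T f) := finsum_mem_univ _
  rw [h1, h2, h3, h4, hD3, hD4p f, add_neg_cancel]

/-- The residue theorem in the posted shapes of rows D3 / D4, with `iotaAt`, `iotaInf` abstract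
(to be instantiated with `ResP1.iotaAt hx`, `ResP1.iotaInf hx`). -/
theorem residue_theorem_of (h : Hyp K F)
    (hD1 : ∀ (v : Place K F) (η : Ω[F⁄K]), 0 ≤ v.ordDifferential η → res h v η = 0)
    {x : F} (hx : Transcendental K x) [FiniteDimensional K⟮x⟯ F]
    (iotaAt : K → K⟮x⟯ →ₐ[K] LaurentSeries K) (iotaInf : K⟮x⟯ →ₐ[K] LaurentSeries K)
    (hD3 : ∀ r : K⟮x⟯, ∑ᶠ a : K, (iotaAt a r).coeff (-1) = (iotaInf r).coeff 1)
    (hD4z : ∀ (a : K) (f : F), ∑ᶠ v ∈ zerosOver x a, res h v (f • D K F x)
      = (iotaAt a (Algebra.trace K⟮x⟯ F f)).coeff (-1))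
    (hD4p : ∀ f : F, ∑ᶠ v ∈ polesOf K x, res h v (f • D K F x)
      = -(iotaInf (Algebra.trace K⟮x⟯ F f)).coeff 1)
    (η : Ω[F⁄K]) : ∑ᶠ v : Place K F, res h v η = 0 := by
  have : Algebra.IsAlgebraic K⟮x⟯ F := Algebra.IsAlgebraic.of_finite _ _
  exact residue_theorem_core h hD1 hx (fun f => Algebra.trace K⟮x⟯ F f)
    (fun a r => (iotaAt a r).coeff (-1)) (fun r => (iotaInf r).coeff 1) hD3 hD4z hD4p η

/-! ### Final form of the finite-support statement (no dependency on row D1) -/

omit [IsAlgClosed K] [CharZero K] in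
/-- A differential that is regular at `v` has residue zero at `v` (this is also
`ResLocal.res_eq_zero_of_ord_nonneg` of row D1; reproved here to keep the file self-contained). -/
theorem res_eq_zero_of_ord_nonneg (h : Hyp K F) (v : Place K F) {η : Ω[F⁄K]}
    (hη : 0 ≤ v.ordDifferential η) : res h v η = 0 := by
  unfold res
  rcases eq_or_ne (v.differentialCoeff η) 0 with hg | hg
  · rw [hg, map_zero, HahnSeries.coeff_zero]
  · apply HahnSeries.coeff_eq_zero_of_lt_order
    rw [isChart_expand h v _ hg]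
    unfold Place.ordDifferential at hη
    omega

/-- **Finite support of the residues.** -/
theorem res_finite_support (h : Hyp K F) (η : Ω[F⁄K]) :
    {v : Place K F | res h v η ≠ 0}.Finite :=
  res_finite_support_of h (fun v _ hη => res_eq_zero_of_ord_nonneg h v hη) η

/-- The residue theorem from rows D3 / D4 only (in the posted shapes, `iotaAt`, `iotaInf`
abstract). -/
theorem residue_theorem_of_trace (h : Hyp K F)
    {x : F} (hx : Transcendental K x) [FiniteDimensional K⟮x⟯ F]
    (iotaAt : K → K⟮x⟯ →ₐ[K] LaurentSeries K) (iotaInf : K⟮x⟯ →ₐ[K] LaurentSeries K)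
    (hD3 : ∀ r : K⟮x⟯, ∑ᶠ a : K, (iotaAt a r).coeff (-1) = (iotaInf r).coeff 1)
    (hD4z : ∀ (a : K) (f : F), ∑ᶠ v ∈ zerosOver x a, res h v (f • D K F x)
      = (iotaAt a (Algebra.trace K⟮x⟯ F f)).coeff (-1))
    (hD4p : ∀ f : F, ∑ᶠ v ∈ polesOf K x, res h v (f • D K F x)
      = -(iotaInf (Algebra.trace K⟮x⟯ F f)).coeff 1)
    (η : Ω[F⁄K]) : ∑ᶠ v : Place K F, res h v η = 0 :=
  residue_theorem_of h (fun v _ hη => res_eq_zero_of_ord_nonneg h v hη) hx iotaAt iotaInf
    hD3 hD4z hD4p η

end

end Fermat.Agent.S20.RR.ResidueThm
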