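import Mathlib
import Fermat.Agent.S20.RR.Defs
import Fermat.Agent.S20.RRSpace

/-!
# Riemann–Roch block, piece R1 (finish): the spaces `L(D)` of the Prelude

Bridge between `Fermat.Agent.S20.RRSpace.L` and the Prelude's `riemannRochSpace`, under the
standing hypotheses `Hyp K F` of `Fermat.Agent.S20.RR.Defs`:

* `L_eq : RRSpace.L D = riemannRochSpace D`;
* `finite_L`, `L_eq_bot_of_degree_neg`, `ell_eq_zero_of_degree_neg`;
* `ell_le_of_le : D ≤ E → ℓ(D) ≤ ℓ(E) ∧ ℓ(E) - ℓ(D) ≤ deg E - deg D`;
* `ell_le_degree_add_one`, `ell_zero : ℓ(0) = 1`, `ell_add_div : ℓ(D + div f) = ℓ(D)`.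
-/

set_option autoImplicit false

open AlgebraicCurve KaehlerDifferential IntermediateField

namespace Fermat.Agent.S20.RR.LSpace

variable {K F : Type*} [Field K] [Field F] [Algebra K F]

/-- helper97's `L D` is the Prelude's `riemannRochSpace D`. -/
theorem L_eq (D : Divisor K F) : Fermat.Agent.S20.RRSpace.L D = riemannRochSpace D := by
  ext f
  rw [mem_riemannRochSpace_iff, Fermat.Agent.S20.RRSpace.mem_L]
  constructor
  · rintro (rfl | h) v
    · exact Or.inl rfl
    · refine Or.inr ?_
      have := h v
      linarith
  · intro h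
    by_cases hf : f = 0
    · exact Or.inl hf
    · refine Or.inr fun v => ?_
      have := (h v).resolve_left hf
      linarith

theorem mem_riemannRochSpace_of_ne_zero {D : Divisor K F} {f : F} (hf : f ≠ 0) :
    f ∈ riemannRochSpace D ↔ ∀ v : Place K F, 0 ≤ v.ord f + D v := by
  rw [← L_eq, Fermat.Agent.S20.RRSpace.mem_L_of_ne_zero hf]

/-- Principal divisors exist and have degree zero. -/
theorem hasPrincipalDivisors (h : Hyp K F) : HasPrincipalDivisors K F :=
  ⟨fun f hf => ⟨h.div f, fun v => h.div_apply hf v, h.degree_div f⟩⟩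

/-- A function field of one variable has a place (a non-constant function has a zero). -/
theorem nonempty_place (h : Hyp K F) : Nonempty (Place K F) := by
  obtain ⟨x, hx, hfin⟩ := h.ff
  by_contra hne
  rw [not_nonempty_iff] at hne
  have hz := h.zeros x hx
  have h0 : ∑ᶠ v ∈ {v : Place K F | 0 < v.ord x}, v.ord x = 0 :=
    finsum_eq_zero_of_forall_eq_zero fun v => isEmptyElim v
  rw [h0] at hz
  haveI : FiniteDimensional K⟮x⟯ F := hfin
  have hpos : 0 < Module.finrank K⟮x⟯ F := Module.finrank_pos
  omega

theorem finite_L (h : Hyp K F) (D : Divisor K F) : Module.Finite K (riemannRochSpace D) := by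
  haveI := hasPrincipalDivisors h
  haveI := nonempty_place h
  rw [← L_eq]
  exact (Fermat.Agent.S20.RRSpace.finrank_L_le h.deg_one h.res D).1

theorem L_eq_bot_of_degree_neg (h : Hyp K F) {D : Divisor K F} (hD : Divisor.degree D < 0) :
    riemannRochSpace D = ⊥ := by
  haveI := hasPrincipalDivisors h
  rw [← L_eq]
  exact Fermat.Agent.S20.RRSpace.L_eq_bot_of_degree_neg hD

theorem ell_eq_zero_of_degree_neg (h : Hyp K F) {D : Divisor K F} (hD : Divisor.degree D < 0) :
    ell D = 0 := by
  unfold ell
  rw [L_eq_bot_of_degree_neg h hD]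
  exact finrank_bot K F

theorem riemannRochSpace_mono {D E : Divisor K F} (hDE : D ≤ E) :
    riemannRochSpace D ≤ riemannRochSpace E := by
  rw [← L_eq, ← L_eq]
  exact Fermat.Agent.S20.RRSpace.L_mono hDE

theorem degree_mono {D E : Divisor K F} (hDE : D ≤ E) :
    Divisor.degree D ≤ Divisor.degree E := by
  have h0 : 0 ≤ Divisor.degree (E - D) :=
    Fermat.Agent.S20.RRSpace.degree_nonneg_of_nonneg fun v => by
      rw [Finsupp.sub_apply]
      have := hDE v
      linarith
  rw [map_sub] at h0
  linarith

/-- `ℓ(D + v) ≤ ℓ(D) + 1`. -/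
theorem ell_add_single_le (h : Hyp K F) (D : Divisor K F) (v : Place K F) :
    ell (D + Finsupp.single v 1) ≤ ell D + 1 := by
  haveI : FiniteDimensional K (Fermat.Agent.S20.RRSpace.L D) := by
    rw [L_eq]
    exact finite_L h D
  have := (Fermat.Agent.S20.RRSpace.finrank_L_add_single_le (D := D) (v := v) (h.res v)).2
  rw [L_eq, L_eq] at this
  exact this

theorem ell_mono (h : Hyp K F) {D E : Divisor K F} (hDE : D ≤ E) : ell D ≤ ell E := by
  haveI := finite_L h E
  exact Submodule.finrank_mono (riemannRochSpace_mono hDE)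

theorem ell_sub_le_aux (h : Hyp K F) :
    ∀ n : ℕ, ∀ D E : Divisor K F, D ≤ E → Divisor.degree E - Divisor.degree D ≤ n →
      (ell E : ℤ) - ell D ≤ Divisor.degree E - Divisor.degree D := by
  intro n
  induction n with
  | zero =>
    intro D E hDE hn
    by_cases hEq : D = E
    · subst hEq
      simp
    · exfalso
      have hex : ∃ v, D v < E v := by
        by_contra hcon
        simp only [not_exists, not_lt] at hcon
        exact hEq (Finsupp.ext fun v => le_antisymm (hDE v) (hcon v))
      obtain ⟨v, hv⟩ := hex
      have hle : D + Finsupp.single v 1 ≤ E := by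
        classical
        intro w
        rw [Finsupp.add_apply, Finsupp.single_apply]
        split_ifs with hw
        · subst hw
          omega
        · have := hDE w
          omega
      have h1 := degree_mono hle
      rw [Fermat.Agent.S20.RRSpace.degree_add_single, h.deg_one v] at h1
      push_cast at hn h1
      linarith
  | succ n ih =>
    intro D E hDE hn
    by_cases hEq : D = E
    · subst hEq
      simp
    · have hex : ∃ v, D v < E v := by
        by_contra hcon
        simp only [not_exists, not_lt] at hcon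
        exact hEq (Finsupp.ext fun v => le_antisymm (hDE v) (hcon v))
      obtain ⟨v, hv⟩ := hex
      have hle : D + Finsupp.single v 1 ≤ E := by
        classical
        intro w
        rw [Finsupp.add_apply, Finsupp.single_apply]
        split_ifs with hw
        · subst hw
          omega
        · have := hDE w
          omega
      have hdeg : Divisor.degree (D + Finsupp.single v 1) = Divisor.degree D + 1 := by
        rw [Fermat.Agent.S20.RRSpace.degree_add_single, h.deg_one v]
        simp
      have h1 := ih (D + Finsupp.single v 1) E hle (by rw [hdeg]; push_cast at hn; linarith)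
      have h2 : (ell (D + Finsupp.single v 1) : ℤ) ≤ ell D + 1 := by
        exact_mod_cast ell_add_single_le h D v
      rw [hdeg] at h1
      linarith

theorem ell_le_of_le (h : Hyp K F) {D E : Divisor K F} (hDE : D ≤ E) :
    ell D ≤ ell E ∧ (ell E : ℤ) - ell D ≤ Divisor.degree E - Divisor.degree D := by
  refine ⟨ell_mono h hDE, ?_⟩
  have hnn : 0 ≤ Divisor.degree E - Divisor.degree D := by
    have := degree_mono hDE
    linarith
  exact ell_sub_le_aux h (Divisor.degree E - Divisor.degree D).toNat D E hDE
    (Int.self_le_toNat _)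

theorem ell_le_degree_add_one (h : Hyp K F) {D : Divisor K F} (hD : 0 ≤ Divisor.degree D) :
    (ell D : ℤ) ≤ Divisor.degree D + 1 := by
  haveI := hasPrincipalDivisors h
  haveI := nonempty_place h
  have := (Fermat.Agent.S20.RRSpace.finrank_L_le h.deg_one h.res D).2
  rw [L_eq, max_eq_left (by linarith)] at this
  exact this

/-- A function without poles is constant. -/
theorem eq_algebraMap_of_ord_nonneg (h : Hyp K F) {f : F} (hf : ∀ v : Place K F, 0 ≤ v.ord f) :
    ∃ c : K, f = algebraMap K F c := by
  rcases eq_or_ne f 0 with rfl | hf0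
  · exact ⟨0, by simp⟩
  obtain ⟨v₀⟩ := nonempty_place h
  obtain ⟨c, hc | hc⟩ := h.res v₀ f hf0 (hf v₀)
  · exact ⟨c, hc⟩
  refine ⟨c, ?_⟩
  by_contra hne
  have hg0 : f - algebraMap K F c ≠ 0 := sub_ne_zero.mpr hne
  -- `g = f - c` lies in `L(-v₀)`, which is zero
  have hdeg : Divisor.degree (-(Finsupp.single v₀ 1 : Divisor K F)) < 0 := by
    rw [map_neg, Divisor.degree_single, h.deg_one v₀]
    norm_num
  have hbot := L_eq_bot_of_degree_neg h hdeg
  have hmem : f - algebraMap K F c ∈ riemannRochSpace (-(Finsupp.single v₀ 1 : Divisor K F)) := by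
    rw [mem_riemannRochSpace_of_ne_zero hg0]
    intro w
    classical
    rw [Finsupp.neg_apply, Finsupp.single_apply]
    split_ifs with hw
    · subst hw
      omega
    · have hw' : 0 ≤ w.ord (f - algebraMap K F c) := by
        rcases eq_or_ne c 0 with rfl | hc0
        · simpa using hf w
        · have hcF : algebraMap K F c ≠ 0 := (map_ne_zero _).mpr hc0
          have hmin := Fermat.Agent.S24.OrdBasic.ord_add_ge w
            (f := f) (g := -algebraMap K F c) (by rwa [← sub_eq_add_neg]) hf0
            (neg_ne_zero.mpr hcF)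
          rw [← sub_eq_add_neg] at hmin
          have hneg : w.ord (-algebraMap K F c) = 0 := by
            rw [← map_neg]
            exact Fermat.Agent.S24.OrdBasic.ord_algebraMap w (neg_ne_zero.mpr hc0)
          rw [hneg] at hmin
          have := hf w
          rcases min_le_iff.mp hmin with h1 | h1 <;> linarith
      omega
  rw [hbot, Submodule.mem_bot] at hmem
  exact hg0 hmem

theorem ell_zero (h : Hyp K F) : ell (0 : Divisor K F) = 1 := by
  unfold ell
  have h1mem : (1 : F) ∈ riemannRochSpace (0 : Divisor K F) := by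
    rw [mem_riemannRochSpace_of_ne_zero one_ne_zero]
    intro v
    simp
  rw [finrank_eq_one_iff_of_nonzero' (⟨1, h1mem⟩ : riemannRochSpace (0 : Divisor K F))
    (by intro h0; exact one_ne_zero (congrArg Subtype.val h0))]
  rintro ⟨f, hf⟩
  have hord : ∀ v : Place K F, 0 ≤ v.ord f := by
    intro v
    rcases eq_or_ne f 0 with rfl | hf0
    · simp
    · have := (mem_riemannRochSpace_of_ne_zero hf0).mp hf v
      simpa using this
  obtain ⟨c, hc⟩ := eq_algebraMap_of_ord_nonneg h hord
  refine ⟨c, ?_⟩
  ext
  simp [hc, Algebra.smul_def]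

theorem ell_add_div (h : Hyp K F) (D : Divisor K F) {f : F} (hf : f ≠ 0) :
    ell (D + h.div f) = ell D := by
  unfold ell
  rw [← L_eq, ← L_eq]
  exact Fermat.Agent.S20.RRSpace.finrank_L_eq_of_shift hf fun v => by
    rw [Finsupp.add_apply, h.div_apply hf]

end Fermat.Agent.S20.RR.LSpace
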