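import Fermat.Agent.S20.RR.Defs

/-!
# RR-E2: the space of Weil differentials is at most one-dimensional over `F`

A *Weil differential* is a `K`-linear functional on the repartition ring `A` vanishing on
`A(D) + F` for some divisor `D`.  `F` acts by `(f • λ)(α) = λ(f α)`.  From Riemann–Roch (first form)
we show: if `λ₁ ≠ 0` and `λ₂` are Weil differentials then `λ₂ = f • λ₁` for some `f : F`
(Stichtenoth 1.5.9).
-/

set_option autoImplicit false

open AlgebraicCurve KaehlerDifferential IntermediateField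

namespace Fermat.Agent.S20.RR.WeilDim

variable {K F : Type*} [Field K] [Field F] [Algebra K F]

/-- Weil differentials: functionals on the repartitions vanishing on `F` and on some `A(D)`. -/
def IsWeil (lam : ↥(repartitions K F) →ₗ[K] K) : Prop :=
  (∀ f : F, lam (algebraMap F ↥(repartitions K F) f) = 0) ∧
    ∃ D : Divisor K F, ∀ α ∈ repartitionsOf D, lam α = 0

/-- The action of `F` on functionals: `(f • λ)(α) = λ(f • α)`. -/
def smulWeil (f : F) (lam : ↥(repartitions K F) →ₗ[K] K) : ↥(repartitions K F) →ₗ[K] K where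
  toFun α := lam (f • α)
  map_add' α β := by rw [smul_add, map_add]
  map_smul' c α := by rw [smul_comm, map_smul, RingHom.id_apply]

@[simp]
theorem smulWeil_apply (f : F) (lam : ↥(repartitions K F) →ₗ[K] K) (α : ↥(repartitions K F)) :
    smulWeil f lam α = lam (f • α) := rfl

/-- `f ↦ f • λ` is `K`-linear. -/
def smulWeilLin (lam : ↥(repartitions K F) →ₗ[K] K) : F →ₗ[K] (↥(repartitions K F) →ₗ[K] K) where
  toFun f := smulWeil f lam
  map_add' f g := by
    ext α
    simp only [smulWeil_apply, LinearMap.add_apply, add_smul, map_add]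
  map_smul' c f := by
    ext α
    simp only [smulWeil_apply, LinearMap.smul_apply, RingHom.id_apply, smul_assoc, map_smul]

@[simp]
theorem smulWeilLin_apply (lam : ↥(repartitions K F) →ₗ[K] K) (f : F) :
    smulWeilLin lam f = smulWeil f lam := rfl

theorem smulWeil_smulWeil (f g : F) (lam : ↥(repartitions K F) →ₗ[K] K) :
    smulWeil f (smulWeil g lam) = smulWeil (g * f) lam := by
  ext α
  simp only [smulWeil_apply, mul_smul]

theorem smulWeil_one (lam : ↥(repartitions K F) →ₗ[K] K) : smulWeil 1 lam = lam := by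
  ext α
  simp only [smulWeil_apply, one_smul]

theorem coe_smul_apply (f : F) (α : ↥(repartitions K F)) (v : Place K F) :
    ((f • α : ↥(repartitions K F)) : Place K F → F) v = f * (α : Place K F → F) v := by
  simp

/-- If `x ∈ L(Δ)` and `α ∈ A(D - Δ)` then `x • α ∈ A(D)`. -/
theorem smul_mem_repartitionsOf {D Δ : Divisor K F} {x : F} (hx : x ∈ riemannRochSpace Δ)
    {α : ↥(repartitions K F)} (hα : α ∈ repartitionsOf (D - Δ)) :
    x • α ∈ repartitionsOf D := by
  intro v
  have h1 : v.adicValuation x ≤ WithZero.exp (Δ v) := hx v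
  have h2 : v.adicValuation ((α : Place K F → F) v) ≤ WithZero.exp ((D - Δ) v) := hα v
  rw [coe_smul_apply, map_mul]
  calc v.adicValuation x * v.adicValuation ((α : Place K F → F) v)
      ≤ WithZero.exp (Δ v) * WithZero.exp ((D - Δ) v) := mul_le_mul' h1 h2
    _ = WithZero.exp (D v) := by
        rw [← WithZero.exp_add, Finsupp.sub_apply]
        congr 1
        ring

/-- If `lam` vanishes on `F` then so does `f • lam`. -/
theorem smulWeil_principal {lam : ↥(repartitions K F) →ₗ[K] K}
    (h : ∀ f : F, lam (algebraMap F ↥(repartitions K F) f) = 0) (x f : F) :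
    smulWeil x lam (algebraMap F ↥(repartitions K F) f) = 0 := by
  rw [smulWeil_apply]
  have : x • algebraMap F ↥(repartitions K F) f = algebraMap F ↥(repartitions K F) (x * f) := by
    rw [Algebra.smul_def, map_mul]
  rw [this]
  exact h _

/-- If `lam` vanishes on `A(D)` and `f ≠ 0` then `f • lam` vanishes on `A(D + div f)`. -/
theorem smulWeil_vanish (h : Hyp K F) {lam : ↥(repartitions K F) →ₗ[K] K} {D : Divisor K F}
    (hD : ∀ α ∈ repartitionsOf D, lam α = 0) {f : F} (hf : f ≠ 0) :
    ∀ α ∈ repartitionsOf (D + h.div f), smulWeil f lam α = 0 := by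
  intro α hα
  rw [smulWeil_apply]
  apply hD
  have hx : f ∈ riemannRochSpace (-(h.div f)) := by
    rw [mem_riemannRochSpace_iff]
    intro v
    right
    rw [Finsupp.neg_apply, neg_neg, h.div_apply hf]
  have hα' : α ∈ repartitionsOf (D - -(h.div f)) := by rwa [sub_neg_eq_add]
  exact smul_mem_repartitionsOf hx hα'

/-- `f • lam` is a Weil differential if `lam` is. -/
theorem isWeil_smulWeil (h : Hyp K F) {lam : ↥(repartitions K F) →ₗ[K] K} (hlam : IsWeil lam)
    (f : F) : IsWeil (smulWeil f lam) := by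
  obtain ⟨h0, D, hD⟩ := hlam
  refine ⟨fun g => smulWeil_principal h0 f g, ?_⟩
  rcases eq_or_ne f 0 with rfl | hf
  · exact ⟨D, fun α _ => by rw [smulWeil_apply, zero_smul, map_zero]⟩
  · refine ⟨D + h.div f, fun α hα => ?_⟩
    rw [smulWeil_apply]
    apply hD
    have hx : f ∈ riemannRochSpace (-(h.div f)) := by
      rw [mem_riemannRochSpace_iff]
      intro v
      right
      rw [Finsupp.neg_apply, neg_neg, h.div_apply hf]
    have hα' : α ∈ repartitionsOf (D - -(h.div f)) := by rwa [sub_neg_eq_add]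
    exact smul_mem_repartitionsOf hx hα'

/-- The functional `x₁ • λ₁ + x₂ • λ₂`, as a linear map in `(x₁, x₂) ∈ L(Δ) × L(Δ)`. -/
noncomputable def comb (lam₁ lam₂ : ↥(repartitions K F) →ₗ[K] K) (Δ : Divisor K F) :
    (↥(riemannRochSpace Δ) × ↥(riemannRochSpace Δ)) →ₗ[K] (↥(repartitions K F) →ₗ[K] K) :=
  ((smulWeilLin lam₁).comp (riemannRochSpace Δ).subtype).coprod
    ((smulWeilLin lam₂).comp (riemannRochSpace Δ).subtype)

theorem comb_apply (lam₁ lam₂ : ↥(repartitions K F) →ₗ[K] K) (Δ : Divisor K F)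
    (x : ↥(riemannRochSpace Δ) × ↥(riemannRochSpace Δ)) (α : ↥(repartitions K F)) :
    comb lam₁ lam₂ Δ x α = lam₁ ((x.1 : F) • α) + lam₂ ((x.2 : F) • α) := by
  simp [comb]

/-- The combination vanishes on `A(D - Δ) + F` when `λ₁, λ₂` vanish on `A(D) + F`. -/
theorem comb_mem_dualAnnihilator {lam₁ lam₂ : ↥(repartitions K F) →ₗ[K] K} {D Δ : Divisor K F}
    (h₁F : ∀ f : F, lam₁ (algebraMap F ↥(repartitions K F) f) = 0)
    (h₂F : ∀ f : F, lam₂ (algebraMap F ↥(repartitions K F) f) = 0)
    (h₁ : ∀ α ∈ repartitionsOf D, lam₁ α = 0) (h₂ : ∀ α ∈ repartitionsOf D, lam₂ α = 0)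
    (x : ↥(riemannRochSpace Δ) × ↥(riemannRochSpace Δ)) :
    comb lam₁ lam₂ Δ x ∈
      (repartitionsOf (D - Δ) ⊔ principalRepartitions K F).dualAnnihilator := by
  rw [Submodule.mem_dualAnnihilator]
  intro w hw
  obtain ⟨a, ha, b, hb, rfl⟩ := Submodule.mem_sup.mp hw
  rw [map_add]
  have hA : comb lam₁ lam₂ Δ x a = 0 := by
    rw [comb_apply, h₁ _ (smul_mem_repartitionsOf x.1.2 ha),
      h₂ _ (smul_mem_repartitionsOf x.2.2 ha), add_zero]
  have hB : comb lam₁ lam₂ Δ x b = 0 := by
    obtain ⟨f, hf⟩ := mem_principalRepartitions_iff.mp hb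
    have hbf : b = algebraMap F ↥(repartitions K F) f := Subtype.ext hf
    rw [comb_apply, hbf]
    have e1 := smulWeil_principal h₁F (x.1 : F) f
    have e2 := smulWeil_principal h₂F (x.2 : F) f
    rw [smulWeil_apply] at e1 e2
    rw [e1, e2, add_zero]
  rw [hA, hB, add_zero]

/-- Injectivity of the combination map when `λ₂ ∉ F λ₁`, `λ₁ ≠ 0`. -/
theorem comb_injective {lam₁ lam₂ : ↥(repartitions K F) →ₗ[K] K} (hne : lam₁ ≠ 0)
    (hnot : ∀ f : F, lam₂ ≠ smulWeil f lam₁) (Δ : Divisor K F) :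
    Function.Injective (comb lam₁ lam₂ Δ) := by
  rw [← LinearMap.ker_eq_bot, Submodule.eq_bot_iff]
  intro x hx
  rw [LinearMap.mem_ker] at hx
  have hx' : ∀ α : ↥(repartitions K F), lam₁ ((x.1 : F) • α) + lam₂ ((x.2 : F) • α) = 0 := by
    intro α
    rw [← comb_apply, hx, LinearMap.zero_apply]
  by_cases h2 : (x.2 : F) = 0
  · by_cases h1 : (x.1 : F) = 0
    · exact Prod.ext (Subtype.ext h1) (Subtype.ext h2)
    · exfalso
      apply hne
      ext β
      have := hx' ((x.1 : F)⁻¹ • β)
      rw [h2, zero_smul, map_zero, add_zero, smul_smul, mul_inv_cancel₀ h1, one_smul] at this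
      rw [this, LinearMap.zero_apply]
  · exfalso
    apply hnot (-((x.1 : F) * (x.2 : F)⁻¹))
    ext β
    have := hx' ((x.2 : F)⁻¹ • β)
    rw [smul_smul, smul_smul, mul_inv_cancel₀ h2, one_smul] at this
    rw [smulWeil_apply, neg_smul, map_neg]
    exact eq_neg_of_add_eq_zero_right this

/-- **Weil differentials form an `F`-space of dimension at most one.** -/
theorem exists_smul_eq (h : Hyp K F)
    (hrr : ∀ D : Divisor K F,
      (ell D : ℤ) - ind D = Divisor.degree D + 1 - (genusFF K F : ℤ))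
    (hfinH : ∀ D : Divisor K F, Module.Finite K (H1 D))
    (hneg : ∀ D : Divisor K F, Divisor.degree D < 0 → ell D = 0)
    {lam₁ lam₂ : ↥(repartitions K F) →ₗ[K] K} (h₁ : IsWeil lam₁) (h₂ : IsWeil lam₂)
    (hne : lam₁ ≠ 0) : ∃ f : F, lam₂ = smulWeil f lam₁ := by
  by_contra hcon
  rw [not_exists] at hcon
  obtain ⟨h₁F, D₁, hD₁⟩ := h₁
  obtain ⟨h₂F, D₂, hD₂⟩ := h₂
  -- a place exists, since `lam₁ ≠ 0`
  have hplace : Nonempty (Place K F) := by
    by_contra hemp
    rw [not_nonempty_iff] at hemp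
    apply hne
    ext α
    have : α = 0 := Subtype.ext (funext fun v => (hemp.false v).elim)
    rw [this, map_zero, LinearMap.zero_apply]
  obtain ⟨v₀⟩ := hplace
  set D := D₁ ⊓ D₂ with hD
  have hDA₁ : ∀ α ∈ repartitionsOf D, lam₁ α = 0 := fun α hα =>
    hD₁ α (repartitionsOf_mono inf_le_left hα)
  have hDA₂ : ∀ α ∈ repartitionsOf D, lam₂ α = 0 := fun α hα =>
    hD₂ α (repartitionsOf_mono inf_le_right hα)
  -- choose `n` large
  obtain ⟨n, hn1, hn2⟩ : ∃ n : ℕ, Divisor.degree D < n ∧
      3 * (genusFF K F : ℤ) - 3 - Divisor.degree D < n := by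
    refine ⟨(max (Divisor.degree D) (3 * (genusFF K F : ℤ) - 3 - Divisor.degree D) + 1).toNat,
      ?_, ?_⟩
    · have h1 := Int.self_le_toNat
        (max (Divisor.degree D) (3 * (genusFF K F : ℤ) - 3 - Divisor.degree D) + 1)
      have h2 := le_max_left (Divisor.degree D) (3 * (genusFF K F : ℤ) - 3 - Divisor.degree D)
      omega
    · have h1 := Int.self_le_toNat
        (max (Divisor.degree D) (3 * (genusFF K F : ℤ) - 3 - Divisor.degree D) + 1)
      have h2 := le_max_right (Divisor.degree D) (3 * (genusFF K F : ℤ) - 3 - Divisor.degree D)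
      omega
  set Δ : Divisor K F := Finsupp.single v₀ (n : ℤ) with hΔ
  have hdegΔ : Divisor.degree Δ = n := by
    rw [hΔ, Divisor.degree_single, h.deg_one, Nat.cast_one, mul_one]
  have hdegE : Divisor.degree (D - Δ) = Divisor.degree D - n := by rw [map_sub, hdegΔ]
  -- the injective map into the annihilator of `A(D - Δ) + F`
  set S := repartitionsOf (D - Δ) ⊔ principalRepartitions K F with hS
  let Ψ₀ : (↥(riemannRochSpace Δ) × ↥(riemannRochSpace Δ)) →ₗ[K] ↥S.dualAnnihilator :=
    (comb lam₁ lam₂ Δ).codRestrict S.dualAnnihilator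
      (comb_mem_dualAnnihilator h₁F h₂F hDA₁ hDA₂)
  have hΨ₀ : Function.Injective Ψ₀ := by
    intro x y hxy
    apply comb_injective hne hcon Δ
    exact congrArg Subtype.val hxy
  let Ψ : (↥(riemannRochSpace Δ) × ↥(riemannRochSpace Δ)) →ₗ[K]
      Module.Dual K (↥(repartitions K F) ⧸ S) :=
    (Submodule.dualQuotEquivDualAnnihilator S).symm.toLinearMap.comp Ψ₀
  have hΨ : Function.Injective Ψ :=
    (Submodule.dualQuotEquivDualAnnihilator S).symm.injective.comp hΨ₀
  have hfin : Module.Finite K (↥(repartitions K F) ⧸ S) := hfinH (D - Δ)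
  have hdual : Module.finrank K (Module.Dual K (↥(repartitions K F) ⧸ S)) = ind (D - Δ) := by
    rw [Subspace.dual_finrank_eq]
    rfl
  have : Module.Finite K (↥(riemannRochSpace Δ) × ↥(riemannRochSpace Δ)) :=
    FiniteDimensional.of_injective Ψ hΨ
  have : Module.Finite K ↥(riemannRochSpace Δ) :=
    FiniteDimensional.of_injective (LinearMap.inl K ↥(riemannRochSpace Δ) ↥(riemannRochSpace Δ))
      LinearMap.inl_injective
  have hineq : 2 * ell Δ ≤ ind (D - Δ) := by
    have := LinearMap.finrank_le_finrank_of_injective hΨ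
    rw [hdual, Module.finrank_prod] at this
    unfold ell
    omega
  have hrrΔ := hrr Δ
  have hrrE := hrr (D - Δ)
  have hellE : ell (D - Δ) = 0 := hneg _ (by rw [hdegE]; omega)
  rw [hdegΔ] at hrrΔ
  rw [hdegE, hellE] at hrrE
  push_cast at hrrE
  omega

end Fermat.Agent.S20.RR.WeilDim
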