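import Fermat.Agent.S20.RR.Defs
import Fermat.Agent.S20.RR.WeilDim
import Fermat.Agent.S20.RR.LSpace
import Fermat.Agent.S24.KaehlerGen

/-!
# Riemann–Roch block, row E3: Serre duality and the final outputs

Inputs (rows E1, E2, C3 of the RR block) are taken as explicit hypotheses, in the posted shapes:

* `PairingSpec P`   : the residue pairing `P = pairingLin h` of `Pairing.lean` (row E1);
* `WeilSpec K F`    : `WeilDim.exists_smul_eq` (row E2), with `IsWeil`/`smulWeil` unfolded;
* `hrr`             : `RROne.rr_one` (row C3).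

Outputs: `finrank_eq_ind` (`dim Ω(D) = i(D)`), `ind_eq_ell_canonical_sub`
(`i(D) = ℓ(W - D)`), `degree_canonical` (`deg W = 2g - 2`), `genus_eq_genusFF`,
`finrank_regular_eq_genus`.
-/

set_option autoImplicit false

open AlgebraicCurve KaehlerDifferential IntermediateField

namespace Fermat.Agent.S20.RR.Duality

open Fermat.Agent.S20.RR Fermat.Agent.S24 Fermat.Agent.S24.KaehlerGen

variable {K F : Type*} [Field K] [Field F] [Algebra K F]

/-- The interface of row E1 (`Pairing.lean`) used by the duality argument; `P` is the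
`K`-bilinear residue pairing `pairingLin h`. -/
structure PairingSpec (P : Ω[F⁄K] →ₗ[K] (↥(repartitions K F) →ₗ[K] K)) : Prop where
  principal : ∀ (η : Ω[F⁄K]) (f : F), P η (algebraMap F ↥(repartitions K F) f) = 0
  eq_zero_of_mem : ∀ {D : Divisor K F} {η : Ω[F⁄K]}, MemOmega D η →
    ∀ α ∈ repartitionsOf D, P η α = 0
  smul : ∀ (f : F) (η : Ω[F⁄K]) (α : ↥(repartitions K F)), P (f • η) α = P η (f • α)
  exists_ne_zero : ∀ {η : Ω[F⁄K]}, η ≠ 0 → ∃ α, P η α ≠ 0
  memOmega : ∀ {D : Divisor K F} {η : Ω[F⁄K]},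
    (∀ α ∈ repartitionsOf D, P η α = 0) → MemOmega D η

variable (K F) in
/-- The statement of row E2 (`WeilDim.exists_smul_eq`) with `IsWeil` and `smulWeil` unfolded:
the Weil functionals form an `F`-vector space of dimension at most one. -/
def WeilSpec : Prop :=
  ∀ lam₁ lam₂ : ↥(repartitions K F) →ₗ[K] K,
    ((∀ f : F, lam₁ (algebraMap F ↥(repartitions K F) f) = 0) ∧
      ∃ D : Divisor K F, ∀ α ∈ repartitionsOf D, lam₁ α = 0) →
    ((∀ f : F, lam₂ (algebraMap F ↥(repartitions K F) f) = 0) ∧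
      ∃ D : Divisor K F, ∀ α ∈ repartitionsOf D, lam₂ α = 0) →
    lam₁ ≠ 0 → ∃ f : F, ∀ α, lam₂ α = lam₁ (f • α)

/-- `WeilSpec` from row E2 (`WeilDim.exists_smul_eq`). -/
theorem weilSpec_of_weilDim (h : Hyp K F)
    (hrr : ∀ D : Divisor K F, (ell D : ℤ) - ind D = Divisor.degree D + 1 - (genusFF K F : ℤ))
    (hfinH : ∀ D : Divisor K F, Module.Finite K (H1 D))
    (hneg : ∀ D : Divisor K F, Divisor.degree D < 0 → ell D = 0) : WeilSpec K F :=
  fun _ _ h₁ h₂ hne =>
    (WeilDim.exists_smul_eq h hrr hfinH hneg h₁ h₂ hne).imp fun f hf α => by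
      rw [hf, WeilDim.smulWeil_apply]

/-- `WeilSpec` from rows A, C3 and E2: only `rr_one` and `finite_H1` of row C3 are needed. -/
theorem weilSpec_of_rr (h : Hyp K F)
    (hrr : ∀ D : Divisor K F, (ell D : ℤ) - ind D = Divisor.degree D + 1 - (genusFF K F : ℤ))
    (hfinH : ∀ D : Divisor K F, Module.Finite K (H1 D)) : WeilSpec K F :=
  weilSpec_of_weilDim h hrr hfinH fun _ hD => LSpace.ell_eq_zero_of_degree_neg h hD

/-! ### Basic facts on `ordDifferential` under `Hyp` -/

section Basic

variable [CharZero K] (h : Hyp K F)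
include h

theorem ordDifferential_smul (v : Place K F) {f : F} (hf : f ≠ 0) {η : Ω[F⁄K]} (hη : η ≠ 0) :
    v.ordDifferential (f • η) = v.ord f + v.ordDifferential η := by
  have : v.DCoordGenerates := FF.dCoordGenerates h.ff v
  have : Nontrivial Ω[F⁄K] := FF.nontrivial h.ff
  refine Place.ordDifferential_smul v hf ?_
  intro h0
  apply hη
  rw [← v.differentialCoeff_smul_dCoord η, h0, zero_smul]

theorem ordDifferential_zero (v : Place K F) : v.ordDifferential (0 : Ω[F⁄K]) = 0 := by
  have : v.DCoordGenerates := FF.dCoordGenerates h.ff v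
  have : Nontrivial Ω[F⁄K] := FF.nontrivial h.ff
  rw [Place.ordDifferential, Place.differentialCoeff_zero, Place.ord_zero]

theorem isRegular_iff_memOmega_zero (η : Ω[F⁄K]) : IsRegular η ↔ MemOmega (0 : Divisor K F) η := by
  constructor
  · intro hη
    exact Or.inr fun v => by simpa using hη v
  · rintro (rfl | hη)
    · intro v
      rw [ordDifferential_zero h v]
    · intro v
      simpa using hη v

theorem exists_eq_smul {ω : Ω[F⁄K]} (hω : ω ≠ 0) (η : Ω[F⁄K]) : ∃ f : F, η = f • ω := by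
  obtain ⟨f, hf⟩ := (finrank_eq_one_iff_of_nonzero' ω hω).mp (FF.finrank_eq_one h.ff) η
  exact ⟨f, hf.symm⟩

end Basic

/-! ### `Ω(D)` as the image of `L(W - D)` -/

section OmegaImg

/-- The `K`-linear map `f ↦ f • ω`. -/
noncomputable def smulRight (ω : Ω[F⁄K]) : F →ₗ[K] Ω[F⁄K] :=
  (LinearMap.toSpanSingleton F Ω[F⁄K] ω).restrictScalars K

@[simp] theorem smulRight_apply (ω : Ω[F⁄K]) (f : F) : smulRight (K := K) ω f = f • ω := rfl

theorem smulRight_injective {ω : Ω[F⁄K]} (hω : ω ≠ 0) :
    Function.Injective (smulRight (K := K) ω) := by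
  intro f g hfg
  simp only [smulRight_apply] at hfg
  have h0 : (f - g) • ω = 0 := by rw [sub_smul, hfg, sub_self]
  rcases smul_eq_zero.mp h0 with h | h
  · exact sub_eq_zero.mp h
  · exact absurd h hω

/-- `Ω(D)` realised as the image of `L(W - D)` under `f ↦ f • ω`, where `W` is any divisor
with `W v = ord_v ω`. -/
noncomputable def omegaImg (ω : Ω[F⁄K]) (W D : Divisor K F) : Submodule K Ω[F⁄K] :=
  (riemannRochSpace (W - D)).map (smulRight ω)

theorem finrank_omegaImg {ω : Ω[F⁄K]} (hω : ω ≠ 0) (W D : Divisor K F) :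
    Module.finrank K (omegaImg ω W D) = ell (W - D) := by
  rw [omegaImg, ell]
  exact (Submodule.equivMapOfInjective (smulRight ω) (smulRight_injective hω)
    (riemannRochSpace (W - D))).symm.finrank_eq

variable [CharZero K] (h : Hyp K F)
include h

theorem mem_omegaImg_iff {ω : Ω[F⁄K]} (hω : ω ≠ 0) {W : Divisor K F}
    (hW : ∀ v : Place K F, W v = v.ordDifferential ω) (D : Divisor K F) (η : Ω[F⁄K]) :
    η ∈ omegaImg ω W D ↔ MemOmega D η := by
  rw [omegaImg, Submodule.mem_map]
  constructor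
  · rintro ⟨f, hf, rfl⟩
    rw [smulRight_apply]
    rcases eq_or_ne f 0 with rfl | hf0
    · exact Or.inl (zero_smul _ _)
    · refine Or.inr fun v => ?_
      rw [ordDifferential_smul h v hf0 hω, ← hW v]
      rcases (mem_riemannRochSpace_iff.mp hf) v with h0 | h1
      · exact absurd h0 hf0
      · rw [Finsupp.sub_apply] at h1
        linarith
  · rintro (rfl | hη)
    · exact ⟨0, Submodule.zero_mem _, by simp⟩
    · rcases eq_or_ne η 0 with rfl | hη0
      · exact ⟨0, Submodule.zero_mem _, by simp⟩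
      obtain ⟨f, rfl⟩ := exists_eq_smul h hω η
      have hf0 : f ≠ 0 := by
        rintro rfl
        exact hη0 (zero_smul _ _)
      refine ⟨f, mem_riemannRochSpace_iff.mpr fun v => Or.inr ?_, rfl⟩
      have := hη v
      rw [ordDifferential_smul h v hf0 hω, ← hW v] at this
      rw [Finsupp.sub_apply]
      linarith

end OmegaImg

/-! ### Serre duality: `dim Ω(D) = i(D)` -/

section Duality

variable [CharZero K] (h : Hyp K F)
  {P : Ω[F⁄K] →ₗ[K] (↥(repartitions K F) →ₗ[K] K)}

omit [CharZero K] in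
theorem le_ker_of_memOmega (hP : PairingSpec P) {D : Divisor K F} {η : Ω[F⁄K]}
    (hη : MemOmega D η) :
    repartitionsOf D ⊔ principalRepartitions K F ≤ LinearMap.ker (P η) := by
  refine sup_le (fun α hα => ?_) (fun α hα => ?_)
  · exact LinearMap.mem_ker.mpr (hP.eq_zero_of_mem hη α hα)
  · rw [principalRepartitions, Submodule.restrictScalars_mem, LinearMap.mem_range] at hα
    obtain ⟨f, rfl⟩ := hα
    exact LinearMap.mem_ker.mpr (hP.principal η f)

/-- The duality map `Ω(D) → (H¹(D))^*`. -/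
noncomputable def theta (hP : PairingSpec P) (D : Divisor K F) (W : Submodule K Ω[F⁄K])
    (hWmem : ∀ η, η ∈ W ↔ MemOmega D η) : W →ₗ[K] Module.Dual K (H1 D) where
  toFun η := (repartitionsOf D ⊔ principalRepartitions K F).liftQ (P η.1)
    (le_ker_of_memOmega hP ((hWmem η.1).mp η.2))
  map_add' η η' := by
    apply Submodule.linearMap_qext
    ext α
    simp
  map_smul' c η := by
    apply Submodule.linearMap_qext
    ext α
    simp

omit [CharZero K] in
@[simp] theorem theta_mk (hP : PairingSpec P) (D : Divisor K F) (W : Submodule K Ω[F⁄K])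
    (hWmem : ∀ η, η ∈ W ↔ MemOmega D η) (η : W) (α : ↥(repartitions K F)) :
    theta hP D W hWmem η (Submodule.Quotient.mk α) = P η.1 α := rfl

omit [CharZero K] in
theorem theta_injective (hP : PairingSpec P) (D : Divisor K F) (W : Submodule K Ω[F⁄K])
    (hWmem : ∀ η, η ∈ W ↔ MemOmega D η) : Function.Injective (theta hP D W hWmem) := by
  rw [← LinearMap.ker_eq_bot, LinearMap.ker_eq_bot']
  intro η hη
  by_contra hne
  have hne' : η.1 ≠ 0 := fun h0 => hne (Subtype.ext h0)
  obtain ⟨α, hα⟩ := hP.exists_ne_zero hne'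
  apply hα
  rw [← theta_mk hP D W hWmem η α, hη, LinearMap.zero_apply]

include h in
theorem theta_surjective (hP : PairingSpec P) (hweil : WeilSpec K F)
    (hfinΩ : ∀ η : Ω[F⁄K], η ≠ 0 → {v : Place K F | v.ordDifferential η ≠ 0}.Finite)
    (D : Divisor K F) (W : Submodule K Ω[F⁄K])
    (hWmem : ∀ η, η ∈ W ↔ MemOmega D η) : Function.Surjective (theta hP D W hWmem) := by
  intro φ
  -- the functional on repartitions
  set lam : ↥(repartitions K F) →ₗ[K] K :=
    φ.comp (repartitionsOf D ⊔ principalRepartitions K F).mkQ with hlam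
  have hlam_zero : ∀ α ∈ repartitionsOf D ⊔ principalRepartitions K F, lam α = 0 := by
    intro α hα
    rw [hlam, LinearMap.comp_apply, Submodule.mkQ_apply,
      (Submodule.Quotient.mk_eq_zero _).mpr hα, map_zero]
  have hlamW : (∀ f : F, lam (algebraMap F ↥(repartitions K F) f) = 0) ∧
      ∃ D' : Divisor K F, ∀ α ∈ repartitionsOf D', lam α = 0 := by
    refine ⟨fun f => hlam_zero _ (Submodule.mem_sup_right ?_), D, fun α hα =>
      hlam_zero _ (Submodule.mem_sup_left hα)⟩
    rw [principalRepartitions, Submodule.restrictScalars_mem, LinearMap.mem_range]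
    exact ⟨f, rfl⟩
  -- a reference differential
  obtain ⟨η₀, hη₀⟩ := FF.exists_ne_zero h.ff
  let D₀ : Divisor K F :=
    Finsupp.ofSupportFinite (fun v => v.ordDifferential η₀) (hfinΩ η₀ hη₀)
  have hD₀ : MemOmega D₀ η₀ := Or.inr fun v => le_of_eq rfl
  have h₁W : (∀ f : F, P η₀ (algebraMap F ↥(repartitions K F) f) = 0) ∧
      ∃ D' : Divisor K F, ∀ α ∈ repartitionsOf D', P η₀ α = 0 :=
    ⟨hP.principal η₀, D₀, hP.eq_zero_of_mem hD₀⟩
  have h₁ne : P η₀ ≠ 0 := by
    obtain ⟨α, hα⟩ := hP.exists_ne_zero hη₀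
    intro h0
    exact hα (by rw [h0, LinearMap.zero_apply])
  obtain ⟨f, hf⟩ := hweil (P η₀) lam h₁W hlamW h₁ne
  have hfP : ∀ α, lam α = P (f • η₀) α := fun α => by rw [hf α, hP.smul]
  have hmem : MemOmega D (f • η₀) :=
    hP.memOmega fun α hα => by rw [← hfP α]; exact hlam_zero _ (Submodule.mem_sup_left hα)
  refine ⟨⟨f • η₀, (hWmem _).mpr hmem⟩, ?_⟩
  apply Submodule.linearMap_qext
  ext α
  simp only [LinearMap.comp_apply, Submodule.mkQ_apply, theta_mk]
  rw [← hfP α, hlam, LinearMap.comp_apply, Submodule.mkQ_apply]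

include h in
/-- **Serre duality**, dimension form: `dim_K Ω(D) = i(D)`, for any submodule `W` of
`Ω[F⁄K]` whose members are exactly the `η` with `MemOmega D η` (e.g. `ResLocal.omegaOf h D`). -/
theorem finrank_eq_ind (hP : PairingSpec P) (hweil : WeilSpec K F)
    (hfinΩ : ∀ η : Ω[F⁄K], η ≠ 0 → {v : Place K F | v.ordDifferential η ≠ 0}.Finite)
    (D : Divisor K F) (W : Submodule K Ω[F⁄K]) (hWmem : ∀ η, η ∈ W ↔ MemOmega D η) :
    Module.finrank K W = ind D := by
  have e : W ≃ₗ[K] Module.Dual K (H1 D) :=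
    LinearEquiv.ofBijective (theta hP D W hWmem)
      ⟨theta_injective hP D W hWmem, theta_surjective h hP hweil hfinΩ D W hWmem⟩
  rw [e.finrank_eq, Subspace.dual_finrank_eq, ind]

include h in
/-- `dim_K Ω(0) = genusFF`. -/
theorem finrank_regular (hP : PairingSpec P) (hweil : WeilSpec K F)
    (hfinΩ : ∀ η : Ω[F⁄K], η ≠ 0 → {v : Place K F | v.ordDifferential η ≠ 0}.Finite)
    (W : Submodule K Ω[F⁄K]) (hWmem : ∀ η, η ∈ W ↔ MemOmega (0 : Divisor K F) η) :
    Module.finrank K W = genusFF K F := by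
  rw [finrank_eq_ind h hP hweil hfinΩ 0 W hWmem, ind, genusFF]

end Duality

/-! ### The canonical divisor: `i(D) = ℓ(W - D)`, `deg W = 2g - 2`, `genus = genusFF` -/

section Canonical

variable [CharZero K] (h : Hyp K F)
  {P : Ω[F⁄K] →ₗ[K] (↥(repartitions K F) →ₗ[K] K)}
  [HasCanonicalDivisor (K := K) (F := F)]

omit [CharZero K] in
theorem finite_ordDifferential_ne_zero {η : Ω[F⁄K]} (hη : η ≠ 0) :
    {v : Place K F | v.ordDifferential η ≠ 0}.Finite := by
  refine (canonicalDivisorOf hη).support.finite_toSet.subset fun v hv => ?_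
  rw [Finset.mem_coe, Finsupp.mem_support_iff, canonicalDivisorOf_apply]
  exact hv

include h in
/-- `i(D) = ℓ(W - D)` for a canonical divisor `W = div ω`. -/
theorem ind_eq_ell_canonical_sub (hP : PairingSpec P) (hweil : WeilSpec K F)
    {ω : Ω[F⁄K]} (hω : ω ≠ 0) (D : Divisor K F) :
    ind D = ell (canonicalDivisorOf hω - D) := by
  rw [← finrank_omegaImg hω (canonicalDivisorOf hω) D]
  exact (finrank_eq_ind h hP hweil (fun η hη => finite_ordDifferential_ne_zero hη) D
    (omegaImg ω (canonicalDivisorOf hω) D)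
    (mem_omegaImg_iff h hω (canonicalDivisorOf_apply hω) D)).symm

include h in
/-- **Riemann–Roch**, final form: `ℓ(D) - ℓ(W - D) = deg D + 1 - g`. -/
theorem riemann_roch (hP : PairingSpec P) (hweil : WeilSpec K F)
    (hrr : ∀ D : Divisor K F, (ell D : ℤ) - ind D = Divisor.degree D + 1 - (genusFF K F : ℤ))
    {ω : Ω[F⁄K]} (hω : ω ≠ 0) (D : Divisor K F) :
    (ell D : ℤ) - ell (canonicalDivisorOf hω - D) =
      Divisor.degree D + 1 - (genusFF K F : ℤ) := by
  rw [← ind_eq_ell_canonical_sub h hP hweil hω D]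
  exact hrr D

include h in
/-- The canonical divisor has degree `2g - 2`. -/
theorem degree_canonical (hP : PairingSpec P) (hweil : WeilSpec K F)
    (hrr : ∀ D : Divisor K F, (ell D : ℤ) - ind D = Divisor.degree D + 1 - (genusFF K F : ℤ))
    {ω : Ω[F⁄K]} (hω : ω ≠ 0) :
    Divisor.degree (canonicalDivisorOf hω) = 2 * (genusFF K F : ℤ) - 2 := by
  have h1 := riemann_roch h hP hweil hrr hω (canonicalDivisorOf hω)
  have h2 := riemann_roch h hP hweil hrr hω (0 : Divisor K F)
  rw [sub_self] at h1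
  rw [sub_zero, map_zero] at h2
  linarith

include h in
/-- The Prelude's `genus` (defined through the degree of a canonical divisor) equals the
Prelude's `genusFF` (defined as `dim H¹(0)`). -/
theorem genus_eq_genusFF (hP : PairingSpec P) (hweil : WeilSpec K F)
    (hrr : ∀ D : Divisor K F, (ell D : ℤ) - ind D = Divisor.degree D + 1 - (genusFF K F : ℤ)) :
    genus K F = genusFF K F := by
  have hex : ∃ ω : Ω[F⁄K], ω ≠ 0 := FF.exists_ne_zero h.ff
  rw [genus, dif_pos hex, degree_canonical h hP hweil hrr hex.choose_spec]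
  have : (2 * (genusFF K F : ℤ) - 2 + 2).toNat = 2 * genusFF K F := by
    rw [sub_add_cancel]
    exact Int.toNat_natCast (2 * genusFF K F)
  rw [this, Nat.mul_div_cancel_left _ (by norm_num : 0 < 2)]

include h in
/-- `dim_K Ω(0) = genus K F` for any submodule whose members are exactly the `η` with
`MemOmega 0 η`. -/
theorem finrank_regular_eq_genus (hP : PairingSpec P) (hweil : WeilSpec K F)
    (hrr : ∀ D : Divisor K F, (ell D : ℤ) - ind D = Divisor.degree D + 1 - (genusFF K F : ℤ))
    (W : Submodule K Ω[F⁄K]) (hWmem : ∀ η, η ∈ W ↔ MemOmega (0 : Divisor K F) η) :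
    Module.finrank K W = genus K F := by
  rw [genus_eq_genusFF h hP hweil hrr]
  exact finrank_regular h hP hweil (fun η hη => finite_ordDifferential_ne_zero hη) W hWmem

include h in
/-- Version for a submodule cut out by `IsRegular`. -/
theorem finrank_isRegular_eq_genus (hP : PairingSpec P) (hweil : WeilSpec K F)
    (hrr : ∀ D : Divisor K F, (ell D : ℤ) - ind D = Divisor.degree D + 1 - (genusFF K F : ℤ))
    (W : Submodule K Ω[F⁄K]) (hWmem : ∀ η, η ∈ W ↔ IsRegular η) :
    Module.finrank K W = genus K F :=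
  finrank_regular_eq_genus h hP hweil hrr W fun η =>
    (hWmem η).trans (isRegular_iff_memOmega_zero h η)

include h in
/-- The regular differentials form a `K`-subspace (an explicit model: the image of `L(W)`
under `f ↦ f • ω`), of dimension `genus K F`. -/
theorem exists_regular_submodule (hP : PairingSpec P) (hweil : WeilSpec K F)
    (hrr : ∀ D : Divisor K F, (ell D : ℤ) - ind D = Divisor.degree D + 1 - (genusFF K F : ℤ)) :
    ∃ W : Submodule K Ω[F⁄K], (∀ η, η ∈ W ↔ IsRegular η) ∧ Module.finrank K W = genus K F := by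
  obtain ⟨ω, hω⟩ := FF.exists_ne_zero h.ff
  have hmem : ∀ η, η ∈ omegaImg ω (canonicalDivisorOf hω) 0 ↔ IsRegular η := fun η =>
    (mem_omegaImg_iff h hω (canonicalDivisorOf_apply hω) 0 η).trans
      (isRegular_iff_memOmega_zero h η).symm
  exact ⟨_, hmem, finrank_isRegular_eq_genus h hP hweil hrr _ hmem⟩

end Canonical

/-! ### Assembled forms: only the pairing (row E1) and `rr_one`, `finite_H1` (row C3) as inputs -/

section Assembled

variable [CharZero K] (h : Hyp K F)
  {P : Ω[F⁄K] →ₗ[K] (↥(repartitions K F) →ₗ[K] K)}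
include h

/-- Serre duality `dim Ω(D) = i(D)` from the pairing and Riemann–Roch (first form). -/
theorem finrank_eq_ind_of_rr (hP : PairingSpec P)
    (hrr : ∀ D : Divisor K F, (ell D : ℤ) - ind D = Divisor.degree D + 1 - (genusFF K F : ℤ))
    (hfinH : ∀ D : Divisor K F, Module.Finite K (H1 D))
    (hfinΩ : ∀ η : Ω[F⁄K], η ≠ 0 → {v : Place K F | v.ordDifferential η ≠ 0}.Finite)
    (D : Divisor K F) (W : Submodule K Ω[F⁄K]) (hWmem : ∀ η, η ∈ W ↔ MemOmega D η) :
    Module.finrank K W = ind D :=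
  finrank_eq_ind h hP (weilSpec_of_rr h hrr hfinH) hfinΩ D W hWmem

variable [HasCanonicalDivisor (K := K) (F := F)]

theorem degree_canonical_of_rr (hP : PairingSpec P)
    (hrr : ∀ D : Divisor K F, (ell D : ℤ) - ind D = Divisor.degree D + 1 - (genusFF K F : ℤ))
    (hfinH : ∀ D : Divisor K F, Module.Finite K (H1 D))
    {ω : Ω[F⁄K]} (hω : ω ≠ 0) :
    Divisor.degree (canonicalDivisorOf hω) = 2 * (genusFF K F : ℤ) - 2 :=
  degree_canonical h hP (weilSpec_of_rr h hrr hfinH) hrr hω

theorem riemann_roch_of_rr (hP : PairingSpec P)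
    (hrr : ∀ D : Divisor K F, (ell D : ℤ) - ind D = Divisor.degree D + 1 - (genusFF K F : ℤ))
    (hfinH : ∀ D : Divisor K F, Module.Finite K (H1 D))
    {ω : Ω[F⁄K]} (hω : ω ≠ 0) (D : Divisor K F) :
    (ell D : ℤ) - ell (canonicalDivisorOf hω - D) =
      Divisor.degree D + 1 - (genusFF K F : ℤ) :=
  riemann_roch h hP (weilSpec_of_rr h hrr hfinH) hrr hω D

theorem genus_eq_genusFF_of_rr (hP : PairingSpec P)
    (hrr : ∀ D : Divisor K F, (ell D : ℤ) - ind D = Divisor.degree D + 1 - (genusFF K F : ℤ))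
    (hfinH : ∀ D : Divisor K F, Module.Finite K (H1 D)) :
    genus K F = genusFF K F :=
  genus_eq_genusFF h hP (weilSpec_of_rr h hrr hfinH) hrr

theorem finrank_regular_eq_genus_of_rr (hP : PairingSpec P)
    (hrr : ∀ D : Divisor K F, (ell D : ℤ) - ind D = Divisor.degree D + 1 - (genusFF K F : ℤ))
    (hfinH : ∀ D : Divisor K F, Module.Finite K (H1 D))
    (W : Submodule K Ω[F⁄K]) (hWmem : ∀ η, η ∈ W ↔ MemOmega (0 : Divisor K F) η) :
    Module.finrank K W = genus K F :=
  finrank_regular_eq_genus h hP (weilSpec_of_rr h hrr hfinH) hrr W hWmem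

theorem finrank_isRegular_eq_genus_of_rr (hP : PairingSpec P)
    (hrr : ∀ D : Divisor K F, (ell D : ℤ) - ind D = Divisor.degree D + 1 - (genusFF K F : ℤ))
    (hfinH : ∀ D : Divisor K F, Module.Finite K (H1 D))
    (W : Submodule K Ω[F⁄K]) (hWmem : ∀ η, η ∈ W ↔ IsRegular η) :
    Module.finrank K W = genus K F :=
  finrank_isRegular_eq_genus h hP (weilSpec_of_rr h hrr hfinH) hrr W hWmem

theorem exists_regular_submodule_of_rr (hP : PairingSpec P)
    (hrr : ∀ D : Divisor K F, (ell D : ℤ) - ind D = Divisor.degree D + 1 - (genusFF K F : ℤ))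
    (hfinH : ∀ D : Divisor K F, Module.Finite K (H1 D)) :
    ∃ W : Submodule K Ω[F⁄K], (∀ η, η ∈ W ↔ IsRegular η) ∧ Module.finrank K W = genus K F :=
  exists_regular_submodule h hP (weilSpec_of_rr h hrr hfinH) hrr

end Assembled

end Fermat.Agent.S20.RR.Duality
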