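import Mathlib
import Fermat.Agent.S20.RR.Defs
import Fermat.Agent.S20.RR.LSpace
import Fermat.Agent.S20.RiemannHyp
import Fermat.Agent.S20.RRWeakFin

/-!
# S20, block RR, row C3: Riemann–Roch, first form

For `(h : Hyp K F)` (no further hypotheses on `K`):

* `sup_eq_top` : if `g` is a constant in Riemann's inequality attained at `D₀`, then
  `A(D₀) + F = A` (all repartitions);
* `finite_H1` : `H¹(D)` is finite-dimensional over `K`;
* `genusFF_eq` : `genusFF K F` is the constant `g` of Riemann's inequality;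
* `rr_one` : `ℓ(D) - i(D) = deg D + 1 - genusFF K F`;
* `riemann_genusFF` : `deg D + 1 - genusFF K F ≤ ℓ(D)`;
* `ell_eq_of_large`, `ind_eq_zero_of_large` : for `deg D` large, `ℓ(D) = deg D + 1 - genusFF K F`
  and `i(D) = 0`.

Assembly of `RiemannHyp` (row B), `LSpace` (row A) and `RRWeak` / `RRWeakFin`.
Owner: helper47.
-/

set_option autoImplicit false

open AlgebraicCurve KaehlerDifferential IntermediateField

namespace Fermat.Agent.S20.RR.RROne

open Fermat.Agent.S20.RRWeak

variable {K F : Type*} [Field K] [Field F] [Algebra K F]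

theorem residueIsBase (h : Hyp K F) : ResidueIsBase K F := h.res

theorem degOne (h : Hyp K F) : DegOne K F := h.deg_one

theorem polesFinite (h : Hyp K F) : PolesFinite K F := fun f hf =>
  (h.fin f hf).subset fun v (hv : v.ord f < 0) => by
    show v.ord f ≠ 0
    omega

/-- A function without poles is constant (no hypothesis on `K` beyond `Hyp`). -/
theorem constantsAreBase (h : Hyp K F) : ConstantsAreBase K F := fun f hf => by
  obtain ⟨c, hc⟩ := Fermat.Agent.S20.RR.LSpace.eq_algebraMap_of_ord_nonneg h hf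
  exact ⟨c, hc.symm⟩

theorem ell_eq (D : Divisor K F) :
    Fermat.Agent.S20.RRWeak.ell D = (Fermat.Agent.S20.RR.ell D : ℤ) := rfl

theorem idx_eq (D : Divisor K F) :
    Fermat.Agent.S20.RRWeak.idx D = (Fermat.Agent.S20.RR.ind D : ℤ) := rfl

/-- The stabilisation hypothesis of `RRWeakFin`, from Riemann's theorem (row B). -/
theorem stab (h : Hyp K F) {g : ℕ}
    (hg : ∀ D : Divisor K F, Divisor.degree D + 1 - g ≤ Fermat.Agent.S20.RR.ell D)
    {D₀ : Divisor K F} (h0 : (Fermat.Agent.S20.RR.ell D₀ : ℤ) = Divisor.degree D₀ + 1 - g) :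
    ∀ D : Divisor K F, D₀ ≤ D →
      Fermat.Agent.S20.RRWeak.ell D = Divisor.degree D + (1 - (g : ℤ)) := fun D hD => by
  rw [ell_eq, Fermat.Agent.S20.RiemannHyp.ell_eq_of_le h hg h0 hD]
  ring

/-- `A(D₀) + F = A` as soon as Riemann's bound is attained at `D₀`. -/
theorem sup_eq_top (h : Hyp K F) {g : ℕ}
    (hg : ∀ D : Divisor K F, Divisor.degree D + 1 - g ≤ Fermat.Agent.S20.RR.ell D)
    {D₀ : Divisor K F} (h0 : (Fermat.Agent.S20.RR.ell D₀ : ℤ) = Divisor.degree D₀ + 1 - g) :
    repartitionsOf D₀ ⊔ principalRepartitions K F = ⊤ :=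
  SD_eq_top (residueIsBase h) (degOne h) (polesFinite h) D₀ (1 - g) (stab h hg h0)

/-- `H¹(D)` is finite-dimensional. -/
theorem finite_H1 (h : Hyp K F) (D : Divisor K F) : Module.Finite K (H1 D) := by
  obtain ⟨g, hg, D₀, h0⟩ := Fermat.Agent.S20.RiemannHyp.exists_genus_attained h
  exact Fermat.Agent.S20.RRWeak.finite_H1 (residueIsBase h) (degOne h) (polesFinite h) D₀ (1 - g)
    (stab h hg h0) D

theorem finite_L (h : Hyp K F) (D : Divisor K F) : Module.Finite K ↥(riemannRochSpace D) :=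
  Fermat.Agent.S20.RR.LSpace.finite_L h D

/-- The genus `genusFF K F = dim H¹(0)` is the (least) constant of Riemann's inequality. -/
theorem genusFF_eq (h : Hyp K F) {g : ℕ}
    (hg : ∀ D : Divisor K F, Divisor.degree D + 1 - g ≤ Fermat.Agent.S20.RR.ell D)
    {D₀ : Divisor K F} (h0 : (Fermat.Agent.S20.RR.ell D₀ : ℤ) = Divisor.degree D₀ + 1 - g) :
    genusFF K F = g := by
  have := (weak_riemannRoch_of_stable (residueIsBase h) (degOne h) (constantsAreBase h)
    (polesFinite h) D₀ (1 - g) (stab h hg h0)).1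
  omega

/-- **Riemann–Roch, first form**: `ℓ(D) - i(D) = deg D + 1 - g`. -/
theorem rr_one (h : Hyp K F) (D : Divisor K F) :
    (Fermat.Agent.S20.RR.ell D : ℤ) - Fermat.Agent.S20.RR.ind D =
      Divisor.degree D + 1 - (genusFF K F : ℤ) := by
  obtain ⟨g, hg, D₀, h0⟩ := Fermat.Agent.S20.RiemannHyp.exists_genus_attained h
  have hg' := genusFF_eq h hg h0
  have := ((weak_riemannRoch_of_stable (residueIsBase h) (degOne h) (constantsAreBase h)
    (polesFinite h) D₀ (1 - g) (stab h hg h0)).2 D).2.2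
  rw [hg']
  unfold Fermat.Agent.S20.RR.ell Fermat.Agent.S20.RR.ind
  linarith

/-- Riemann's inequality with the genus `genusFF K F`. -/
theorem riemann_genusFF (h : Hyp K F) (D : Divisor K F) :
    Divisor.degree D + 1 - (genusFF K F : ℤ) ≤ Fermat.Agent.S20.RR.ell D := by
  have := rr_one h D
  have hnn : (0 : ℤ) ≤ Fermat.Agent.S20.RR.ind D := Int.natCast_nonneg _
  linarith

/-- For divisors of large degree, `ℓ(D) = deg D + 1 - g`. -/
theorem ell_eq_of_large (h : Hyp K F) :
    ∃ c : ℤ, ∀ D : Divisor K F, c ≤ Divisor.degree D →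
      (Fermat.Agent.S20.RR.ell D : ℤ) = Divisor.degree D + 1 - (genusFF K F : ℤ) := by
  obtain ⟨g, hg, D₀, h0⟩ := Fermat.Agent.S20.RiemannHyp.exists_genus_attained h
  have hgg := genusFF_eq h hg h0
  refine ⟨Divisor.degree D₀ + g, fun D hD => ?_⟩
  -- `ℓ(D - D₀) ≥ 1`: there is a nonzero `z ∈ L(D - D₀)`
  have h1 := hg (D - D₀)
  rw [map_sub] at h1
  have hpos : 0 < Fermat.Agent.S20.RR.ell (D - D₀) := by
    have : (0 : ℤ) < Fermat.Agent.S20.RR.ell (D - D₀) := by linarith
    exact_mod_cast this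
  have : Module.Finite K ↥(riemannRochSpace (D - D₀)) := finite_L h _
  have hnt : Nontrivial ↥(riemannRochSpace (D - D₀)) := Module.finrank_pos_iff.mp hpos
  obtain ⟨⟨z, hz⟩, hz0⟩ := exists_ne (0 : ↥(riemannRochSpace (D - D₀)))
  have hz0' : z ≠ 0 := fun hh => hz0 (Subtype.ext hh)
  -- `D₀ ≤ D + div z`
  have hle : D₀ ≤ D + h.div z := by
    intro v
    have := (Fermat.Agent.S20.RR.LSpace.mem_riemannRochSpace_of_ne_zero hz0').mp hz v
    rw [Finsupp.sub_apply] at this
    rw [Finsupp.add_apply, h.div_apply hz0']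
    linarith
  have h2 := Fermat.Agent.S20.RiemannHyp.ell_eq_of_le h hg h0 hle
  rw [Fermat.Agent.S20.RR.LSpace.ell_add_div h D hz0', map_add, h.degree_div, add_zero] at h2
  rw [h2, hgg]

/-- For divisors of large degree, `i(D) = 0`. -/
theorem ind_eq_zero_of_large (h : Hyp K F) :
    ∃ c : ℤ, ∀ D : Divisor K F, c ≤ Divisor.degree D → Fermat.Agent.S20.RR.ind D = 0 := by
  obtain ⟨c, hc⟩ := ell_eq_of_large h
  refine ⟨c, fun D hD => ?_⟩
  have h1 := hc D hD
  have h2 := rr_one h D
  have : (Fermat.Agent.S20.RR.ind D : ℤ) = 0 := by linarith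
  exact_mod_cast this

end Fermat.Agent.S20.RR.RROne
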