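import Fermat.Agent.S20.RR.Duality
import Fermat.Agent.S20.RR.RROne
import Fermat.Agent.S20.RR.ResLocal
import Fermat.Agent.S20.RegularGenus

/-!
# Riemann–Roch block, row E3 (final forms)

`Duality.lean` proves Serre duality from the pairing interface `PairingSpec P` and the first form
of Riemann–Roch.  Rows A (`LSpace`), C3 (`RROne`), D1 (`ResLocal`), E2 (`WeilDim`) are landed, so
here everything is stated with the posted names, for `ResLocal.omegaOf`, with **only**
`h : Hyp K F` and `hP : PairingSpec P` (row E1, `P = pairingLin h`) as hypotheses.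

The last theorem, `star_of_pairing`, is the input `(★)` of `RegularGenus.lean`.
-/

set_option autoImplicit false

open AlgebraicCurve KaehlerDifferential IntermediateField

namespace Fermat.Agent.S20.RR.DualityFinal

open Fermat.Agent.S20.RR Fermat.Agent.S20.RR.Duality Fermat.Agent.S20.RR.ResLocal

variable {K F : Type*} [Field K] [Field F] [Algebra K F] [CharZero K]
  (h : Hyp K F) {P : Ω[F⁄K] →ₗ[K] (↥(repartitions K F) →ₗ[K] K)} (hP : PairingSpec P)
include h hP

/-- Serre duality, `dim_K Ω(D) = i(D)`, given finiteness of the divisors of differentials. -/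
theorem finrank_omegaOf_of_finite
    (hfinΩ : ∀ η : Ω[F⁄K], η ≠ 0 → {v : Place K F | v.ordDifferential η ≠ 0}.Finite)
    (D : Divisor K F) : Module.finrank K (omegaOf h D) = ind D :=
  finrank_eq_ind_of_rr h hP (RROne.rr_one h) (RROne.finite_H1 h) hfinΩ D (omegaOf h D)
    (mem_omegaOf h D)

variable [HasCanonicalDivisor (K := K) (F := F)]

/-- **Serre duality**: `dim_K Ω(D) = i(D)`. -/
theorem finrank_omegaOf (D : Divisor K F) : Module.finrank K (omegaOf h D) = ind D :=
  finrank_omegaOf_of_finite h hP (fun _ hη => finite_ordDifferential_ne_zero hη) D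

/-- `dim_K Ω(0) = genusFF K F`. -/
theorem finrank_regular : Module.finrank K (omegaOf h 0) = genusFF K F := by
  rw [finrank_omegaOf h hP, ind, genusFF]

/-- `i(D) = ℓ(W - D)`. -/
theorem ind_eq_ell_canonical_sub {ω : Ω[F⁄K]} (hω : ω ≠ 0) (D : Divisor K F) :
    ind D = ell (canonicalDivisorOf hω - D) :=
  Duality.ind_eq_ell_canonical_sub h hP
    (weilSpec_of_rr h (RROne.rr_one h) (RROne.finite_H1 h)) hω D

/-- **Riemann–Roch**: `ℓ(D) - ℓ(W - D) = deg D + 1 - g`. -/
theorem riemann_roch {ω : Ω[F⁄K]} (hω : ω ≠ 0) (D : Divisor K F) :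
    (ell D : ℤ) - ell (canonicalDivisorOf hω - D) =
      Divisor.degree D + 1 - (genusFF K F : ℤ) :=
  riemann_roch_of_rr h hP (RROne.rr_one h) (RROne.finite_H1 h) hω D

/-- `deg W = 2g - 2`. -/
theorem degree_canonical {ω : Ω[F⁄K]} (hω : ω ≠ 0) :
    Divisor.degree (canonicalDivisorOf hω) = 2 * (genusFF K F : ℤ) - 2 :=
  degree_canonical_of_rr h hP (RROne.rr_one h) (RROne.finite_H1 h) hω

/-- `ℓ(W) = g`. -/
theorem ell_canonical {ω : Ω[F⁄K]} (hω : ω ≠ 0) :
    ell (canonicalDivisorOf hω) = genusFF K F := by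
  have h1 := riemann_roch h hP hω (0 : Divisor K F)
  rw [sub_zero, map_zero, LSpace.ell_zero h] at h1
  have : (ell (canonicalDivisorOf hω) : ℤ) = (genusFF K F : ℤ) := by
    push_cast at h1
    linarith
  exact_mod_cast this

/-- The Prelude's `genus` equals the Prelude's `genusFF`. -/
theorem genus_eq_genusFF : genus K F = genusFF K F :=
  genus_eq_genusFF_of_rr h hP (RROne.rr_one h) (RROne.finite_H1 h)

/-- `dim_K Ω(0) = genus K F`. -/
theorem finrank_regular_eq_genus : Module.finrank K (omegaOf h 0) = genus K F := by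
  rw [genus_eq_genusFF h hP, finrank_regular h hP]

/-- The hypothesis `(★)` of `RegularGenus.lean`. -/
theorem star_of_pairing : Fermat.Agent.S20.RegularGenus.Star K F := by
  obtain ⟨ω, hω⟩ := Fermat.Agent.S24.KaehlerGen.FF.exists_ne_zero h.ff
  refine ⟨ω, hω, canonicalDivisorOf hω, canonicalDivisorOf_apply hω, ?_⟩
  have h1 := ell_canonical h hP hω
  have h2 := degree_canonical h hP hω
  unfold ell at h1
  rw [h1, h2]
  ring

end Fermat.Agent.S20.RR.DualityFinal
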