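-- S20 / RR-D4 (row 104), abstract core: the local trace formula for a finite separable extension
-- `F / k` whose `n = [F : k]` embeddings into `K((U))` are obtained from finitely many "charts"
-- `σ v : F → K((X))` (with `σ v` restricted to `k` equal to `X ↦ X ^ (e v)` after a common
-- expansion `κ₀ : k → K((X))`) by the substitutions `X ↦ ζ_v^i U^(N / e v)`.
-- No places, no curves: pure field theory + Laurent series.  Owner: helper78.
import Mathlib
import Fermat.Agent.S20.RR.TraceEmb

set_option autoImplicit false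

namespace Fermat.Agent.S20.RR.LocalTraceAbs

open HahnSeries Fermat.Agent.S20.RR.TraceEmb

section Subst

variable {K : Type*} [Field K]

/-- `X ↦ ξ X^M` after `X ↦ X^e` is `X ↦ X^(M e)` when `ξ ^ e = 1`. -/
theorem substPow_substPow_one (ξ : K) (hξ : ξ ≠ 0) (M : ℕ) (hM : 0 < M) (e : ℕ) (he : 0 < e)
    (hξe : ξ ^ e = 1) (N : ℕ) (hN : 0 < N) (hNM : M * e = N) (s : LaurentSeries K) :
    substPow ξ hξ M hM (substPow 1 one_ne_zero e he s) = substPow 1 one_ne_zero N hN s := by
  subst hNM
  ext n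
  by_cases hn : (M : ℤ) ∣ n
  · obtain ⟨n', rfl⟩ := hn
    rw [coeff_substPow]
    by_cases hn' : (e : ℤ) ∣ n'
    · obtain ⟨k, rfl⟩ := hn'
      rw [coeff_substPow]
      have h1 : ((M * e : ℕ) : ℤ) * k = (M : ℤ) * ((e : ℤ) * k) := by push_cast; ring
      rw [← h1, coeff_substPow, zpow_mul, zpow_natCast, hξe]
      simp only [one_zpow, one_mul]
    · rw [coeff_substPow_of_not_dvd _ _ _ _ _ _ hn', mul_zero]
      symm
      apply coeff_substPow_of_not_dvd
      rintro ⟨k, hk⟩
      apply hn'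
      refine ⟨k, ?_⟩
      have hM0 : (M : ℤ) ≠ 0 := by exact_mod_cast hM.ne'
      apply mul_left_cancel₀ hM0
      rw [hk]; push_cast; ring
  · rw [coeff_substPow_of_not_dvd _ _ _ _ _ _ hn]
    symm
    apply coeff_substPow_of_not_dvd
    rintro ⟨k, hk⟩
    apply hn
    refine ⟨(e : ℤ) * k, ?_⟩
    rw [hk]; push_cast; ring

end Subst

section Main

variable {K k F ι : Type*} [Field K] [Field k] [Field F] [Algebra K k] [Algebra K F]
  [Algebra k F] [FiniteDimensional k F] [Algebra.IsSeparable k F] [Fintype ι] [DecidableEq ι]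

/-- **Abstract local trace formula.**  Let `F / k` be finite separable of degree `n`, let
`κ₀ : k → K((X))` be an expansion of `k`, and let `σ v : F → K((X))` (`v : ι`) be expansions of `F`
with `σ v = (X ↦ X^(e v)) ∘ κ₀` on `k`, `∑ v, e v = n`, which are pairwise "inequivalent"
(`hsep`) and "unramified in the variable `X`" (`hunif`: some element has a nonzero `X¹`-coefficient).
Then for every `f : F` and `m : ℤ`, the `m`-th coefficient of the expansion of `Tr_{F/k} f` is
`∑ v, e v * ((σ v f).coeff (e v * m))`. -/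
theorem coeff_trace_eq_sum
    (e : ι → ℕ) (he : ∀ v, 0 < e v) (hsum : ∑ v, e v = Module.finrank k F)
    (ζ : ι → K) (hζ : ∀ v, IsPrimitiveRoot (ζ v) (e v))
    (σ : ι → F →ₐ[K] LaurentSeries K) (κ₀ : k →ₐ[K] LaurentSeries K)
    (hcomp : ∀ v (c : k),
      σ v (algebraMap k F c) = substPow 1 one_ne_zero (e v) (he v) (κ₀ c))
    (hsep : ∀ v w, v ≠ w → ∃ g : F, (∀ n : ℤ, n < 0 → (σ v g).coeff n = 0) ∧
      ∃ n : ℤ, n < 0 ∧ (σ w g).coeff n ≠ 0)
    (hunif : ∀ v, ∃ π : F, (σ v π).coeff 1 ≠ 0)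
    (f : F) (m : ℤ) :
    (κ₀ (Algebra.trace k F f)).coeff m = ∑ v, (e v : K) * (σ v f).coeff ((e v : ℤ) * m) := by
  classical
  -- the common exponent and the cofactors
  set N : ℕ := ∏ v, e v with hNdef
  have hN : 0 < N := Finset.prod_pos fun v _ => he v
  let M : ι → ℕ := fun v => ∏ w ∈ Finset.univ.erase v, e w
  have hM : ∀ v, 0 < M v := fun v => Finset.prod_pos fun w _ => he w
  have hNM : ∀ v, M v * e v = N := fun v => by
    rw [mul_comm]
    exact Finset.mul_prod_erase Finset.univ e (Finset.mem_univ v)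
  have hζ0 : ∀ v, ζ v ≠ 0 := fun v => (hζ v).ne_zero (he v).ne'
  have hζi0 : ∀ v (i : ℕ), ζ v ^ i ≠ 0 := fun v i => pow_ne_zero i (hζ0 v)
  have hζie : ∀ v (i : ℕ), (ζ v ^ i) ^ e v = 1 := fun v i => by
    rw [← pow_mul, mul_comm, pow_mul, (hζ v).pow_eq_one, one_pow]
  -- the `k`-algebra structure on `K((U))`
  let κ : k →+* LaurentSeries K :=
    (substPow (1 : K) one_ne_zero N hN).toRingHom.comp κ₀.toRingHom
  let _ : Algebra k (LaurentSeries K) := κ.toAlgebra
  have hκ : ∀ c : k, algebraMap k (LaurentSeries K) c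
      = substPow (1 : K) one_ne_zero N hN (κ₀ c) := fun c => rfl
  -- the `n` embeddings
  let φ : (Σ v : ι, Fin (e v)) → F →ₐ[k] LaurentSeries K := fun p =>
    { toRingHom := (substPow (ζ p.1 ^ (p.2 : ℕ)) (hζi0 p.1 p.2) (M p.1) (hM p.1)).toRingHom.comp
        (σ p.1).toRingHom
      commutes' := fun c => by
        show substPow (ζ p.1 ^ (p.2 : ℕ)) (hζi0 p.1 p.2) (M p.1) (hM p.1)
          (σ p.1 (algebraMap k F c)) = algebraMap k (LaurentSeries K) c
        rw [hcomp, hκ]
        exact substPow_substPow_one _ _ _ _ _ _ (hζie p.1 p.2) N hN (hNM p.1) _ }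
  have hφ_apply : ∀ (p : Σ v : ι, Fin (e v)) (g : F),
      φ p g = substPow (ζ p.1 ^ (p.2 : ℕ)) (hζi0 p.1 p.2) (M p.1) (hM p.1) (σ p.1 g) :=
    fun p g => rfl
  -- they are pairwise distinct
  have hφ : Function.Injective φ := by
    rintro ⟨v, i⟩ ⟨w, j⟩ hpq
    by_cases hvw : v = w
    · subst hvw
      congr 1
      by_contra hij
      obtain ⟨π, hπ⟩ := hunif v
      have h1 := congrArg (fun u : LaurentSeries K => u.coeff ((M v : ℤ) * 1))
        (DFunLike.congr_fun hpq π)
      simp only [hφ_apply, coeff_substPow, zpow_one] at h1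
      have h2 : ζ v ^ (i : ℕ) = ζ v ^ (j : ℕ) := mul_right_cancel₀ hπ h1
      have h3 : (i : ℕ) = (j : ℕ) := (hζ v).pow_inj i.2 j.2 h2
      exact hij (Fin.ext h3)
    · exfalso
      obtain ⟨g, hg1, n, hn, hg2⟩ := hsep v w hvw
      have h1 := congrArg (fun u : LaurentSeries K => u.coeff ((M w : ℤ) * n))
        (DFunLike.congr_fun hpq g)
      simp only [hφ_apply] at h1
      rw [coeff_substPow] at h1
      have hR : (ζ w ^ (j : ℕ)) ^ n * (σ w g).coeff n ≠ 0 :=
        mul_ne_zero (zpow_ne_zero n (hζi0 w j)) hg2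
      apply hR
      rw [← h1]
      by_cases hd : (M v : ℤ) ∣ (M w : ℤ) * n
      · obtain ⟨n', hn'⟩ := hd
        rw [hn', coeff_substPow]
        have hneg : n' < 0 := by
          have hMw : (0 : ℤ) < M w := by exact_mod_cast hM w
          have hMv : (0 : ℤ) < M v := by exact_mod_cast hM v
          have : (M v : ℤ) * n' < 0 := by rw [← hn']; exact mul_neg_of_pos_of_neg hMw hn
          by_contra hge
          rw [not_lt] at hge
          exact absurd (mul_nonneg hMv.le hge) (not_le.mpr this)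
        rw [hg1 n' hneg, mul_zero]
      · exact coeff_substPow_of_not_dvd _ _ _ _ _ _ hd
  have hcard : Fintype.card (Σ v : ι, Fin (e v)) = Module.finrank k F := by
    rw [Fintype.card_sigma, ← hsum]
    exact Finset.sum_congr rfl fun v _ => Fintype.card_fin (e v)
  have htr := trace_eq_sum_of_card_eq φ hφ hcard f
  rw [hκ] at htr
  -- compare the coefficients of `U ^ (N m)`
  have h2 := congrArg (fun u : LaurentSeries K => u.coeff ((N : ℤ) * m)) htr
  simp only [coeff_substPow, one_zpow, one_mul] at h2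
  rw [h2]
  have hcoeff_sum : ∀ (s : Finset (Σ v : ι, Fin (e v))) (u : (Σ v : ι, Fin (e v)) → LaurentSeries K)
      (a : ℤ), (∑ p ∈ s, u p).coeff a = ∑ p ∈ s, (u p).coeff a := by
    intro s u a
    induction s using Finset.induction_on with
    | empty => simp
    | insert p s hp ih => rw [Finset.sum_insert hp, Finset.sum_insert hp, HahnSeries.coeff_add, ih]
  rw [hcoeff_sum, Fintype.sum_sigma]
  refine Finset.sum_congr rfl fun v _ => ?_
  have hNv : (N : ℤ) * m = (M v : ℤ) * ((e v : ℤ) * m) := by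
    rw [← hNM v]; push_cast; ring
  have hterm : ∀ i : Fin (e v), (φ ⟨v, i⟩ f).coeff ((N : ℤ) * m)
      = (σ v f).coeff ((e v : ℤ) * m) := by
    intro i
    rw [hφ_apply, hNv, coeff_substPow, zpow_mul, zpow_natCast, hζie v i, one_zpow, one_mul]
  rw [Finset.sum_congr rfl fun i _ => hterm i, Finset.sum_const, Finset.card_univ,
    Fintype.card_fin, nsmul_eq_mul]

end Main

end Fermat.Agent.S20.RR.LocalTraceAbs
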