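import Mathlib
import Fermat.Agent.S20.TraceEmb
import Fermat.Agent.S20.RR.TraceEmb

/-!
# Row 104 (RR-D4), curve-free core: the local trace formula on Laurent expansions

`L / k` is a finite separable field extension, `ι : k →+* K((X))` an "expansion downstairs" and
`σ v : L →+* K((X))`, `v ∈ Z`, "expansions upstairs" with ramification indices `e v`
(`σ v` restricted to `k` is `ι` followed by `X ↦ X ^ e v`), `∑ e v = [L : k]`.  Then for all
`f : L` and `m : ℤ`

  `(ι (Tr f)).coeff m = ∑ v, e v * (σ v f).coeff (e v * m)`.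

Proof: the `n = [L : k]` ring homomorphisms `f ↦ (σ v f)(ζ_v^i U^{N / e v})` (`N = ∏ e v`,
`ζ_v` a primitive `e v`-th root of unity) are pairwise distinct and agree on `k` with
`g ↦ (ι g)(U^N)`, so the trace is their sum; compare coefficients of `U^{N m}`.
-/

set_option autoImplicit false

open HahnSeries

namespace Fermat.Agent.S20.RR.LocalTraceCore

open Fermat.Agent.S20.RR.TraceEmb

variable {K : Type*} [Field K]

/-- Negative coefficients of `substPow ζ M s` vanish if those of `s` do. -/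
theorem coeff_substPow_neg_eq_zero (ζ : K) (hζ : ζ ≠ 0) (M : ℕ) (hM : 0 < M) (s : LaurentSeries K)
    (hs : ∀ n : ℤ, n < 0 → s.coeff n = 0) (n : ℤ) (hn : n < 0) :
    (substPow ζ hζ M hM s).coeff n = 0 := by
  by_cases hd : (M : ℤ) ∣ n
  · obtain ⟨j, rfl⟩ := hd
    rw [coeff_substPow, hs, mul_zero]
    have hM' : (0 : ℤ) < M := by exact_mod_cast hM
    by_contra hj
    rw [not_lt] at hj
    have := mul_nonneg hM'.le hj
    omega
  · exact coeff_substPow_of_not_dvd ζ hζ M hM s n hd

/-- `X ↦ ζ X^M` after `X ↦ X^e` is `X ↦ X^(M e)` when `ζ ^ e = 1`. -/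
theorem substPow_substPow_one (ζ : K) (hζ : ζ ≠ 0) (M e N : ℕ) (hM : 0 < M) (he : 0 < e)
    (hN : 0 < N) (hMe : M * e = N) (hζe : ζ ^ e = 1) (s : LaurentSeries K) :
    substPow ζ hζ M hM (substPow 1 one_ne_zero e he s) = substPow 1 one_ne_zero N hN s := by
  subst hMe
  ext n
  by_cases hn : (M : ℤ) ∣ n
  · obtain ⟨j, rfl⟩ := hn
    rw [coeff_substPow]
    by_cases hj : (e : ℤ) ∣ j
    · obtain ⟨i, rfl⟩ := hj
      rw [coeff_substPow]
      have h1 : (M : ℤ) * ((e : ℤ) * i) = ((M * e : ℕ) : ℤ) * i := by push_cast; ring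
      have h2 : ζ ^ ((e : ℤ) * i) = 1 := by
        rw [zpow_mul, zpow_natCast, hζe, one_zpow]
      rw [h1, coeff_substPow, one_zpow, one_mul, h2, one_mul]
    · rw [coeff_substPow_of_not_dvd _ _ _ _ _ _ hj, mul_zero]
      symm
      refine coeff_substPow_of_not_dvd _ _ _ _ _ _ ?_
      rintro ⟨i, hi⟩
      apply hj
      have hM' : (M : ℤ) ≠ 0 := by exact_mod_cast hM.ne'
      refine ⟨i, mul_left_cancel₀ hM' ?_⟩
      rw [hi]; push_cast; ring
  · rw [coeff_substPow_of_not_dvd _ _ _ _ _ _ hn]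
    symm
    refine coeff_substPow_of_not_dvd _ _ _ _ _ _ ?_
    rintro ⟨i, hi⟩
    exact hn ⟨(e : ℤ) * i, by rw [hi]; push_cast; ring⟩

section Main

variable [IsAlgClosed K] [CharZero K]
variable {k L : Type*} [Field k] [Field L] [Algebra k L] [FiniteDimensional k L]
  [Algebra.IsSeparable k L]

theorem exists_primitiveRoot (e : ℕ) (he : 0 < e) : ∃ ζ : K, IsPrimitiveRoot ζ e := by
  have : NeZero ((e : ℕ) : K) := ⟨by exact_mod_cast he.ne'⟩
  exact HasEnoughRootsOfUnity.exists_primitiveRoot K e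

/-- **Local trace formula (abstract core).**  `m = -1` gives the residue at a finite point,
`m = 1` the residue at infinity. -/
theorem coeff_trace_eq_sum
    (ι : k →+* LaurentSeries K)
    {Z : Type*} [Fintype Z] (e : Z → ℕ) (he : ∀ v, 0 < e v)
    (hsum : ∑ v, e v = Module.finrank k L)
    (σ : Z → L →+* LaurentSeries K)
    (hcompat : ∀ v (g : k),
      σ v (algebraMap k L g) = substPow (1 : K) one_ne_zero (e v) (he v) (ι g))
    (hunif : ∀ v, ∃ π : L, (σ v π).order = 1)
    (hsep : ∀ v w, v ≠ w → ∃ f : L, 0 ≤ (σ v f).order ∧ (σ w f).order < 0)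
    (f : L) (m : ℤ) :
    (ι (Algebra.trace k L f)).coeff m = ∑ v, (e v : K) * (σ v f).coeff ((e v : ℤ) * m) := by
  classical
  -- the common denominator and the roots of unity
  set N : ℕ := ∏ v, e v with hN
  have hNpos : 0 < N := Finset.prod_pos fun v _ => he v
  have hdvd : ∀ v, e v ∣ N := fun v => Finset.dvd_prod_of_mem e (Finset.mem_univ v)
  let M : Z → ℕ := fun v => N / e v
  have hMe : ∀ v, M v * e v = N := fun v => Nat.div_mul_cancel (hdvd v)
  have hMpos : ∀ v, 0 < M v := fun v => by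
    rcases Nat.eq_zero_or_pos (M v) with h | h
    · have := hMe v
      rw [h, zero_mul] at this
      omega
    · exact h
  choose ζ hζ using fun v => exists_primitiveRoot (K := K) (e v) (he v)
  have hζ0 : ∀ v (i : ℕ), ζ v ^ i ≠ 0 := fun v i =>
    pow_ne_zero i ((hζ v).ne_zero (he v).ne')
  -- the embeddings
  let φ : (Σ v : Z, Fin (e v)) → L →+* LaurentSeries K := fun p =>
    ((substPow (ζ p.1 ^ (p.2 : ℕ)) (hζ0 p.1 p.2) (M p.1) (hMpos p.1)) : LaurentSeries K →+* _).comp
      (σ p.1)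
  let κ : k →+* LaurentSeries K :=
    ((substPow (1 : K) one_ne_zero N hNpos) : LaurentSeries K →+* _).comp ι
  have hφ_apply : ∀ (p : Σ v : Z, Fin (e v)) (x : L),
      φ p x = substPow (ζ p.1 ^ (p.2 : ℕ)) (hζ0 p.1 p.2) (M p.1) (hMpos p.1) (σ p.1 x) :=
    fun p x => rfl
  -- the powers of `ζ v` are trivial on multiples of `e v`
  have hζpow : ∀ (v : Z) (i : ℕ) (j : ℤ), (ζ v ^ i) ^ ((e v : ℤ) * j) = 1 := by
    intro v i j
    rw [← zpow_natCast (ζ v) i, ← zpow_mul, mul_comm (i : ℤ), mul_assoc, zpow_mul, zpow_natCast,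
      (hζ v).pow_eq_one, one_zpow]
  -- restriction to `k`
  have hτ : ∀ (p : Σ v : Z, Fin (e v)) (c : k), φ p (algebraMap k L c) = κ c := by
    intro p c
    rw [hφ_apply, hcompat]
    refine substPow_substPow_one _ _ _ _ _ _ _ hNpos (hMe p.1) ?_ _
    rw [← pow_mul, mul_comm, pow_mul, (hζ p.1).pow_eq_one, one_pow]
  -- injectivity
  have hinj : Function.Injective φ := by
    rintro ⟨v, i⟩ ⟨w, j⟩ h
    by_cases hvw : v = w
    · subst hvw
      obtain ⟨π, hπ⟩ := hunif v
      have hπ0 : σ v π ≠ 0 := by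
        intro h0
        rw [h0, order_zero] at hπ
        exact zero_ne_one hπ
      have hc : (σ v π).coeff 1 ≠ 0 := by
        have : (σ v π).coeff (σ v π).order ≠ 0 := fun h0 => hπ0 (coeff_order_eq_zero.mp h0)
        rwa [hπ] at this
      have h1 : (φ ⟨v, i⟩ π).coeff ((M v : ℤ) * 1) = (ζ v ^ (i : ℕ)) ^ (1 : ℤ) * (σ v π).coeff 1 := by
        rw [hφ_apply, coeff_substPow]
      have h2 : (φ ⟨v, j⟩ π).coeff ((M v : ℤ) * 1) = (ζ v ^ (j : ℕ)) ^ (1 : ℤ) * (σ v π).coeff 1 := by
        rw [hφ_apply, coeff_substPow]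
      rw [h] at h1
      rw [h1] at h2
      have h3 := mul_right_cancel₀ hc h2
      rw [zpow_one, zpow_one] at h3
      have := (hζ v).pow_inj i.2 j.2 h3
      have hij : i = j := Fin.ext this
      rw [hij]
    · exfalso
      obtain ⟨x, hx1, hx2⟩ := hsep v w hvw
      have hx0 : σ w x ≠ 0 := by
        intro h0
        rw [h0, order_zero] at hx2
        exact lt_irrefl _ hx2
      have hc : (σ w x).coeff (σ w x).order ≠ 0 := fun h0 => hx0 (coeff_order_eq_zero.mp h0)
      set n := (σ w x).order with hn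
      have h2 : (φ ⟨w, j⟩ x).coeff ((M w : ℤ) * n) = (ζ w ^ (j : ℕ)) ^ n * (σ w x).coeff n := by
        rw [hφ_apply, coeff_substPow]
      have hneg : (M w : ℤ) * n < 0 := by
        have : (0 : ℤ) < M w := by exact_mod_cast hMpos w
        exact mul_neg_of_pos_of_neg this hx2
      have h1 : (φ ⟨v, i⟩ x).coeff ((M w : ℤ) * n) = 0 := by
        rw [hφ_apply]
        refine coeff_substPow_neg_eq_zero _ _ _ _ _ ?_ _ hneg
        intro n' hn'
        exact coeff_eq_zero_of_lt_order (lt_of_lt_of_le hn' hx1)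
      rw [h] at h1
      rw [h1] at h2
      rcases mul_eq_zero.mp h2.symm with h3 | h3
      · exact zpow_ne_zero _ (hζ0 w j) h3
      · exact hc h3
  have hcard : Fintype.card (Σ v : Z, Fin (e v)) = Module.finrank k L := by
    rw [Fintype.card_sigma, ← hsum]
    exact Finset.sum_congr rfl fun v _ => Fintype.card_fin _
  have key := Fermat.Agent.S20.TraceEmb.trace_eq_sum_ringHom κ φ hτ hinj hcard f
  -- compare the coefficients of `U ^ (N m)`
  have hL : (κ (Algebra.trace k L f)).coeff ((N : ℤ) * m) = (ι (Algebra.trace k L f)).coeff m := by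
    show (substPow (1 : K) one_ne_zero N hNpos (ι (Algebra.trace k L f))).coeff _ = _
    rw [coeff_substPow, one_zpow, one_mul]
  -- coefficient of a finite sum
  have hcoeff_sum : ∀ (s : Finset (Σ v : Z, Fin (e v)))
      (g : (Σ v : Z, Fin (e v)) → LaurentSeries K) (n : ℤ),
      (∑ p ∈ s, g p).coeff n = ∑ p ∈ s, (g p).coeff n := by
    intro s g n
    induction s using Finset.induction_on with
    | empty => simp
    | insert a s ha ih => rw [Finset.sum_insert ha, Finset.sum_insert ha, coeff_add, ih]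
  rw [← hL, key, hcoeff_sum, Fintype.sum_sigma]
  refine Finset.sum_congr rfl fun v _ => ?_
  have hNm : (N : ℤ) * m = (M v : ℤ) * ((e v : ℤ) * m) := by
    rw [← mul_assoc, ← Nat.cast_mul, hMe]
  have : ∀ i : Fin (e v), (φ ⟨v, i⟩ f).coeff ((N : ℤ) * m) = (σ v f).coeff ((e v : ℤ) * m) := by
    intro i
    rw [hNm, hφ_apply, coeff_substPow, hζpow, one_mul]
  rw [Finset.sum_congr rfl fun i _ => this i]
  simp [Finset.sum_const, nsmul_eq_mul]

end Main

end Fermat.Agent.S20.RR.LocalTraceCore
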