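import Fermat.Agent.S20.RR.LocalTrace
import Fermat.Agent.S20.RR.ResidueThm
import Fermat.Agent.S20.RatFuncResidueShapes

/-!
# Rows RR-D4 / RR-D5, final instantiation

The local trace formulas of `RR/LocalTrace.lean` for the concrete expansions
`RatFuncResidue.iotaAt` / `RatFuncResidue.iotaInf` of `K(x)` (row RR-D3 shapes, file
`RatFuncResidueShapes.lean`), and the resulting residue theorem `Σ_v res_v η = 0`
with no hypothesis besides `Hyp K F`.
-/

set_option autoImplicit false

open AlgebraicCurve KaehlerDifferential IntermediateField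

namespace Fermat.Agent.S20.RR.LocalTraceFinal

open Fermat.Agent.S20.RatFuncResidue

variable {K F : Type*} [Field K] [Field F] [Algebra K F] [IsAlgClosed K] [CharZero K]

/-- Local trace formula over a finite point `x = a`. -/
theorem sum_res_zerosOver (h : Hyp K F) (x : F) (hx : Transcendental K x)
    [FiniteDimensional K⟮x⟯ F] (a : K) (f : F) :
    ∑ᶠ v ∈ Fermat.Agent.S24.zerosOver x a, res h v (f • D K F x)
      = (iotaAt hx a (Algebra.trace K⟮x⟯ F f)).coeff (-1) :=
  LocalTrace.sum_res_zerosOver_of h x hx a (iotaAt hx a) (iotaAt_gen hx a) f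

/-- Local trace formula over `x = ∞`. -/
theorem sum_res_polesOf (h : Hyp K F) (x : F) (hx : Transcendental K x)
    [FiniteDimensional K⟮x⟯ F] (f : F) :
    ∑ᶠ v ∈ Fermat.Agent.S24.polesOf K x, res h v (f • D K F x)
      = -(iotaInf hx (Algebra.trace K⟮x⟯ F f)).coeff 1 :=
  LocalTrace.sum_res_polesOf_of h x hx (iotaInf hx) (iotaInf_gen hx) f

/-- **The residue theorem** on a function field of one variable over an algebraically closed
field of characteristic zero: the sum of the residues of any differential is zero. -/
theorem residue_theorem (h : Hyp K F) (η : Ω[F⁄K]) : ∑ᶠ v : Place K F, res h v η = 0 := by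
  obtain ⟨x, hx, hfd⟩ := h.ff
  have : FiniteDimensional K⟮x⟯ F := hfd
  exact ResidueThm.residue_theorem_of_trace h hx (iotaAt hx) (iotaInf hx) (sum_res_eq hx)
    (fun a f => sum_res_zerosOver h x hx a f) (fun f => sum_res_polesOf h x hx f) η

/-- Finite support of the residues (re-export of `ResidueThm.res_finite_support`). -/
theorem res_finite_support (h : Hyp K F) (η : Ω[F⁄K]) :
    {v : Place K F | res h v η ≠ 0}.Finite :=
  ResidueThm.res_finite_support h η

end Fermat.Agent.S20.RR.LocalTraceFinal
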