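-- S20 / RR-D4 (row 104), INSTANTIATION (independent backup, owner helper78) of the abstract local
-- trace formula `LocalTraceAbs.coeff_trace_eq_sum` for a function field `F / K`:
--   Σ_{v | x = a} res_v (f dx) = coeff_{-1} (κ (Tr f))   (κ the expansion of K(x) at x = a),
--   Σ_{v | x = ∞} res_v (f dx) = - coeff_{1} (κ (Tr f))  (κ the expansion of K(x) at x = ∞).
-- The expansion `κ : K⟮x⟯ →ₐ[K] K((X))` is ABSTRACT (only its value at the generator is used),
-- so that the file does not depend on row D3 (ResP1).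
import Mathlib
import Fermat.Agent.S20.RR.LocalTraceAbs
import Fermat.Agent.S20.RR.Reparam
import Fermat.Agent.S20.RR.ResLocal
import Fermat.Agent.S24.Exchange
import Fermat.Agent.S24.PlaceDeg

set_option autoImplicit false

open AlgebraicCurve KaehlerDifferential IntermediateField

namespace Fermat.Agent.S20.RR.LocalTraceInstB

open Fermat.Agent.S20.RR Fermat.Agent.S20.RR.TraceEmb Fermat.Agent.S24
  Fermat.Agent.S24.DiffOrder

variable {K F : Type*} [Field K] [Field F] [Algebra K F]

/-- Two distinct places are separated by a function regular at the first one with a pole at the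
second one. -/
theorem exists_sep {v w : Place K F} (hvw : v ≠ w) :
    ∃ g : F, g ≠ 0 ∧ 0 ≤ v.ord g ∧ w.ord g < 0 := by
  have hnle : ¬ v.toValuationSubring ≤ w.toValuationSubring := by
    intro hle
    exact hvw (Place.ext (ValuationSubring.eq_of_le_of_ne_top _ hle w.ne_top'))
  obtain ⟨g, hgv, hgw⟩ := SetLike.not_le_iff_exists.mp hnle
  have hg0 : g ≠ 0 := fun h0 => hgw (h0 ▸ zero_mem _)
  refine ⟨g, hg0, (mem_valuationSubring_iff_ord_nonneg v hg0).mp hgv, ?_⟩
  by_contra hge
  exact hgw ((mem_valuationSubring_iff_ord_nonneg w hg0).mpr (not_lt.mp hge))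

theorem lsD_single (e : ℤ) :
    lsD (HahnSeries.single e (1 : K)) = HahnSeries.C (e : K) * HahnSeries.single (e - 1) (1 : K) := by
  have h := lsD_single_mul e (1 : LaurentSeries K)
  have h1 : lsD (1 : LaurentSeries K) = 0 := by
    have := (lsDeriv (K := K)).map_one_eq_zero
    rw [lsDeriv_apply] at this
    exact this
  rw [mul_one, mul_one, h1, mul_zero, add_zero] at h
  exact h

theorem lsD_C (a : K) : lsD (HahnSeries.C a : LaurentSeries K) = 0 := by
  have := (lsDeriv (K := K)).map_algebraMap a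
  rw [lsDeriv_apply, LaurentSeries.algebraMap_apply] at this
  exact this

/-- `coeff_{-1} (s · ∂(X^e)) = e · coeff_{-e} s`. -/
theorem coeff_neg_one_mul_lsD_single (s : LaurentSeries K) (e : ℤ) :
    (s * lsD (HahnSeries.single e (1 : K))).coeff (-1) = (e : K) * s.coeff (-e) := by
  rw [lsD_single, ← mul_assoc, mul_comm s, mul_assoc, HahnSeries.C_mul_eq_smul,
    HahnSeries.coeff_smul, smul_eq_mul]
  have h1 : (-1 : ℤ) = -e + (e - 1) := by ring
  rw [h1, HahnSeries.coeff_mul_single_add, mul_one]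

section Fibre

variable [IsAlgClosed K] [CharZero K]

theorem exists_primitiveRoot_nat (e : ℕ) (he : 0 < e) : ∃ ζ : K, IsPrimitiveRoot ζ e := by
  have : NeZero ((e : ℕ) : K) := ⟨by exact_mod_cast he.ne'⟩
  exact HasEnoughRootsOfUnity.exists_primitiveRoot K e

/-- **The local trace formula over a fibre**, generic form.  `y` is a generator of `K(x)` over `K`
(in the applications `y = x - a` or `y = x⁻¹`), the fibre is the set of zeros of `y`, and `κ` is an
expansion of `K(x)` which is compatible with the charts `τ y = X^e` (hypothesis `hκ`). -/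
theorem coeff_trace_fibre (h : Hyp K F) {x : F} [FiniteDimensional K⟮x⟯ F]
    (y : F) (hy : Transcendental K y)
    (hfr : Module.finrank K⟮y⟯ F = Module.finrank K⟮x⟯ F)
    (κ : K⟮x⟯ →ₐ[K] LaurentSeries K)
    (hκ : ∀ (τ : F →ₐ[K] LaurentSeries K) (e : ℕ) (he : 0 < e),
      τ y = HahnSeries.single (e : ℤ) (1 : K) →
        τ x = substPow 1 one_ne_zero e he (κ (AdjoinSimple.gen K x))) :
    ∃ σ : Place K F → F →ₐ[K] LaurentSeries K,
      (∀ v : Place K F, 0 < v.ord y → IsChart v (σ v) ∧
        σ v y = HahnSeries.single (v.ord y) (1 : K)) ∧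
      ∀ (f : F) (m : ℤ), (κ (Algebra.trace K⟮x⟯ F f)).coeff m =
        ∑ᶠ v ∈ {v : Place K F | 0 < v.ord y},
          ((v.ord y : ℤ) : K) * (σ v f).coeff (v.ord y * m) := by
  classical
  have hy0 : y ≠ 0 := by
    rintro rfl
    exact hy isAlgebraic_zero
  have hZ : {v : Place K F | 0 < v.ord y}.Finite :=
    (h.fin y hy0).subset fun v hv => ne_of_gt hv
  -- adapted charts
  have hch : ∀ v : Place K F, 0 < v.ord y → ∃ σ : F →ₐ[K] LaurentSeries K,
      IsChart v σ ∧ σ y = HahnSeries.single (v.ord y) (1 : K) := by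
    intro v hv
    have hcast : ((v.ord y).toNat : ℤ) = v.ord y := Int.toNat_of_nonneg hv.le
    obtain ⟨σ, h1, h2⟩ := Reparam.exists_chart_pow h v y (v.ord y).toNat (by omega) hcast.symm
    refine ⟨σ, h1, ?_⟩
    rw [h2, hcast]
  let σ : Place K F → F →ₐ[K] LaurentSeries K := fun v =>
    if hv : 0 < v.ord y then (hch v hv).choose else expand h v
  have hσ : ∀ v : Place K F, 0 < v.ord y → IsChart v (σ v) ∧
      σ v y = HahnSeries.single (v.ord y) (1 : K) := by
    intro v hv
    simp only [σ, dif_pos hv]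
    exact (hch v hv).choose_spec
  refine ⟨σ, hσ, fun f m => ?_⟩
  -- the index type
  let ι := {v : Place K F // v ∈ hZ.toFinset}
  have hmem : ∀ v : ι, 0 < v.1.ord y := fun v => hZ.mem_toFinset.mp v.2
  let e : ι → ℕ := fun v => (v.1.ord y).toNat
  have hecast : ∀ v : ι, ((e v : ℕ) : ℤ) = v.1.ord y := fun v =>
    Int.toNat_of_nonneg (hmem v).le
  have he : ∀ v, 0 < e v := fun v => by
    have := hmem v
    have := hecast v
    omega
  have hsum : ∑ v, e v = Module.finrank K⟮x⟯ F := by
    have h1 := h.zeros y hy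
    rw [hfr, finsum_mem_eq_finite_toFinset_sum _ hZ, ← Finset.sum_coe_sort] at h1
    apply Nat.cast_injective (R := ℤ)
    rw [← h1]
    push_cast
    exact Finset.sum_congr rfl fun v _ => hecast v
  choose ζ hζ using fun v : ι => exists_primitiveRoot_nat (K := K) (e v) (he v)
  have : CharZero K⟮x⟯ := charZero_of_injective_algebraMap (algebraMap K K⟮x⟯).injective
  have : Algebra.IsSeparable K⟮x⟯ F := inferInstance
  have hcomp : ∀ (v : ι) (c : K⟮x⟯), σ v.1 (algebraMap K⟮x⟯ F c)
      = substPow 1 one_ne_zero (e v) (he v) (κ c) := by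
    intro v c
    have hEq : (σ v.1).comp (K⟮x⟯.val) = (substPow (1 : K) one_ne_zero (e v) (he v)).comp κ := by
      apply IntermediateField.adjoin_algHom_ext K
      intro z hz
      rw [Set.mem_singleton_iff] at hz
      subst hz
      exact hκ (σ v.1) (e v) (he v) (by rw [(hσ v.1 (hmem v)).2, hecast])
    exact DFunLike.congr_fun hEq c
  have hsep : ∀ v w : ι, v ≠ w → ∃ g : F, (∀ n : ℤ, n < 0 → (σ v.1 g).coeff n = 0) ∧
      ∃ n : ℤ, n < 0 ∧ (σ w.1 g).coeff n ≠ 0 := by
    intro v w hvw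
    have hvw' : v.1 ≠ w.1 := fun h0 => hvw (Subtype.ext h0)
    obtain ⟨g, hg0, hgv, hgw⟩ := exists_sep hvw'
    refine ⟨g, fun n hn => ?_, (σ w.1 g).order, ?_, ?_⟩
    · apply HahnSeries.coeff_eq_zero_of_lt_order
      rw [(hσ v.1 (hmem v)).1 g hg0]
      omega
    · rw [(hσ w.1 (hmem w)).1 g hg0]
      exact hgw
    · exact HahnSeries.coeff_order_eq_zero.not.mpr ((map_ne_zero _).mpr hg0)
  have hunif : ∀ v : ι, ∃ π : F, (σ v.1 π).coeff 1 ≠ 0 := by
    intro v
    refine ⟨unif v.1, ?_⟩
    have h1 : (σ v.1 (unif v.1)).order = 1 := by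
      rw [(hσ v.1 (hmem v)).1 _ (unif_ne_zero v.1), ord_unif]
    rw [← h1]
    exact HahnSeries.coeff_order_eq_zero.not.mpr ((map_ne_zero _).mpr (unif_ne_zero v.1))
  have key := LocalTraceAbs.coeff_trace_eq_sum (K := K) (k := K⟮x⟯) (F := F) e he hsum ζ hζ
    (fun v => σ v.1) κ hcomp hsep hunif f m
  rw [key, finsum_mem_eq_finite_toFinset_sum _ hZ,
    ← Finset.sum_coe_sort hZ.toFinset
      (fun v : Place K F => ((v.ord y : ℤ) : K) * (σ v f).coeff (v.ord y * m))]
  refine Finset.sum_congr rfl fun v _ => ?_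
  rw [← hecast v, Int.cast_natCast]

end Fibre

section Cases

variable [IsAlgClosed K] [CharZero K]

omit [IsAlgClosed K] [CharZero K] in
theorem substPow_C (ζ : K) (hζ : ζ ≠ 0) (M : ℕ) (hM : 0 < M) (a : K) :
    substPow ζ hζ M hM (HahnSeries.C a) = HahnSeries.C a := by
  rw [← algebraMap_laurent_eq_C, AlgHom.commutes]

/-- **Local trace formula over a finite point** (`hD4z` of `ResidueThm.residue_theorem_of_trace`):
`κ` is any expansion of `K(x)` with `κ x = a + X`. -/
theorem sum_res_zerosOver (h : Hyp K F) {x : F} (hx : Transcendental K x)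
    [FiniteDimensional K⟮x⟯ F] (a : K) (κ : K⟮x⟯ →ₐ[K] LaurentSeries K)
    (hκ : κ (AdjoinSimple.gen K x) = HahnSeries.C a + HahnSeries.single (1 : ℤ) (1 : K)) (f : F) :
    ∑ᶠ v ∈ zerosOver x a, res h v (f • D K F x)
      = (κ (Algebra.trace K⟮x⟯ F f)).coeff (-1) := by
  set y := x - algebraMap K F a with hydef
  have hxy : x = y + algebraMap K F a := by rw [hydef]; ring
  have hy : Transcendental K y := Exchange.transcendental_sub_algebraMap hx a
  have hfr : Module.finrank K⟮y⟯ F = Module.finrank K⟮x⟯ F :=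
    Exchange.finrank_adjoin_sub_algebraMap x a
  have hκ' : ∀ (τ : F →ₐ[K] LaurentSeries K) (e : ℕ) (he : 0 < e),
      τ y = HahnSeries.single (e : ℤ) (1 : K) →
        τ x = substPow 1 one_ne_zero e he (κ (AdjoinSimple.gen K x)) := by
    intro τ e he hτ
    rw [hκ, map_add, substPow_C, substPow_single, hxy, map_add, hτ, AlgHom.commutes,
      algebraMap_laurent_eq_C, add_comm]
    simp
  obtain ⟨σ, hσ, hform⟩ := coeff_trace_fibre h y hy hfr κ hκ'
  rw [hform f (-1)]
  show ∑ᶠ v ∈ {v : Place K F | 0 < v.ord y}, res h v (f • D K F x) = _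
  refine finsum_mem_congr rfl fun v hv => ?_
  have hv' : 0 < v.ord y := hv
  have hxσ : σ v x = HahnSeries.C a + HahnSeries.single (v.ord y) (1 : K) := by
    rw [hxy, map_add, (hσ v hv').2, AlgHom.commutes, algebraMap_laurent_eq_C, add_comm]
  rw [ResLocal.res_smul_D_eq_coeff h v (σ v) (hσ v hv').1 f x, hxσ, map_add, lsD_C, zero_add,
    coeff_neg_one_mul_lsD_single, mul_neg_one]

/-- **Local trace formula over infinity** (`hD4p` of `ResidueThm.residue_theorem_of_trace`):
`κ` is any expansion of `K(x)` with `κ x = X⁻¹`. -/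
theorem sum_res_polesOf (h : Hyp K F) {x : F} (hx : Transcendental K x)
    [FiniteDimensional K⟮x⟯ F] (κ : K⟮x⟯ →ₐ[K] LaurentSeries K)
    (hκ : κ (AdjoinSimple.gen K x) = HahnSeries.single (-1 : ℤ) (1 : K)) (f : F) :
    ∑ᶠ v ∈ polesOf K x, res h v (f • D K F x)
      = -(κ (Algebra.trace K⟮x⟯ F f)).coeff 1 := by
  set y := x⁻¹ with hydef
  have hxy : x = y⁻¹ := by rw [hydef, inv_inv]
  have hy : Transcendental K y := Exchange.transcendental_inv hx
  have hfr : Module.finrank K⟮y⟯ F = Module.finrank K⟮x⟯ F := Exchange.finrank_adjoin_inv x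
  have hsingle_inv : ∀ n : ℤ, (HahnSeries.single n (1 : K))⁻¹ = HahnSeries.single (-n) (1 : K) := by
    intro n
    apply inv_eq_of_mul_eq_one_right
    rw [HahnSeries.single_mul_single, add_neg_cancel, mul_one]
    rfl
  have hκ' : ∀ (τ : F →ₐ[K] LaurentSeries K) (e : ℕ) (he : 0 < e),
      τ y = HahnSeries.single (e : ℤ) (1 : K) →
        τ x = substPow 1 one_ne_zero e he (κ (AdjoinSimple.gen K x)) := by
    intro τ e he hτ
    rw [hκ, substPow_single, hxy, map_inv₀, hτ, hsingle_inv]
    simp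
  obtain ⟨σ, hσ, hform⟩ := coeff_trace_fibre h y hy hfr κ hκ'
  rw [hform f 1]
  have hset : polesOf K x = {v : Place K F | 0 < v.ord y} := by
    ext v
    rw [mem_polesOf, Set.mem_ofPred_eq, hydef, v.ord_inv]
    omega
  have hy0 : y ≠ 0 := by
    intro h0
    exact hy (h0 ▸ isAlgebraic_zero)
  have hZ : {v : Place K F | 0 < v.ord y}.Finite :=
    (h.fin y hy0).subset fun v hv => ne_of_gt hv
  rw [hset, ← finsum_mem_neg_distrib _ hZ]
  refine finsum_mem_congr rfl fun v hv => ?_
  have hv' : 0 < v.ord y := hv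
  have hxσ : σ v x = HahnSeries.single (-(v.ord y)) (1 : K) := by
    rw [hxy, map_inv₀, (hσ v hv').2, hsingle_inv]
  rw [ResLocal.res_smul_D_eq_coeff h v (σ v) (hσ v hv').1 f x, hxσ,
    coeff_neg_one_mul_lsD_single, neg_neg, mul_one]
  push_cast
  ring

end Cases

end Fermat.Agent.S20.RR.LocalTraceInstB
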