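import Fermat.Agent.S20.RR.Defs
import Fermat.Agent.S24.KaehlerGen
import Fermat.Agent.S24.DiffOrderCore

/-!
# RR-E1: the residue pairing `Ω[F⁄K] × A → K`

`A = repartitions K F` (Prelude).  For a Kähler differential `η` and a repartition `α` we put
`⟨η, α⟩ = ∑ᶠ v, res_v (α_v • η)`.  The pairing vanishes on principal repartitions (residue
theorem), on `A(D)` when `η ∈ Ω(D)`, satisfies `⟨f • η, α⟩ = ⟨η, f • α⟩`, is `K`-bilinear, and is
non-degenerate in the sense needed for Serre duality.

Hypotheses taken explicitly (posted shapes of rows D1 / D5):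
* `hfin : ∀ η ≠ 0, {v | v.ordDifferential η ≠ 0}.Finite`  (a differential has finitely many zeros
  and poles),
* `hthm : ∀ η, ∑ᶠ v, res h v η = 0`  (the residue theorem; only for `pairing_principal`).
The purely local facts about `res` (linearity, vanishing on regular differentials, non-vanishing
at simple poles) are proved here directly from the definitions.
-/

set_option autoImplicit false
set_option linter.style.haveILetI false
set_option linter.unusedSectionVars false

open AlgebraicCurve KaehlerDifferential IntermediateField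

namespace Fermat.Agent.S20.RR.Pairing

variable {K F : Type*} [Field K] [Field F] [Algebra K F]

/-! ### Local facts about `res` -/

section Local

variable [CharZero K] (h : Hyp K F) (v : Place K F)

include h

theorem differentialCoeff_add (η η' : Ω[F⁄K]) :
    v.differentialCoeff (η + η') = v.differentialCoeff η + v.differentialCoeff η' := by
  haveI := Fermat.Agent.S24.KaehlerGen.FF.dCoordGenerates h.ff v
  haveI := Fermat.Agent.S24.KaehlerGen.FF.nontrivial h.ff
  apply v.differentialCoeff_unique
  rw [add_smul, v.differentialCoeff_smul_dCoord, v.differentialCoeff_smul_dCoord]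

theorem differentialCoeff_smul (f : F) (η : Ω[F⁄K]) :
    v.differentialCoeff (f • η) = f * v.differentialCoeff η := by
  haveI := Fermat.Agent.S24.KaehlerGen.FF.dCoordGenerates h.ff v
  haveI := Fermat.Agent.S24.KaehlerGen.FF.nontrivial h.ff
  exact v.differentialCoeff_smul f η

theorem differentialCoeff_zero : v.differentialCoeff (0 : Ω[F⁄K]) = 0 := by
  haveI := Fermat.Agent.S24.KaehlerGen.FF.dCoordGenerates h.ff v
  haveI := Fermat.Agent.S24.KaehlerGen.FF.nontrivial h.ff
  exact v.differentialCoeff_zero

theorem differentialCoeff_ne_zero {η : Ω[F⁄K]} (hη : η ≠ 0) : v.differentialCoeff η ≠ 0 := by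
  haveI := Fermat.Agent.S24.KaehlerGen.FF.dCoordGenerates h.ff v
  intro h0
  apply hη
  rw [← v.differentialCoeff_smul_dCoord η, h0, zero_smul]

theorem res_zero : res h v (0 : Ω[F⁄K]) = 0 := by
  unfold res
  rw [differentialCoeff_zero h v, map_zero]
  rfl

theorem res_add (η η' : Ω[F⁄K]) : res h v (η + η') = res h v η + res h v η' := by
  unfold res
  rw [differentialCoeff_add h v, map_add]
  rfl

theorem res_smul (c : K) (η : Ω[F⁄K]) : res h v (c • η) = c * res h v η := by
  unfold res
  rw [← algebraMap_smul F c η, differentialCoeff_smul h v, map_mul, AlgHom.commutes,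
    HahnSeries.algebraMap_apply']
  simp

/-- `res h v` as a `K`-linear map. -/
noncomputable def resLin : Ω[F⁄K] →ₗ[K] K where
  toFun := res h v
  map_add' := res_add h v
  map_smul' c η := by rw [res_smul h v, RingHom.id_apply, smul_eq_mul]

@[simp]
theorem resLin_apply (η : Ω[F⁄K]) : resLin h v η = res h v η := rfl

theorem ordDifferential_smul {f : F} (hf : f ≠ 0) {η : Ω[F⁄K]} (hη : η ≠ 0) :
    v.ordDifferential (f • η) = v.ord f + v.ordDifferential η := by
  haveI := Fermat.Agent.S24.KaehlerGen.FF.dCoordGenerates h.ff v
  haveI := Fermat.Agent.S24.KaehlerGen.FF.nontrivial h.ff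
  exact v.ordDifferential_smul hf (differentialCoeff_ne_zero h v hη)

theorem res_eq_zero_of_ord_nonneg {η : Ω[F⁄K]} (hη : 0 ≤ v.ordDifferential η) :
    res h v η = 0 := by
  unfold res
  rcases eq_or_ne (v.differentialCoeff η) 0 with h0 | h0
  · rw [h0, map_zero]
    rfl
  · apply HahnSeries.coeff_eq_zero_of_lt_order
    rw [isChart_expand h v _ h0]
    have : 0 ≤ v.ord (v.differentialCoeff η) := hη
    omega

theorem res_ne_zero_of_ord_add {η : Ω[F⁄K]} (hη : η ≠ 0) {f : F} (hf : f ≠ 0)
    (hord : v.ord f + v.ordDifferential η = -1) : res h v (f • η) ≠ 0 := by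
  unfold res
  have h0 : v.differentialCoeff (f • η) ≠ 0 := by
    rw [differentialCoeff_smul h v]
    exact mul_ne_zero hf (differentialCoeff_ne_zero h v hη)
  have hne : expand h v (v.differentialCoeff (f • η)) ≠ 0 := by
    intro h1
    exact h0 ((map_eq_zero_iff _ (expand h v).toRingHom.injective).mp h1)
  have hord' : (expand h v (v.differentialCoeff (f • η))).order = -1 := by
    rw [isChart_expand h v _ h0]
    have := ordDifferential_smul h v hf hη
    unfold Place.ordDifferential at this hord
    omega
  rw [← hord']
  exact fun h1 => hne (HahnSeries.coeff_order_eq_zero.mp h1)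

/-- The differential of a function regular at `v` is regular at `v`. -/
theorem ordDifferential_D_nonneg {y : F} (hy : 0 ≤ v.ord y) :
    0 ≤ v.ordDifferential (D K F y) := by
  haveI := Fermat.Agent.S24.KaehlerGen.FF.dCoordGenerates h.ff v
  have hzero : v.ordDifferential (0 : Ω[F⁄K]) = 0 := by
    unfold Place.ordDifferential
    rw [differentialCoeff_zero h v, v.ord_zero]
  rcases eq_or_ne y 0 with rfl | hy0
  · rw [map_zero, hzero]
  obtain ⟨c, hc | hc⟩ := h.res v y hy0 hy
  · rw [hc, Derivation.map_algebraMap, hzero]
  · have hD : D K F y = D K F (y - algebraMap K F c) := by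
      rw [map_sub, Derivation.map_algebraMap, sub_zero]
    rw [hD, Fermat.Agent.S24.DiffOrder.ordDifferential_D_core v (unif v) (dCoord_eq_D_unif v)
      (expand h v) (isChart_expand h v) (expand_unif h v) _ hc.ne']
    omega

end Local

/-! ### Finiteness -/

section Finiteness

variable [CharZero K] (h : Hyp K F)

include h

/-- A Kähler differential has finitely many poles. -/
theorem finite_poles_differential (η : Ω[F⁄K]) :
    {v : Place K F | v.ordDifferential η < 0}.Finite := by
  rcases eq_or_ne η 0 with rfl | hη
  · convert Set.finite_empty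
    ext v
    simp only [Set.mem_setOf_eq, Set.mem_empty_iff_false, iff_false, not_lt]
    unfold Place.ordDifferential
    rw [differentialCoeff_zero h v, v.ord_zero]
  obtain ⟨x, hx, hfd⟩ := h.ff
  have hx0 : x ≠ 0 := fun h0 => hx (h0 ▸ (isAlgebraic_zero).isIntegral.isAlgebraic)
  have hspan := Fermat.Agent.S24.KaehlerGen.FF.span_D_eq_top h.ff hx
  have hmem : η ∈ Submodule.span F {D K F x} := hspan ▸ Submodule.mem_top
  obtain ⟨g, rfl⟩ := Submodule.mem_span_singleton.mp hmem
  have hg : g ≠ 0 := fun h0 => hη (by rw [h0, zero_smul])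
  have hDx : D K F x ≠ 0 := fun h0 => hη (by rw [h0, smul_zero])
  refine ((h.fin g hg).union (h.fin x hx0)).subset ?_
  intro v hv
  simp only [Set.mem_setOf_eq] at hv
  rw [ordDifferential_smul h v hg hDx] at hv
  by_contra hcon
  simp only [Set.mem_union, Set.mem_setOf_eq, not_or, not_not] at hcon
  have := ordDifferential_D_nonneg h v (y := x) (by rw [hcon.2])
  omega

/-- Places exist. -/
theorem nonempty_place : Nonempty (Place K F) := by
  obtain ⟨x, hx, hfd⟩ := h.ff
  by_contra hcon
  rw [not_nonempty_iff] at hcon
  have hz := h.zeros x hx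
  rw [finsum_mem_eq_zero_of_forall_eq_zero (fun v => (hcon.false v).elim)] at hz
  have := Module.finrank_pos (R := K⟮x⟯) (M := F)
  omega

/-- Every repartition has finitely many poles (valuation form). -/
theorem finite_poles_aux {a : Place K F → F} (ha : a ∈ repartitions K F) :
    {v : Place K F | ¬v.adicValuation (a v) ≤ 1}.Finite := by
  induction ha using Algebra.adjoin_induction with
  | mem x hx => exact hx
  | algebraMap f =>
    rcases eq_or_ne f 0 with rfl | hf
    · convert Set.finite_empty
      ext v
      simp
    · refine (h.fin f hf).subset ?_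
      intro v hv
      simp only [Set.mem_setOf_eq] at hv ⊢
      have : v.ord f < 0 := v.not_adicValuation_le_one_iff.mp hv
      omega
  | add x y _ _ hx hy =>
    refine (hx.union hy).subset ?_
    intro v hv
    simp only [Set.mem_setOf_eq, Set.mem_union] at hv ⊢
    by_contra hcon
    rw [not_or, not_not, not_not] at hcon
    exact hv ((Valuation.map_add _ _ _).trans (max_le hcon.1 hcon.2))
  | mul x y _ _ hx hy =>
    refine (hx.union hy).subset ?_
    intro v hv
    simp only [Set.mem_setOf_eq, Set.mem_union] at hv ⊢
    by_contra hcon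
    rw [not_or, not_not, not_not] at hcon
    apply hv
    rw [Pi.mul_apply, map_mul]
    exact mul_le_one' hcon.1 hcon.2

/-- Every repartition has finitely many poles. -/
theorem finite_poles (α : ↥(repartitions K F)) :
    {v : Place K F | v.ord ((α : Place K F → F) v) < 0}.Finite := by
  refine (finite_poles_aux h α.2).subset ?_
  intro v hv
  exact v.not_adicValuation_le_one_iff.mpr hv

/-- `α ∈ repartitions K F` iff `α` has finitely many poles. -/
theorem mem_repartitions_iff (a : Place K F → F) :
    a ∈ repartitions K F ↔ {v : Place K F | v.ord (a v) < 0}.Finite :=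
  ⟨fun ha => finite_poles h ⟨a, ha⟩, mem_repartitions_of_finite_ord⟩

/-- The terms of the pairing vanish outside the poles of `α` and of `η`. -/
theorem res_smul_eq_zero (v : Place K F) (η : Ω[F⁄K]) (f : F) (hf : 0 ≤ v.ord f)
    (hη : 0 ≤ v.ordDifferential η) : res h v (f • η) = 0 := by
  rcases eq_or_ne f 0 with rfl | hf0
  · rw [zero_smul, res_zero h v]
  rcases eq_or_ne η 0 with rfl | hη0
  · rw [smul_zero, res_zero h v]
  apply res_eq_zero_of_ord_nonneg h v
  rw [ordDifferential_smul h v hf0 hη0]
  omega

theorem finite_support_terms (η : Ω[F⁄K]) (α : ↥(repartitions K F)) :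
    (Function.support fun v : Place K F => res h v ((α : Place K F → F) v • η)).Finite := by
  refine ((finite_poles h α).union (finite_poles_differential h η)).subset ?_
  intro v hv
  rw [Function.mem_support] at hv
  by_contra hcon
  simp only [Set.mem_union, Set.mem_setOf_eq, not_or, not_lt] at hcon
  exact hv (res_smul_eq_zero h v η _ hcon.1 hcon.2)

end Finiteness

/-! ### The pairing -/

section Pairing

variable [CharZero K] (h : Hyp K F)

/-- **The residue pairing** `⟨η, α⟩ = ∑ᶠ v, res_v (α_v • η)`, as a `K`-linear functional of the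
repartition `α`. -/
noncomputable def pairing (η : Ω[F⁄K]) : ↥(repartitions K F) →ₗ[K] K where
  toFun α := ∑ᶠ v : Place K F, res h v ((α : Place K F → F) v • η)
  map_add' α β := by
    rw [← finsum_add_distrib (finite_support_terms h η α) (finite_support_terms h η β)]
    refine finsum_congr fun v => ?_
    rw [← res_add h v, ← add_smul]
    rfl
  map_smul' c α := by
    rw [RingHom.id_apply, smul_eq_mul, mul_finsum]
    refine finsum_congr fun v => ?_
    rw [← res_smul h v, ← smul_assoc]
    rfl

theorem pairing_apply (η : Ω[F⁄K]) (α : ↥(repartitions K F)) :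
    pairing h η α = ∑ᶠ v : Place K F, res h v ((α : Place K F → F) v • η) := rfl

/-- The pairing vanishes on principal repartitions: this is the residue theorem for `f • η`. -/
theorem pairing_principal (hthm : ∀ η : Ω[F⁄K], ∑ᶠ v : Place K F, res h v η = 0)
    (η : Ω[F⁄K]) (f : F) : pairing h η (algebraMap F ↥(repartitions K F) f) = 0 := by
  rw [pairing_apply]
  exact hthm (f • η)

/-- The pairing vanishes on principal repartitions (`principalRepartitions` form). -/
theorem pairing_eq_zero_of_mem_principal
    (hthm : ∀ η : Ω[F⁄K], ∑ᶠ v : Place K F, res h v η = 0)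
    (η : Ω[F⁄K]) {α : ↥(repartitions K F)} (hα : α ∈ principalRepartitions K F) :
    pairing h η α = 0 := by
  obtain ⟨f, hf⟩ := mem_principalRepartitions_iff.mp hα
  rw [pairing_apply]
  simp only [hf]
  exact hthm (f • η)

/-- `Ω(D)` is orthogonal to `A(D)`. -/
theorem pairing_eq_zero_of_mem {D : Divisor K F} {η : Ω[F⁄K]} (hη : MemOmega D η)
    {α : ↥(repartitions K F)} (hα : α ∈ repartitionsOf D) : pairing h η α = 0 := by
  rw [pairing_apply]
  refine finsum_eq_zero_of_forall_eq_zero fun v => ?_
  rcases hη with rfl | hη
  · rw [smul_zero, res_zero h v]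
  rcases mem_repartitionsOf_iff.mp hα v with h0 | h0
  · rw [h0, zero_smul, res_zero h v]
  · rcases eq_or_ne ((α : Place K F → F) v) 0 with h1 | h1
    · rw [h1, zero_smul, res_zero h v]
    rcases eq_or_ne η 0 with rfl | hη0
    · rw [smul_zero, res_zero h v]
    apply res_eq_zero_of_ord_nonneg h v
    rw [ordDifferential_smul h v h1 hη0]
    have := hη v
    omega

/-- For `η ∈ Ω(D)` the functional `⟨η, ·⟩` kills `A(D) + F`, hence descends to `H¹(D)`. -/
theorem le_ker_pairing (hthm : ∀ η : Ω[F⁄K], ∑ᶠ v : Place K F, res h v η = 0)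
    {D : Divisor K F} {η : Ω[F⁄K]} (hη : MemOmega D η) :
    repartitionsOf D ⊔ principalRepartitions K F ≤ LinearMap.ker (pairing h η) := by
  refine sup_le (fun α hα => ?_) (fun α hα => ?_)
  · exact LinearMap.mem_ker.mpr (pairing_eq_zero_of_mem h hη hα)
  · exact LinearMap.mem_ker.mpr (pairing_eq_zero_of_mem_principal h hthm η hα)

/-- `⟨f • η, α⟩ = ⟨η, f • α⟩`. -/
theorem pairing_smul (f : F) (η : Ω[F⁄K]) (α : ↥(repartitions K F)) :
    pairing h (f • η) α = pairing h η (f • α) := by
  rw [pairing_apply, pairing_apply]
  refine finsum_congr fun v => ?_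
  rw [smul_smul]
  congr 2
  show (α : Place K F → F) v * f = f * (α : Place K F → F) v
  exact mul_comm _ _

theorem pairing_add_left (η η' : Ω[F⁄K]) (α : ↥(repartitions K F)) :
    pairing h (η + η') α = pairing h η α + pairing h η' α := by
  rw [pairing_apply, pairing_apply, pairing_apply,
    ← finsum_add_distrib (finite_support_terms h η α) (finite_support_terms h η' α)]
  refine finsum_congr fun v => ?_
  rw [smul_add, res_add h v]

theorem pairing_smul_left (c : K) (η : Ω[F⁄K]) (α : ↥(repartitions K F)) :
    pairing h (c • η) α = c * pairing h η α := by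
  rw [pairing_apply, pairing_apply, mul_finsum]
  refine finsum_congr fun v => ?_
  rw [smul_comm, res_smul h v]

theorem pairing_zero_left (α : ↥(repartitions K F)) : pairing h (0 : Ω[F⁄K]) α = 0 := by
  rw [pairing_apply]
  refine finsum_eq_zero_of_forall_eq_zero fun v => ?_
  rw [smul_zero, res_zero h v]

/-- The pairing as a `K`-bilinear map. -/
noncomputable def pairingLin : Ω[F⁄K] →ₗ[K] (↥(repartitions K F) →ₗ[K] K) where
  toFun := pairing h
  map_add' η η' := LinearMap.ext fun α => pairing_add_left h η η' α
  map_smul' c η := LinearMap.ext fun α => by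
    rw [pairing_smul_left, RingHom.id_apply, LinearMap.smul_apply, smul_eq_mul]

@[simp]
theorem pairingLin_apply (η : Ω[F⁄K]) : pairingLin h η = pairing h η := rfl

end Pairing

/-! ### Repartitions concentrated at one place, non-degeneracy -/

section Single

/-- The function with value `f` at `v` and `0` elsewhere. -/
noncomputable def singleFun (v : Place K F) (f : F) : Place K F → F := fun w =>
  letI := Classical.propDecidable (w = v)
  if w = v then f else 0

theorem singleFun_same (v : Place K F) (f : F) : singleFun v f v = f := by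
  unfold singleFun
  exact if_pos rfl

theorem singleFun_ne (v : Place K F) (f : F) {w : Place K F} (hw : w ≠ v) :
    singleFun v f w = 0 := by
  unfold singleFun
  exact if_neg hw

/-- The repartition with component `f` at `v` and `0` elsewhere. -/
noncomputable def single (v : Place K F) (f : F) : ↥(repartitions K F) :=
  ⟨singleFun v f, mem_repartitions_of_finite_ord <| by
    refine (Set.finite_singleton v).subset ?_
    intro w hw
    by_contra hne
    rw [Set.mem_singleton_iff] at hne
    rw [Set.mem_setOf_eq, singleFun_ne v f hne, w.ord_zero] at hw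
    exact lt_irrefl _ hw⟩

theorem single_apply_same (v : Place K F) (f : F) :
    (single v f : Place K F → F) v = f :=
  singleFun_same v f

theorem single_apply_ne (v : Place K F) (f : F) {w : Place K F} (hw : w ≠ v) :
    (single v f : Place K F → F) w = 0 :=
  singleFun_ne v f hw

theorem single_mem_repartitionsOf {D : Divisor K F} {v : Place K F} {f : F}
    (hf : f = 0 ∨ -D v ≤ v.ord f) : single v f ∈ repartitionsOf D := by
  rw [mem_repartitionsOf_iff]
  intro w
  rcases eq_or_ne w v with rfl | hw
  · rw [single_apply_same]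
    exact hf
  · exact Or.inl (single_apply_ne v f hw)

variable [CharZero K] (h : Hyp K F)

include h

theorem pairing_single (η : Ω[F⁄K]) (v : Place K F) (f : F) :
    pairing h η (single v f) = res h v (f • η) := by
  rw [pairing_apply, finsum_eq_single _ v, single_apply_same]
  intro w hw
  rw [single_apply_ne v f hw, zero_smul, res_zero h w]

/-- At every place there is a repartition concentrated at `v` pairing non-trivially with a given
nonzero differential, with prescribed pole order `ord_v η + 1`. -/
theorem pairing_single_ne_zero {η : Ω[F⁄K]} (hη : η ≠ 0) (v : Place K F) :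
    pairing h η (single v (unif v ^ (-v.ordDifferential η - 1))) ≠ 0 := by
  rw [pairing_single]
  apply res_ne_zero_of_ord_add h v hη (zpow_ne_zero _ (unif_ne_zero v))
  rw [v.ord_zpow, ord_unif]
  ring

/-- The pairing is non-degenerate on the left. -/
theorem exists_pairing_ne_zero {η : Ω[F⁄K]} (hη : η ≠ 0) :
    ∃ α : ↥(repartitions K F), pairing h η α ≠ 0 := by
  obtain ⟨v⟩ := nonempty_place h
  exact ⟨_, pairing_single_ne_zero h hη v⟩

/-- `η ↦ ⟨η, ·⟩` is injective. -/
theorem pairing_injective : Function.Injective (pairing h : Ω[F⁄K] → _) := by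
  intro η η' hηη'
  by_contra hne
  obtain ⟨α, hα⟩ := exists_pairing_ne_zero h (sub_ne_zero.mpr hne)
  apply hα
  have : pairing h (η - η') = pairing h η - pairing h η' := (pairingLin h).map_sub η η'
  rw [this, hηη', sub_self, LinearMap.zero_apply]

/-- If `⟨η, ·⟩` vanishes on `A(D)` then `η ∈ Ω(D)`. -/
theorem memOmega_of_pairing {D : Divisor K F} {η : Ω[F⁄K]}
    (hη : ∀ α ∈ repartitionsOf D, pairing h η α = 0) : MemOmega D η := by
  by_contra hcon
  unfold MemOmega at hcon
  rw [not_or, not_forall] at hcon
  obtain ⟨hη0, v, hv⟩ := hcon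
  rw [not_le] at hv
  refine pairing_single_ne_zero h hη0 v (hη _ (single_mem_repartitionsOf (Or.inr ?_)))
  rw [v.ord_zpow, ord_unif]
  omega

/-- `η ∈ Ω(D)` iff `⟨η, ·⟩` vanishes on `A(D)`. -/
theorem memOmega_iff_pairing {D : Divisor K F} {η : Ω[F⁄K]} :
    MemOmega D η ↔ ∀ α ∈ repartitionsOf D, pairing h η α = 0 :=
  ⟨fun hη _ hα => pairing_eq_zero_of_mem h hη hα, memOmega_of_pairing h⟩

/-- Every differential lies in some `Ω(D)`: the functional `⟨η, ·⟩` vanishes on some `A(D)`. -/
theorem exists_memOmega (η : Ω[F⁄K]) : ∃ D : Divisor K F, MemOmega D η := by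
  classical
  refine ⟨Finsupp.ofSupportFinite (fun v => min (v.ordDifferential η) 0) ?_, Or.inr fun v => ?_⟩
  · refine (finite_poles_differential h η).subset ?_
    intro v hv
    rw [Function.mem_support] at hv
    simp only [Set.mem_setOf_eq]
    by_contra hcon
    exact hv (min_eq_right (not_lt.mp hcon))
  · exact min_le_left _ _

theorem exists_divisor_pairing_eq_zero (η : Ω[F⁄K]) :
    ∃ D : Divisor K F, ∀ α ∈ repartitionsOf D, pairing h η α = 0 := by
  obtain ⟨D, hD⟩ := exists_memOmega h η
  exact ⟨D, fun _ hα => pairing_eq_zero_of_mem h hD hα⟩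

end Single

end Fermat.Agent.S20.RR.Pairing
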