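import Fermat.Agent.S20.RR.ResidueThm
import Fermat.Agent.S20.RR.LocalTrace
import Fermat.Agent.S20.RatFuncResidueShapes

/-!
# RR-D5, final form: the residue theorem `Σ_v res_v η = 0`

Instantiation of the bookkeeping core `ResidueThm.residue_theorem_of_trace` with

* the residue theorem on `ℙ¹` (`RatFuncResidue.sum_res_eq`, helper32; row D3), and
* the local trace formulas (`LocalTrace.sum_res_zerosOver_of`, `LocalTrace.sum_res_polesOf_of`,
  helper76; row D4).

The declarations live in the namespace `Fermat.Agent.S20.RR.ResidueThm` (as posted in row 105).
-/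

set_option autoImplicit false

open AlgebraicCurve KaehlerDifferential IntermediateField

namespace Fermat.Agent.S20.RR.ResidueThm

variable {K F : Type*} [Field K] [Field F] [Algebra K F] [IsAlgClosed K] [CharZero K]

/-- **The residue theorem**: the residues of a Kähler differential of a function field of one
variable over an algebraically closed field of characteristic zero sum to zero. -/
theorem residue_theorem (h : Hyp K F) (η : Ω[F⁄K]) : ∑ᶠ v : Place K F, res h v η = 0 := by
  obtain ⟨x, hx, hfin⟩ := id h.ff
  have := hfin
  exact residue_theorem_of_trace h hx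
    (Fermat.Agent.S20.RatFuncResidue.iotaAt hx) (Fermat.Agent.S20.RatFuncResidue.iotaInf hx)
    (Fermat.Agent.S20.RatFuncResidue.sum_res_eq hx)
    (fun a f => LocalTrace.sum_res_zerosOver_of h x hx a _
      (Fermat.Agent.S20.RatFuncResidue.iotaAt_gen hx a) f)
    (fun f => LocalTrace.sum_res_polesOf_of h x hx _
      (Fermat.Agent.S20.RatFuncResidue.iotaInf_gen hx) f) η

/-- The residue theorem, with the finite support made explicit (a `Finset` sum). -/
theorem residue_theorem_finset (h : Hyp K F) (η : Ω[F⁄K]) :
    ∑ v ∈ (res_finite_support h η).toFinset, res h v η = 0 := by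
  refine (finsum_eq_sum_of_support_subset (fun v => res h v η) ?_).symm.trans
    (residue_theorem h η)
  intro v hv
  simpa using hv

end Fermat.Agent.S20.RR.ResidueThm
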