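import Fermat.Agent.S20.RR.Pairing
import Fermat.Agent.S20.RR.DualityFinal
import Fermat.Agent.S20.RR.ResidueThmFinal

/-!
# RR block, rows E1 + E3 + D5 glued: Serre duality unconditionally from `Hyp K F`

`Pairing.pairingLin h` satisfies `Duality.PairingSpec` (the residue theorem
`ResidueThm.residue_theorem` discharges the only hypothesis of `Pairing.lean`), hence all outputs
of `DualityFinal` hold for `h : Hyp K F` alone.  This is an independent second route to
`RegularGenus.Star K F` (the first one is `StarFinal.star`).
-/

set_option autoImplicit false

open AlgebraicCurve KaehlerDifferential IntermediateField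

namespace Fermat.Agent.S20.RR.PairingFinal

open Fermat.Agent.S20.RR

variable {K F : Type*} [Field K] [Field F] [Algebra K F] [IsAlgClosed K] [CharZero K]

/-- The residue pairing satisfies the interface of the duality argument. -/
theorem pairingSpec (h : Hyp K F) : Duality.PairingSpec (Pairing.pairingLin h) where
  principal η f := Pairing.pairing_principal h (ResidueThm.residue_theorem h) η f
  eq_zero_of_mem hη _ hα := Pairing.pairing_eq_zero_of_mem h hη hα
  smul := Pairing.pairing_smul h
  exists_ne_zero := Pairing.exists_pairing_ne_zero h
  memOmega := Pairing.memOmega_of_pairing h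

variable [HasCanonicalDivisor (K := K) (F := F)]

/-- `(★)` of `RegularGenus`, second route (repartition pairing + Serre duality). -/
theorem star (h : Hyp K F) : Fermat.Agent.S20.RegularGenus.Star K F :=
  DualityFinal.star_of_pairing h (pairingSpec h)

end Fermat.Agent.S20.RR.PairingFinal
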