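import Mathlib
import Fermat.Prelude.Def_AlgebraicCurve_DivisorClassGroup
import Fermat.Agent.S24.PlaceDeg
import Fermat.Agent.S20.RR.Defs

/-!
# Separation of two distinct places

Two distinct places of `F / K` are incomparable discrete valuation rings of `F`: if `v ≠ w` there
is `g : F` regular at `v` with a pole at `w`.  (Support lemma for the hypothesis `hsep` of the
local trace formula, row RR-D4.)
-/

set_option autoImplicit false

open AlgebraicCurve

namespace Fermat.Agent.S20.RR.PlaceSep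

variable {K F : Type*} [Field K] [Field F] [Algebra K F]

/-- If `O_v ⊆ O_w` then `O_w ⊆ O_v`: a valuation ring strictly containing a discrete valuation
ring of `F` is `F` itself. -/
theorem le_of_le {v w : Place K F} (hvw : v.toValuationSubring ≤ w.toValuationSubring) :
    w.toValuationSubring ≤ v.toValuationSubring := by
  intro g hg
  by_contra hgv
  have hg0 : g ≠ 0 := by
    rintro rfl
    exact hgv (zero_mem _)
  have hneg : v.ord g < 0 := by
    by_contra hnn
    exact hgv ((Fermat.Agent.S24.mem_valuationSubring_iff_ord_nonneg v hg0).mpr (not_lt.mp hnn))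
  -- then `O_w = ⊤`
  apply w.ne_top'
  refine SetLike.ext fun f => ⟨fun _ => ValuationSubring.mem_top f, fun _ => ?_⟩
  rcases eq_or_ne f 0 with rfl | hf0
  · exact zero_mem _
  -- choose `n` with `ord_v f + n * (- ord_v g) ≥ 0`
  obtain ⟨n, hn⟩ : ∃ n : ℕ, 0 ≤ v.ord f + (n : ℤ) * (-(v.ord g)) := by
    refine ⟨(-(v.ord f)).toNat, ?_⟩
    have h1 : (1 : ℤ) ≤ -(v.ord g) := by omega
    have h2 : -(v.ord f) ≤ ((-(v.ord f)).toNat : ℤ) := Int.self_le_toNat _
    have h3 : (0 : ℤ) ≤ ((-(v.ord f)).toNat : ℤ) := Int.natCast_nonneg _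
    nlinarith
  have hgn0 : g ^ n ≠ 0 := pow_ne_zero n hg0
  have hfg0 : f * (g ^ n)⁻¹ ≠ 0 := mul_ne_zero hf0 (inv_ne_zero hgn0)
  have hord : v.ord (f * (g ^ n)⁻¹) = v.ord f + (n : ℤ) * (-(v.ord g)) := by
    rw [v.ord_mul hf0 (inv_ne_zero hgn0), v.ord_inv, ← zpow_natCast, v.ord_zpow]
    ring
  have hmem : f * (g ^ n)⁻¹ ∈ w.toValuationSubring :=
    hvw ((Fermat.Agent.S24.mem_valuationSubring_iff_ord_nonneg v hfg0).mpr (by rw [hord]; exact hn))
  have hgn : g ^ n ∈ w.toValuationSubring := pow_mem hg n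
  have : f = f * (g ^ n)⁻¹ * g ^ n := by
    rw [mul_assoc, inv_mul_cancel₀ hgn0, mul_one]
  rw [this]
  exact mul_mem hmem hgn

/-- Two distinct places are incomparable. -/
theorem not_le_of_ne {v w : Place K F} (hvw : v ≠ w) :
    ¬ v.toValuationSubring ≤ w.toValuationSubring := by
  intro hle
  exact hvw (Place.ext (le_antisymm hle (le_of_le hle)))

/-- **Separation.** For `v ≠ w` there is `g ≠ 0` regular at `v` with a pole at `w`. -/
theorem exists_ord_nonneg_ord_neg {v w : Place K F} (hvw : v ≠ w) :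
    ∃ g : F, g ≠ 0 ∧ 0 ≤ v.ord g ∧ w.ord g < 0 := by
  have hnot := not_le_of_ne hvw
  rw [SetLike.not_le_iff_exists] at hnot
  obtain ⟨g, hgv, hgw⟩ := hnot
  have hg0 : g ≠ 0 := by
    rintro rfl
    exact hgw (zero_mem _)
  refine ⟨g, hg0, (Fermat.Agent.S24.mem_valuationSubring_iff_ord_nonneg v hg0).mp hgv, ?_⟩
  by_contra hnn
  exact hgw ((Fermat.Agent.S24.mem_valuationSubring_iff_ord_nonneg w hg0).mpr (not_lt.mp hnn))

/-- Separation with prescribed strength: for `v ≠ w` and `n : ℕ` there is `g ≠ 0` with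
`ord_v g ≥ 0` … in the symmetric form: `g` with `0 < ord_v g` and `ord_w g < 0`. -/
theorem exists_ord_pos_ord_neg {v w : Place K F} (hvw : v ≠ w) :
    ∃ g : F, g ≠ 0 ∧ 0 < v.ord g ∧ w.ord g < 0 := by
  obtain ⟨g, hg0, hgv, hgw⟩ := exists_ord_nonneg_ord_neg hvw
  obtain ⟨g', hg'0, hg'w, hg'v⟩ := exists_ord_nonneg_ord_neg (Ne.symm hvw)
  -- `g` : regular at `v`, pole at `w`;  `g'` : regular at `w`, pole at `v`.
  -- `g * g'⁻¹` has `ord_v > 0` and `ord_w < 0`.
  refine ⟨g * g'⁻¹, mul_ne_zero hg0 (inv_ne_zero hg'0), ?_, ?_⟩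
  · rw [v.ord_mul hg0 (inv_ne_zero hg'0), v.ord_inv]
    omega
  · rw [w.ord_mul hg0 (inv_ne_zero hg'0), w.ord_inv]
    omega

/-! ### Chart forms (the `hsep` hypotheses of `LocalTraceAbs` / `LocalTraceCore`) -/

open Fermat.Agent.S20.RR in
/-- `hsep` in the shape of `LocalTraceCore`: orders of the expansions. -/
theorem exists_order_nonneg_order_neg {v w : Place K F} (hvw : v ≠ w)
    {σv σw : F →ₐ[K] LaurentSeries K} (hσv : IsChart v σv) (hσw : IsChart w σw) :
    ∃ g : F, 0 ≤ (σv g).order ∧ (σw g).order < 0 := by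
  obtain ⟨g, hg0, hgv, hgw⟩ := exists_ord_nonneg_ord_neg hvw
  exact ⟨g, by rw [hσv g hg0]; exact hgv, by rw [hσw g hg0]; exact hgw⟩

open Fermat.Agent.S20.RR in
/-- `hsep` in the shape of `LocalTraceAbs`: coefficients of the expansions. -/
theorem exists_coeff_sep {v w : Place K F} (hvw : v ≠ w)
    {σv σw : F →ₐ[K] LaurentSeries K} (hσv : IsChart v σv) (hσw : IsChart w σw) :
    ∃ g : F, (∀ n : ℤ, n < 0 → (σv g).coeff n = 0) ∧ ∃ n : ℤ, n < 0 ∧ (σw g).coeff n ≠ 0 := by
  obtain ⟨g, hg0, hgv, hgw⟩ := exists_ord_nonneg_ord_neg hvw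
  refine ⟨g, fun n hn => ?_, (σw g).order, ?_, ?_⟩
  · apply HahnSeries.coeff_eq_zero_of_lt_order
    rw [hσv g hg0]
    omega
  · rw [hσw g hg0]
    exact hgw
  · have hne : σw g ≠ 0 := (map_ne_zero (σw : F →+* LaurentSeries K)).mpr hg0
    exact fun h0 => hne (HahnSeries.coeff_order_eq_zero.mp h0)

end Fermat.Agent.S20.RR.PlaceSep
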