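import Fermat.Agent.S20.RR.Defs
import Fermat.Agent.S20.RRWeakFin
import Fermat.Agent.S24.Exchange

/-!
# S20, block RR, row C3 (first form of Riemann–Roch) from the landed `RRWeak` / `RRWeakFin`

For `(h : Hyp K F)`, `K` algebraically closed, and Riemann's theorem (row B: `exists_genus`,
`ell_eq_of_le`) as explicit hypotheses in the posted shapes, we export the statements of row C3:
`sup_eq_top`, `finite_H1`, `rr_one`, `riemann_genusFF`, plus `genusFF_eq`.
Owner: helper35.
-/

set_option autoImplicit false
set_option linter.style.haveILetI false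

open AlgebraicCurve KaehlerDifferential IntermediateField

namespace Fermat.Agent.S20.RR.RROneOfWeak

open Fermat.Agent.S20.RRWeak

variable {K F : Type*} [Field K] [Field F] [Algebra K F]

theorem residueIsBase (h : Hyp K F) : ResidueIsBase K F := h.res

theorem degOne (h : Hyp K F) : DegOne K F := h.deg_one

theorem polesFinite (h : Hyp K F) : PolesFinite K F := fun f hf =>
  (h.fin f hf).subset fun v (hv : v.ord f < 0) => by
    show v.ord f ≠ 0
    omega

/-- A function without poles is constant. -/
theorem constantsAreBase [IsAlgClosed K] (h : Hyp K F) : ConstantsAreBase K F := by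
  intro f hf
  by_contra hcon
  have hnr : f ∉ Set.range (algebraMap K F) := fun ⟨a, ha⟩ => hcon ⟨a, ha⟩
  have htr : Transcendental K f :=
    (Fermat.Agent.S24.Exchange.transcendental_iff_not_mem_range f).2 hnr
  have htr' : Transcendental K f⁻¹ := Fermat.Agent.S24.Exchange.transcendental_inv htr
  have hz := h.zeros f⁻¹ htr'
  have hempty : {v : Place K F | 0 < v.ord f⁻¹} = ∅ := by
    ext v
    simp only [Set.mem_ofPred_eq, Set.mem_empty_iff_false, iff_false, not_lt, Place.ord_inv]
    have := hf v
    omega
  rw [hempty] at hz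
  simp only [Set.mem_empty_iff_false, finsum_false, finsum_zero] at hz
  haveI : FiniteDimensional K⟮f⁻¹⟯ F :=
    Fermat.Agent.S24.Exchange.finiteDimensional_adjoin_of_transcendental h.ff htr'
  have hpos : 0 < Module.finrank K⟮f⁻¹⟯ F := Module.finrank_pos
  have : (0 : ℤ) < (Module.finrank K⟮f⁻¹⟯ F : ℤ) := by exact_mod_cast hpos
  omega

theorem ell_eq (D : Divisor K F) :
    Fermat.Agent.S20.RRWeak.ell D = (Fermat.Agent.S20.RR.ell D : ℤ) := rfl

theorem idx_eq (D : Divisor K F) :
    Fermat.Agent.S20.RRWeak.idx D = (Fermat.Agent.S20.RR.ind D : ℤ) := rfl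

section

variable [IsAlgClosed K] (h : Hyp K F) {g : ℕ} {D₀ : Divisor K F}
  (hle : ∀ D : Divisor K F, D₀ ≤ D →
    (Fermat.Agent.S20.RR.ell D : ℤ) = Divisor.degree D + 1 - g)

omit [IsAlgClosed K] in
include h hle in
theorem sup_eq_top : repartitionsOf D₀ ⊔ principalRepartitions K F = ⊤ :=
  SD_eq_top (residueIsBase h) (degOne h) (polesFinite h) D₀ (1 - g)
    (fun D hD => by rw [ell_eq, hle D hD]; ring)

omit [IsAlgClosed K] in
include h hle in
theorem finite_H1 (D : Divisor K F) : Module.Finite K (H1 D) :=
  Fermat.Agent.S20.RRWeak.finite_H1 (residueIsBase h) (degOne h) (polesFinite h) D₀ (1 - g)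
    (fun D hD => by rw [ell_eq, hle D hD]; ring) D

include h in
theorem finite_L (D : Divisor K F) : Module.Finite K ↥(riemannRochSpace D) :=
  finite_riemannRochSpace (residueIsBase h) (constantsAreBase h) D

include h hle in
theorem genusFF_eq : genusFF K F = g := by
  have := (weak_riemannRoch_of_stable (residueIsBase h) (degOne h) (constantsAreBase h)
    (polesFinite h) D₀ (1 - g) (fun D hD => by rw [ell_eq, hle D hD]; ring)).1
  omega

include h hle in
/-- Riemann–Roch, first form. -/
theorem rr_one (D : Divisor K F) :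
    (Fermat.Agent.S20.RR.ell D : ℤ) - Fermat.Agent.S20.RR.ind D =
      Divisor.degree D + 1 - (genusFF K F : ℤ) := by
  have hg' := genusFF_eq h hle
  have := ((weak_riemannRoch_of_stable (residueIsBase h) (degOne h) (constantsAreBase h)
    (polesFinite h) D₀ (1 - g) (fun D hD => by rw [ell_eq, hle D hD]; ring)).2 D).2.2
  rw [hg']
  unfold Fermat.Agent.S20.RR.ell Fermat.Agent.S20.RR.ind
  linarith

include h hle in
/-- Riemann's inequality with the genus `genusFF`. -/
theorem riemann_genusFF (D : Divisor K F) :
    Divisor.degree D + 1 - (genusFF K F : ℤ) ≤ Fermat.Agent.S20.RR.ell D := by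
  have := rr_one h hle D
  have hnn : (0 : ℤ) ≤ Fermat.Agent.S20.RR.ind D := Int.natCast_nonneg _
  linarith

end

end Fermat.Agent.S20.RR.RROneOfWeak
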