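/-
S20, block RR, piece C1: basic facts on repartitions (adeles) of a function field.
Owner: helper64.
-/
import Fermat.Agent.S20.RR.Defs
import Fermat.Agent.S24.OrdBasic

set_option autoImplicit false

open AlgebraicCurve KaehlerDifferential IntermediateField

namespace Fermat.Agent.S20.RR.RepBasic

open Fermat.Agent.S20.RR Fermat.Agent.S24 WithZero

variable {K F : Type*} [Field K] [Field F] [Algebra K F]

/-! ### Valuation form of `O_v` and `m_v` -/

theorem adicValuation_lt_one_iff (v : Place K F) {f : F} :
    v.adicValuation f < 1 ↔ f = 0 ∨ 0 < v.ord f := by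
  rcases eq_or_ne f 0 with rfl | hf
  · simp
  · rw [v.adicValuation_eq_exp_neg_ord hf, ← exp_zero, exp_lt_exp, or_iff_right hf]
    omega

theorem adicValuation_algebraMap_eq_one (v : Place K F) {c : K} (hc : c ≠ 0) :
    v.adicValuation (algebraMap K F c) = 1 := by
  have h0 : algebraMap K F c ≠ 0 := (map_ne_zero _).mpr hc
  rw [v.adicValuation_eq_exp_neg_ord h0, OrdBasic.ord_algebraMap v hc, neg_zero, exp_zero]

theorem const_eq_zero_of_lt_one (v : Place K F) {c : K}
    (hc : v.adicValuation (algebraMap K F c) < 1) : c = 0 := by
  by_contra h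
  rw [adicValuation_algebraMap_eq_one v h] at hc
  exact lt_irrefl _ hc

theorem exists_const (h : Hyp K F) (v : Place K F) {g : F} (hg : v.adicValuation g ≤ 1) :
    ∃ c : K, v.adicValuation (g - algebraMap K F c) < 1 := by
  rcases eq_or_ne g 0 with rfl | hg0
  · exact ⟨0, by simp⟩
  · have hord : 0 ≤ v.ord g := (v.adicValuation_le_one_iff.mp hg).resolve_left hg0
    obtain ⟨c, hc | hc⟩ := h.res v g hg0 hord
    · exact ⟨c, by rw [hc, sub_self]; simp⟩
    · exact ⟨c, (adicValuation_lt_one_iff v).mpr (Or.inr hc)⟩

/-- The constant term (residue class in `K`) of an element of `O_v`; junk `0` outside `O_v`. -/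
noncomputable def resConst (h : Hyp K F) (v : Place K F) (g : F) : K :=
  open scoped Classical in
  if hg : v.adicValuation g ≤ 1 then (exists_const h v hg).choose else 0

theorem resConst_spec (h : Hyp K F) (v : Place K F) {g : F} (hg : v.adicValuation g ≤ 1) :
    v.adicValuation (g - algebraMap K F (resConst h v g)) < 1 := by
  unfold resConst
  rw [dif_pos hg]
  exact (exists_const h v hg).choose_spec

theorem le_one_of_sub_const_lt_one (v : Place K F) {g : F} {c : K}
    (hc : v.adicValuation (g - algebraMap K F c) < 1) : v.adicValuation g ≤ 1 := by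
  have : g = (g - algebraMap K F c) + algebraMap K F c := by ring
  rw [this]
  exact (Valuation.map_add _ _ _).trans (max_le hc.le (v.adicValuation_algebraMap_le_one c))

theorem resConst_eq (h : Hyp K F) (v : Place K F) {g : F} {c : K}
    (hc : v.adicValuation (g - algebraMap K F c) < 1) : resConst h v g = c := by
  have hg := le_one_of_sub_const_lt_one v hc
  have h1 := resConst_spec h v hg
  have h2 : v.adicValuation (algebraMap K F (resConst h v g - c)) < 1 := by
    have : algebraMap K F (resConst h v g - c) =
        (g - algebraMap K F c) - (g - algebraMap K F (resConst h v g)) := by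
      rw [map_sub]; ring
    rw [this]
    exact (Valuation.map_sub _ _ _).trans_lt (max_lt hc h1)
  exact sub_eq_zero.mp (const_eq_zero_of_lt_one v h2)

theorem resConst_add (h : Hyp K F) (v : Place K F) {g g' : F} (hg : v.adicValuation g ≤ 1)
    (hg' : v.adicValuation g' ≤ 1) :
    resConst h v (g + g') = resConst h v g + resConst h v g' := by
  apply resConst_eq
  have : g + g' - algebraMap K F (resConst h v g + resConst h v g') =
      (g - algebraMap K F (resConst h v g)) + (g' - algebraMap K F (resConst h v g')) := by
    rw [map_add]; ring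
  rw [this]
  exact (Valuation.map_add _ _ _).trans_lt (max_lt (resConst_spec h v hg) (resConst_spec h v hg'))

theorem resConst_smul (h : Hyp K F) (v : Place K F) (a : K) {g : F}
    (hg : v.adicValuation g ≤ 1) : resConst h v (a • g) = a * resConst h v g := by
  apply resConst_eq
  have : a • g - algebraMap K F (a * resConst h v g) =
      algebraMap K F a * (g - algebraMap K F (resConst h v g)) := by
    rw [map_mul, Algebra.smul_def]; ring
  rw [this, map_mul]
  calc v.adicValuation (algebraMap K F a) * v.adicValuation (g - algebraMap K F (resConst h v g))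
      ≤ 1 * v.adicValuation (g - algebraMap K F (resConst h v g)) :=
        mul_le_mul_left (v.adicValuation_algebraMap_le_one a) _
    _ < 1 := by rw [one_mul]; exact resConst_spec h v hg

theorem resConst_eq_zero_iff (h : Hyp K F) (v : Place K F) {g : F}
    (hg : v.adicValuation g ≤ 1) : resConst h v g = 0 ↔ v.adicValuation g < 1 := by
  constructor
  · intro h0
    have := resConst_spec h v hg
    rwa [h0, map_zero, sub_zero] at this
  · intro hlt
    apply resConst_eq
    rwa [map_zero, sub_zero]

theorem resConst_algebraMap (h : Hyp K F) (v : Place K F) (c : K) :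
    resConst h v (algebraMap K F c) = c := by
  apply resConst_eq
  rw [sub_self]; simp

/-! ### Repartitions have finitely many poles -/

theorem mem_repartitions_iff (h : Hyp K F) (α : Place K F → F) :
    α ∈ repartitions K F ↔ {v : Place K F | v.ord (α v) < 0}.Finite := by
  constructor
  · intro hα
    have key : ∀ β : Place K F → F, β ∈ repartitions K F →
        {v : Place K F | ¬ v.adicValuation (β v) ≤ 1}.Finite := by
      intro β hβ
      induction hβ using Algebra.adjoin_induction with
      | mem x hx => exact hx
      | algebraMap f =>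
        rcases eq_or_ne f 0 with rfl | hf
        · convert Set.finite_empty
          ext v
          simp
        · refine (h.fin f hf).subset fun v hv => ?_
          rw [Set.mem_ofPred_eq, Place.not_adicValuation_le_one_iff] at hv
          change v.ord f < 0 at hv
          exact ne_of_lt hv
      | add x y _ _ hx hy =>
        refine (hx.union hy).subset fun v hv => ?_
        simp only [Set.mem_ofPred_eq, Pi.add_apply, Set.mem_union] at hv ⊢
        by_contra hcon
        push Not at hcon
        exact hv ((Valuation.map_add _ _ _).trans (max_le hcon.1 hcon.2))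
      | mul x y _ _ hx hy =>
        refine (hx.union hy).subset fun v hv => ?_
        simp only [Set.mem_ofPred_eq, Pi.mul_apply, Set.mem_union] at hv ⊢
        by_contra hcon
        push Not at hcon
        apply hv
        rw [map_mul]
        exact mul_le_one' hcon.1 hcon.2
    have := key α hα
    rwa [show {v : Place K F | ¬v.adicValuation (α v) ≤ 1}
        = {v : Place K F | v.ord (α v) < 0} from
      Set.ext fun v => v.not_adicValuation_le_one_iff] at this
  · exact mem_repartitions_of_finite_ord

theorem exists_le_mem_repartitionsOf (h : Hyp K F) (α : ↥(repartitions K F))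
    (D₀ : Divisor K F) : ∃ D : Divisor K F, D₀ ≤ D ∧ α ∈ repartitionsOf D := by
  classical
  have hfin := (mem_repartitions_iff h (α : Place K F → F)).mp α.2
  have hsupp : {v : Place K F |
      max (D₀ v) (-(v.ord ((α : Place K F → F) v))) ≠ 0}.Finite := by
    refine ((D₀.support.finite_toSet).union hfin).subset fun v hv => ?_
    simp only [Set.mem_ofPred_eq] at hv
    simp only [Set.mem_union, Finset.mem_coe, Finsupp.mem_support_iff, Set.mem_ofPred_eq]
    by_contra hcon
    push Not at hcon
    apply hv
    rw [hcon.1]
    exact max_eq_left (by have := hcon.2; omega)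
  refine ⟨Finsupp.ofSupportFinite _ hsupp, ?_, ?_⟩
  · intro v
    exact le_max_left _ _
  · rw [mem_repartitionsOf_iff]
    intro v
    right
    change -(max (D₀ v) (-(v.ord ((α : Place K F → F) v)))) ≤ _
    have := le_max_right (D₀ v) (-(v.ord ((α : Place K F → F) v)))
    omega

theorem single_mem_repartitions (v : Place K F) (f : F) :
    (open scoped Classical in (Pi.single v f : Place K F → F)) ∈ repartitions K F := by
  classical
  refine mem_repartitions_of_finite_ord ((Set.finite_singleton v).subset fun w hw => ?_)
  simp only [Set.mem_ofPred_eq] at hw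
  by_contra hne
  rw [Set.mem_singleton_iff] at hne
  rw [Pi.single_eq_of_ne hne, Place.ord_zero] at hw
  exact lt_irrefl _ hw

theorem exists_single (h : Hyp K F) (v : Place K F) (f : F) :
    ∃ α : ↥(repartitions K F), (α : Place K F → F) v = f ∧
      ∀ w, w ≠ v → (α : Place K F → F) w = 0 := by
  classical
  have _ := h
  refine ⟨⟨Pi.single v f, single_mem_repartitions v f⟩, ?_, fun w hw => ?_⟩
  · change (Pi.single v f : Place K F → F) v = f
    exact Pi.single_eq_same (M := fun _ => F) v f
  · change (Pi.single v f : Place K F → F) w = 0
    exact Pi.single_eq_of_ne (M := fun _ => F) hw f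

/-! ### The one-place step `A(D + v) / A(D) = K` -/

section step

variable (h : Hyp K F) (D : Divisor K F) (v : Place K F)

theorem add_single_apply_self :
    (D + Finsupp.single v 1 : Divisor K F) v = D v + 1 := by
  rw [Finsupp.add_apply, Finsupp.single_eq_same]

theorem add_single_apply_of_ne {w : Place K F} (hw : w ≠ v) :
    (D + Finsupp.single v 1 : Divisor K F) w = D w := by
  classical
  rw [Finsupp.add_apply, Finsupp.single_apply, if_neg (Ne.symm hw), add_zero]

/-- For `α ∈ A(D + v)`, the element `π_v ^ (D v + 1) * α_v` lies in `O_v`. -/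
theorem scaled_le_one {α : ↥(repartitions K F)}
    (hα : α ∈ repartitionsOf (D + Finsupp.single v 1)) :
    v.adicValuation (unif v ^ (D v + 1) * (α : Place K F → F) v) ≤ 1 := by
  rw [Place.adicValuation_le_one_iff]
  rcases eq_or_ne ((α : Place K F → F) v) 0 with h0 | h0
  · left; rw [h0, mul_zero]
  · right
    have h1 := (mem_repartitionsOf_iff.mp hα v).resolve_left h0
    rw [add_single_apply_self] at h1
    rw [v.ord_mul (zpow_ne_zero _ (unif_ne_zero v)) h0, v.ord_zpow, ord_unif]
    omega

/-- The linear form `A(D + v) → K`, `α ↦ (π_v ^ (D v + 1) α_v) mod m_v`. -/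
noncomputable def stepForm : ↥(repartitionsOf (D + Finsupp.single v 1)) →ₗ[K] K where
  toFun α := resConst h v (unif v ^ (D v + 1) * ((α : ↥(repartitions K F)) : Place K F → F) v)
  map_add' α β := by
    have : unif v ^ (D v + 1) *
        (((α + β : ↥(repartitionsOf (D + Finsupp.single v 1))) : ↥(repartitions K F)) :
          Place K F → F) v =
        unif v ^ (D v + 1) * ((α : ↥(repartitions K F)) : Place K F → F) v +
        unif v ^ (D v + 1) * ((β : ↥(repartitions K F)) : Place K F → F) v := by
      rw [← mul_add]; rfl
    rw [this]
    exact resConst_add h v (scaled_le_one D v α.2) (scaled_le_one D v β.2)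
  map_smul' c α := by
    have : unif v ^ (D v + 1) *
        (((c • α : ↥(repartitionsOf (D + Finsupp.single v 1))) : ↥(repartitions K F)) :
          Place K F → F) v =
        c • (unif v ^ (D v + 1) * ((α : ↥(repartitions K F)) : Place K F → F) v) := by
      have h1 : (((c • α : ↥(repartitionsOf (D + Finsupp.single v 1))) : ↥(repartitions K F)) :
          Place K F → F) v = c • ((α : ↥(repartitions K F)) : Place K F → F) v := rfl
      rw [h1, mul_smul_comm]
    rw [this]
    simpa using resConst_smul h v c (scaled_le_one D v α.2)

theorem stepForm_apply (α : ↥(repartitionsOf (D + Finsupp.single v 1))) :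
    stepForm h D v α =
      resConst h v (unif v ^ (D v + 1) * ((α : ↥(repartitions K F)) : Place K F → F) v) := rfl

theorem stepForm_eq_zero_iff (α : ↥(repartitionsOf (D + Finsupp.single v 1))) :
    stepForm h D v α = 0 ↔ (α : ↥(repartitions K F)) ∈ repartitionsOf D := by
  rw [stepForm_apply, resConst_eq_zero_iff h v (scaled_le_one D v α.2),
    adicValuation_lt_one_iff, mem_repartitionsOf_iff]
  have hα := mem_repartitionsOf_iff.mp α.2
  set a : Place K F → F := ((α : ↥(repartitions K F)) : Place K F → F) with ha
  have hπ : unif v ^ (D v + 1) ≠ 0 := zpow_ne_zero _ (unif_ne_zero v)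
  constructor
  · intro hv w
    by_cases hw : w = v
    · subst hw
      rcases hv with h0 | hpos
      · left
        exact (mul_eq_zero.mp h0).resolve_left hπ
      · rcases eq_or_ne (a w) 0 with h0 | h0
        · left; exact h0
        · right
          rw [w.ord_mul hπ h0, w.ord_zpow, ord_unif] at hpos
          omega
    · have := hα w
      rwa [add_single_apply_of_ne D v hw] at this
  · intro hall
    rcases hall v with h0 | h1
    · left; rw [h0, mul_zero]
    · rcases eq_or_ne (a v) 0 with h0 | h0
      · left; rw [h0, mul_zero]
      · right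
        rw [v.ord_mul hπ h0, v.ord_zpow, ord_unif]
        omega

theorem stepForm_surjective : Function.Surjective (stepForm h D v) := by
  classical
  intro c
  have hmem : (⟨(Pi.single v (algebraMap K F c * unif v ^ (-(D v + 1))) : Place K F → F),
      single_mem_repartitions v _⟩ : ↥(repartitions K F)) ∈
      repartitionsOf (D + Finsupp.single v 1) := by
    rw [mem_repartitionsOf_iff]
    intro w
    by_cases hw : w = v
    · subst hw
      change (Pi.single w (algebraMap K F c * unif w ^ (-(D w + 1))) : Place K F → F) w = 0 ∨
        -(D + Finsupp.single w 1 : Divisor K F) w ≤ w.ord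
          ((Pi.single w (algebraMap K F c * unif w ^ (-(D w + 1))) : Place K F → F) w)
      rw [Pi.single_eq_same]
      rcases eq_or_ne c 0 with rfl | hc
      · left; simp
      · right
        rw [w.ord_mul ((map_ne_zero _).mpr hc) (zpow_ne_zero _ (unif_ne_zero w)),
          OrdBasic.ord_algebraMap w hc, w.ord_zpow, ord_unif, add_single_apply_self]
        omega
    · left
      change (Pi.single v (algebraMap K F c * unif v ^ (-(D v + 1))) : Place K F → F) w = 0
      exact Pi.single_eq_of_ne hw _
  refine ⟨⟨_, hmem⟩, ?_⟩
  rw [stepForm_apply]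
  change resConst h v (unif v ^ (D v + 1) *
    (Pi.single v (algebraMap K F c * unif v ^ (-(D v + 1))) : Place K F → F) v) = c
  rw [Pi.single_eq_same]
  have : unif v ^ (D v + 1) * (algebraMap K F c * unif v ^ (-(D v + 1))) = algebraMap K F c := by
    rw [mul_left_comm, ← zpow_add₀ (unif_ne_zero v), add_neg_cancel, zpow_zero, mul_one]
  rw [this, resConst_algebraMap]

theorem exists_linearMap_ker_single (h : Hyp K F) (D : Divisor K F) (v : Place K F) :
    ∃ φ : ↥(repartitionsOf (D + Finsupp.single v 1)) →ₗ[K] K, Function.Surjective φ ∧
      ∀ α, φ α = 0 ↔ (α : ↥(repartitions K F)) ∈ repartitionsOf D :=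
  ⟨stepForm h D v, stepForm_surjective h D v, stepForm_eq_zero_iff h D v⟩

end step

/-! ### Dimension of `A(E) / A(D)` -/

/-- Shortcut instance: without it the quotient `↥(repartitionsOf E) ⧸ _` fails to elaborate
(the `AddCommGroup` instance has to be found inside a nested unification problem, where the
search through `Subalgebra.toRing` gets stuck).  It is definitionally the inferred instance. -/
noncomputable instance instAddCommGroupRepartitionsOf (D : Divisor K F) :
    AddCommGroup ↥(repartitionsOf D) := inferInstance

section chain

variable {V : Type*} [AddCommGroup V] [Module K V]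

/-- Additivity of relative dimensions in a chain `N ≤ M ≤ P` of subspaces. -/
theorem finrank_chain {N M P : Submodule K V} (hNM : N ≤ M) (hMP : M ≤ P)
    (hfin1 : Module.Finite K (↥M ⧸ N.comap M.subtype))
    (hfin2 : Module.Finite K (↥P ⧸ M.comap P.subtype)) :
    Module.Finite K (↥P ⧸ N.comap P.subtype) ∧
      Module.finrank K (↥P ⧸ N.comap P.subtype) =
        Module.finrank K (↥P ⧸ M.comap P.subtype) +
          Module.finrank K (↥M ⧸ N.comap M.subtype) := by
  set N' : Submodule K ↥P := N.comap P.subtype with hN'
  set M' : Submodule K ↥P := M.comap P.subtype with hM'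
  have hle : N' ≤ M' := Submodule.comap_mono hNM
  let g : ↥M →ₗ[K] ↥P ⧸ N' := N'.mkQ ∘ₗ Submodule.inclusion hMP
  have hker : LinearMap.ker g = N.comap M.subtype := by
    ext x
    simp only [g, LinearMap.mem_ker, LinearMap.comp_apply, Submodule.mkQ_apply,
      Submodule.Quotient.mk_eq_zero, hN', Submodule.mem_comap, Submodule.subtype_apply,
      Submodule.coe_inclusion]
  have hrange : LinearMap.range g = M'.map N'.mkQ := by
    rw [LinearMap.range_comp, Submodule.range_inclusion]
  let e1 : (↥M ⧸ N.comap M.subtype) ≃ₗ[K] ↥(M'.map N'.mkQ) :=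
    (Submodule.quotEquivOfEq _ _ hker.symm).trans
      ((LinearMap.quotKerEquivRange g).trans (LinearEquiv.ofEq _ _ hrange))
  let e2 : ((↥P ⧸ N') ⧸ M'.map N'.mkQ) ≃ₗ[K] ↥P ⧸ M' :=
    Submodule.quotientQuotientEquivQuotient N' M' hle
  have hfinR : Module.Finite K ↥(M'.map N'.mkQ) := Module.Finite.equiv e1
  have hfinQ : Module.Finite K ((↥P ⧸ N') ⧸ M'.map N'.mkQ) := Module.Finite.equiv e2.symm
  have hfin : Module.Finite K (↥P ⧸ N') := Module.Finite.of_submodule_quotient (M'.map N'.mkQ)
  refine ⟨hfin, ?_⟩
  have := Submodule.finrank_quotient_add_finrank (M'.map N'.mkQ)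
  rw [← this, e2.finrank_eq, e1.finrank_eq]

end chain

theorem le_add_single (D : Divisor K F) (v : Place K F) : D ≤ D + Finsupp.single v 1 := by
  intro w
  classical
  rw [Finsupp.add_apply, Finsupp.single_apply]
  split_ifs <;> omega

/-- One-place step: `A(D + v) / A(D)` is one-dimensional. -/
theorem finrank_step (h : Hyp K F) (D : Divisor K F) (v : Place K F) :
    Module.Finite K (↥(repartitionsOf (D + Finsupp.single v 1)) ⧸
        (repartitionsOf D).comap (repartitionsOf (D + Finsupp.single v 1)).subtype) ∧
      Module.finrank K (↥(repartitionsOf (D + Finsupp.single v 1)) ⧸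
        (repartitionsOf D).comap (repartitionsOf (D + Finsupp.single v 1)).subtype) = 1 := by
  have hker : LinearMap.ker (stepForm h D v) =
      (repartitionsOf D).comap (repartitionsOf (D + Finsupp.single v 1)).subtype := by
    ext α
    rw [LinearMap.mem_ker, stepForm_eq_zero_iff, Submodule.mem_comap, Submodule.subtype_apply]
  let e : (↥(repartitionsOf (D + Finsupp.single v 1)) ⧸
        (repartitionsOf D).comap (repartitionsOf (D + Finsupp.single v 1)).subtype) ≃ₗ[K] K :=
    (Submodule.quotEquivOfEq _ _ hker.symm).trans
      ((stepForm h D v).quotKerEquivOfSurjective (stepForm_surjective h D v))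
  exact ⟨Module.Finite.equiv e.symm, by rw [e.finrank_eq, Module.finrank_self]⟩

theorem finrank_quot_of_le (h : Hyp K F) {D E : Divisor K F} (hDE : D ≤ E) :
    Module.Finite K (↥(repartitionsOf E) ⧸ (repartitionsOf D).comap (repartitionsOf E).subtype) ∧
      (Module.finrank K
        (↥(repartitionsOf E) ⧸ (repartitionsOf D).comap (repartitionsOf E).subtype) : ℤ) =
        Divisor.degree E - Divisor.degree D := by
  classical
  -- induction on `deg E - deg D`
  obtain ⟨m, hm⟩ : ∃ m : ℕ, (Divisor.degree E - Divisor.degree D).toNat = m := ⟨_, rfl⟩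
  induction m generalizing E with
  | zero =>
    -- then `D = E`
    have hdeg : Divisor.degree E - Divisor.degree D = ∑ᶠ w, (E - D) w := by
      rw [← map_sub, h.degree_eq_finsum]
    have hED : E = D := by
      by_contra hne
      obtain ⟨v, hv⟩ : ∃ v, D v < E v := by
        by_contra hcon
        push Not at hcon
        exact hne (Finsupp.ext fun w => le_antisymm (hcon w) (hDE w))
      have hpos : 0 < ∑ᶠ w, (E - D) w := by
        have hsupp : (Function.support fun w => (E - D) w).Finite :=
          (E - D).support.finite_toSet.subset fun w hw => by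
            simpa [Finsupp.mem_support_iff] using hw
        refine finsum_pos (fun w => ?_) ⟨v, ?_⟩ hsupp
        · rw [Finsupp.sub_apply]; have := hDE w; omega
        · rw [Finsupp.sub_apply]; omega
      rw [← hdeg] at hpos
      omega
    subst hED
    have htop : (repartitionsOf E).comap (repartitionsOf E).subtype = ⊤ :=
      Submodule.comap_subtype_self _
    have hsub : Subsingleton
        (↥(repartitionsOf E) ⧸ (repartitionsOf E).comap (repartitionsOf E).subtype) :=
      Submodule.Quotient.subsingleton_iff.mpr htop
    refine ⟨Module.Finite.of_finite, ?_⟩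
    rw [Module.finrank_zero_of_subsingleton]
    simp
  | succ m ih =>
    have hdeg : Divisor.degree E - Divisor.degree D = ∑ᶠ w, (E - D) w := by
      rw [← map_sub, h.degree_eq_finsum]
    obtain ⟨v, hv⟩ : ∃ v, D v < E v := by
      by_contra hcon
      push Not at hcon
      have hED : E = D := Finsupp.ext fun w => le_antisymm (hcon w) (hDE w)
      rw [hED, sub_self] at hm
      simp at hm
    obtain ⟨E', rfl⟩ : ∃ E' : Divisor K F, E = E' + Finsupp.single v 1 :=
      ⟨E - Finsupp.single v 1, by rw [sub_add_cancel]⟩
    have hDE' : D ≤ E' := by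
      intro w
      by_cases hw : w = v
      · subst hw
        rw [add_single_apply_self] at hv
        omega
      · have := hDE w
        rwa [add_single_apply_of_ne E' v hw] at this
    have hdegE : Divisor.degree (E' + Finsupp.single v 1) = Divisor.degree E' + 1 := by
      rw [map_add, Divisor.degree_single, h.deg_one]; simp
    have hm' : (Divisor.degree E' - Divisor.degree D).toNat = m := by
      rw [hdegE] at hm
      omega
    obtain ⟨hfin1, hrank1⟩ := ih hDE' hm'
    obtain ⟨hfin2, hrank2⟩ := finrank_step h E' v
    obtain ⟨hfin, hrank⟩ := finrank_chain (repartitionsOf_mono hDE')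
      (repartitionsOf_mono (le_add_single E' v)) hfin1 hfin2
    refine ⟨hfin, ?_⟩
    rw [hrank, hrank2, hdegE]
    push_cast
    rw [hrank1]
    ring

end Fermat.Agent.S20.RR.RepBasic
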