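import Mathlib
import Fermat.Agent.S20.RR.Defs
import Fermat.Agent.S20.RR.LSpace
import Fermat.Agent.S20.RR.RepBasic

/-!
# The exact sequence `0 → L(E)/L(D) → A(E)/A(D) → (A(E)+F)/(A(D)+F) → 0`  (RR-C2)

For divisors `D ≤ E` of a function field `F / K` (Stichtenoth 1.5.2 / 1.5.3):
`dim (A(E)+F)/(A(D)+F) = (deg E - ℓ(E)) - (deg D - ℓ(D))`.

The linear algebra is done abstractly in `finrank_sup_quot_abstract`; the input
`dim A(E)/A(D) = deg E - deg D` (row C1) and `dim L(D) < ∞` (row A) are explicit hypotheses of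
`finrank_sup_quot_of`.
-/

set_option autoImplicit false

open AlgebraicCurve KaehlerDifferential IntermediateField

namespace Fermat.Agent.S20.RR.RepExact

section Abstract

variable {K V W : Type*} [Field K] [AddCommGroup V] [Module K V] [AddCommGroup W] [Module K W]

/-- Abstract form of the exact sequence
`0 → d⁻¹(B)/d⁻¹(A) → B/A → (B + d(W))/(A + d(W)) → 0` for `A ≤ B`. -/
theorem finrank_sup_quot_abstract (d : W →ₗ[K] V) (A B P : Submodule K V)
    (hP : P = LinearMap.range d) (hAB : A ≤ B)
    [Module.Finite K (↥B ⧸ A.comap B.subtype)] [Module.Finite K ↥(B.comap d)] :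
    Module.Finite K (↥(B ⊔ P) ⧸ (A ⊔ P).comap (B ⊔ P).subtype) ∧
      (Module.finrank K (↥(B ⊔ P) ⧸ (A ⊔ P).comap (B ⊔ P).subtype) : ℤ) =
        (Module.finrank K (↥B ⧸ A.comap B.subtype) : ℤ) -
          ((Module.finrank K ↥(B.comap d) : ℤ) - (Module.finrank K ↥(A.comap d) : ℤ)) := by
  subst hP
  -- the map `B → (B + P)/(A + P)`
  have hψ0 : A.comap B.subtype ≤ LinearMap.ker
      (((A ⊔ LinearMap.range d).comap (B ⊔ LinearMap.range d).subtype).mkQ ∘ₗ
        Submodule.inclusion (le_sup_left : B ≤ B ⊔ LinearMap.range d)) := by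
    intro x hx
    rw [LinearMap.mem_ker, LinearMap.comp_apply, Submodule.mkQ_apply,
      Submodule.Quotient.mk_eq_zero, Submodule.mem_comap]
    exact Submodule.mem_sup_left hx
  -- the induced map `ψ : B/A → (B + P)/(A + P)`
  obtain ⟨ψ, hψ⟩ : ∃ ψ : (↥B ⧸ A.comap B.subtype) →ₗ[K]
      (↥(B ⊔ LinearMap.range d) ⧸ (A ⊔ LinearMap.range d).comap
        (B ⊔ LinearMap.range d).subtype),
      ∀ x : ↥B, ψ ((A.comap B.subtype).mkQ x) =
        ((A ⊔ LinearMap.range d).comap (B ⊔ LinearMap.range d).subtype).mkQ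
          (Submodule.inclusion (le_sup_left : B ≤ B ⊔ LinearMap.range d) x) :=
    ⟨(A.comap B.subtype).liftQ _ hψ0, fun x => rfl⟩
  have hψ_surj : Function.Surjective ψ := by
    intro y
    obtain ⟨⟨z, hz⟩, rfl⟩ := Submodule.mkQ_surjective _ y
    obtain ⟨b, hb, p, hp, rfl⟩ := Submodule.mem_sup.mp hz
    refine ⟨(A.comap B.subtype).mkQ ⟨b, hb⟩, ?_⟩
    rw [hψ, Submodule.mkQ_apply, Submodule.mkQ_apply, Submodule.Quotient.eq,
      Submodule.mem_comap]
    have : (B ⊔ LinearMap.range d).subtype
        (Submodule.inclusion (le_sup_left : B ≤ B ⊔ LinearMap.range d) ⟨b, hb⟩ -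
          ⟨b + p, hz⟩) = -p := by
      simp
    rw [this]
    exact Submodule.mem_sup_right (neg_mem hp)
  -- the map `θ : d⁻¹(B) → B/A`
  set θ : ↥(B.comap d) →ₗ[K] (↥B ⧸ A.comap B.subtype) :=
    (A.comap B.subtype).mkQ ∘ₗ
      (d.restrict (p := B.comap d) (q := B) (fun x hx => hx)) with hθ
  have hθ_apply : ∀ w : ↥(B.comap d), θ w = (A.comap B.subtype).mkQ ⟨d w, w.2⟩ := fun w => rfl
  have hker_ψ : LinearMap.ker ψ = LinearMap.range θ := by
    apply le_antisymm
    · intro y hy
      obtain ⟨⟨b, hb⟩, rfl⟩ := Submodule.mkQ_surjective _ y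
      rw [LinearMap.mem_ker, hψ, Submodule.mkQ_apply, Submodule.Quotient.mk_eq_zero,
        Submodule.mem_comap] at hy
      have hy' : b ∈ A ⊔ LinearMap.range d := hy
      obtain ⟨a, ha, p, ⟨w, rfl⟩, rfl⟩ := Submodule.mem_sup.mp hy'
      have hw : d w ∈ B := by
        have := B.sub_mem hb (hAB ha)
        simpa using this
      refine ⟨⟨w, hw⟩, ?_⟩
      rw [hθ_apply, Submodule.mkQ_apply, Submodule.mkQ_apply, Submodule.Quotient.eq,
        Submodule.mem_comap]
      have : B.subtype (⟨d w, hw⟩ - ⟨a + d w, hb⟩) = -a := by simp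
      rw [this]
      exact neg_mem ha
    · rintro _ ⟨w, rfl⟩
      rw [LinearMap.mem_ker, hθ_apply, hψ, Submodule.mkQ_apply, Submodule.Quotient.mk_eq_zero,
        Submodule.mem_comap]
      exact Submodule.mem_sup_right ⟨w, rfl⟩
  have hker_θ : LinearMap.ker θ = (A.comap d).comap (B.comap d).subtype := by
    ext w
    rw [LinearMap.mem_ker, hθ_apply, Submodule.mkQ_apply, Submodule.Quotient.mk_eq_zero,
      Submodule.mem_comap, Submodule.mem_comap, Submodule.mem_comap]
    rfl
  have hAB' : A.comap d ≤ B.comap d := Submodule.comap_mono hAB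
  have e1 : Module.finrank K ↥(LinearMap.ker θ) = Module.finrank K ↥(A.comap d) := by
    rw [hker_θ]
    exact (Submodule.comapSubtypeEquivOfLe hAB').finrank_eq
  have e2 := LinearMap.finrank_range_add_finrank_ker θ
  have e3 := LinearMap.finrank_range_add_finrank_ker ψ
  have e4 : Module.finrank K ↥(LinearMap.range ψ) =
      Module.finrank K (↥(B ⊔ LinearMap.range d) ⧸ (A ⊔ LinearMap.range d).comap
        (B ⊔ LinearMap.range d).subtype) := by
    rw [LinearMap.range_eq_top.mpr hψ_surj, finrank_top]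
  refine ⟨Module.Finite.of_surjective ψ hψ_surj, ?_⟩
  rw [hker_ψ] at e3
  omega

end Abstract

section Concrete

variable {K F : Type*} [Field K] [Field F] [Algebra K F]

/-- The diagonal embedding `F → A` (principal repartitions), as a `K`-linear map. -/
noncomputable def diag : F →ₗ[K] ↥(repartitions K F) :=
  (Algebra.linearMap F ↥(repartitions K F)).restrictScalars K

theorem diag_coe (f : F) :
    ((diag (K := K) f : ↥(repartitions K F)) : Place K F → F) = fun _ => f := rfl

@[simp]
theorem diag_apply (f : F) (v : Place K F) :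
    ((diag (K := K) f : ↥(repartitions K F)) : Place K F → F) v = f := rfl

theorem principalRepartitions_eq_range :
    principalRepartitions K F = LinearMap.range (diag (K := K) (F := F)) := by
  ext α
  rw [mem_principalRepartitions_iff, LinearMap.mem_range]
  constructor
  · rintro ⟨f, hf⟩
    exact ⟨f, Subtype.ext hf.symm⟩
  · rintro ⟨f, rfl⟩
    exact ⟨f, rfl⟩

/-- `A(D) ∩ F = L(D)`. -/
theorem comap_diag_repartitionsOf (D : Divisor K F) :
    (repartitionsOf D).comap (diag (K := K) (F := F)) = riemannRochSpace D := by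
  ext f
  rw [Submodule.mem_comap, mem_repartitionsOf_iff, mem_riemannRochSpace_iff]
  rfl

/-- The sum `A(D) + F` inside the repartitions. -/
noncomputable abbrev S (D : Divisor K F) : Submodule K ↥(repartitions K F) :=
  repartitionsOf D ⊔ principalRepartitions K F

set_option maxSynthPendingDepth 2 in
/-- **RR-C2**, with the inputs of rows C1 and A as explicit hypotheses: for `D ≤ E`,
`dim (A(E)+F)/(A(D)+F) = (deg E - ℓ(E)) - (deg D - ℓ(D))`. -/
theorem finrank_sup_quot_of {D E : Divisor K F} (hDE : D ≤ E)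
    (hC1 : Module.Finite K
        (↥(repartitionsOf E) ⧸ (repartitionsOf D).comap (repartitionsOf E).subtype) ∧
      (Module.finrank K
        (↥(repartitionsOf E) ⧸ (repartitionsOf D).comap (repartitionsOf E).subtype) : ℤ) =
        Divisor.degree E - Divisor.degree D)
    (hA : Module.Finite K (riemannRochSpace E)) :
    Module.Finite K (↥(S E) ⧸ (S D).comap (S E).subtype) ∧
      (Module.finrank K (↥(S E) ⧸ (S D).comap (S E).subtype) : ℤ) =
        (Divisor.degree E - ell E) - (Divisor.degree D - ell D) := by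
  have := hC1.1
  have : Module.Finite K ↥((repartitionsOf E).comap (diag (K := K) (F := F))) := by
    rw [comap_diag_repartitionsOf]
    exact hA
  have key := finrank_sup_quot_abstract (diag (K := K) (F := F)) (repartitionsOf D)
    (repartitionsOf E) (principalRepartitions K F) principalRepartitions_eq_range
    (repartitionsOf_mono hDE)
  refine ⟨key.1, ?_⟩
  rw [key.2, hC1.2, comap_diag_repartitionsOf, comap_diag_repartitionsOf]
  unfold ell
  ring

set_option maxSynthPendingDepth 2 in
/-- **RR-C2** in the posted shape: row A (`LSpace.finite_L`) is imported, row C1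
(`RepBasic.finrank_quot_of_le`) is a hypothesis in exactly its posted shape. -/
theorem finrank_sup_quot (h : Hyp K F)
    (hC1 : ∀ {D E : Divisor K F}, D ≤ E →
      Module.Finite K
        (↥(repartitionsOf E) ⧸ (repartitionsOf D).comap (repartitionsOf E).subtype) ∧
      (Module.finrank K
        (↥(repartitionsOf E) ⧸ (repartitionsOf D).comap (repartitionsOf E).subtype) : ℤ) =
        Divisor.degree E - Divisor.degree D)
    {D E : Divisor K F} (hDE : D ≤ E) :
    Module.Finite K (↥(S E) ⧸ (S D).comap (S E).subtype) ∧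
      (Module.finrank K (↥(S E) ⧸ (S D).comap (S E).subtype) : ℤ) =
        (Divisor.degree E - ell E) - (Divisor.degree D - ell D) :=
  finrank_sup_quot_of hDE (hC1 hDE) (LSpace.finite_L h E)

set_option maxSynthPendingDepth 2 in
/-- **RR-C2**, final form (rows A and C1 imported): for `D ≤ E`,
`dim (A(E)+F)/(A(D)+F) = (deg E - ℓ(E)) - (deg D - ℓ(D))`. -/
theorem finrank_sup_quot_hyp (h : Hyp K F) {D E : Divisor K F} (hDE : D ≤ E) :
    Module.Finite K (↥(S E) ⧸ (S D).comap (S E).subtype) ∧
      (Module.finrank K (↥(S E) ⧸ (S D).comap (S E).subtype) : ℤ) =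
        (Divisor.degree E - ell E) - (Divisor.degree D - ell D) :=
  finrank_sup_quot_of hDE (RepBasic.finrank_quot_of_le h hDE) (LSpace.finite_L h E)

end Concrete

end Fermat.Agent.S20.RR.RepExact
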