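/-
S20 / block RR, piece D3: the residue theorem on the projective line, for a simple
transcendental extension `K⟮x⟯` inside a field `F` (partial fractions).  Owner: helper25.
-/
import Mathlib

set_option autoImplicit false

open scoped LaurentSeries RatFunc
open IntermediateField

namespace Fermat.Agent.S20.RR.ResP1

variable {K F : Type*} [Field K] [Field F] [Algebra K F]

/-! ### The `K`-algebra embedding `RatFunc K → K⸨X⸩` (expansion at `0`) -/

/-- Expansion at `0`, as a `K`-algebra hom. -/
noncomputable def coeK (K : Type*) [Field K] : RatFunc K →ₐ[K] K⸨X⸩ :=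
  { (algebraMap (RatFunc K) K⸨X⸩) with
    commutes' := fun r => by
      have h1 : algebraMap K (RatFunc K) r =
          ((Polynomial.C r : Polynomial K) : RatFunc K) := by
        simp [RatFunc.algebraMap_C]
      show algebraMap (RatFunc K) K⸨X⸩ (algebraMap K (RatFunc K) r) = algebraMap K K⸨X⸩ r
      rw [h1, ← RatFunc.coe_coe, HahnSeries.algebraMap_apply']
      simp }

lemma coeK_apply (f : RatFunc K) : coeK K f = algebraMap (RatFunc K) K⸨X⸩ f := rfl

lemma coeK_X : coeK K (RatFunc.X : RatFunc K) = HahnSeries.single 1 1 := by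
  rw [coeK_apply]; exact RatFunc.coe_X

lemma coeK_polynomial (p : Polynomial K) :
    coeK K (algebraMap (Polynomial K) (RatFunc K) p) =
      HahnSeries.ofPowerSeries ℤ K (p : PowerSeries K) := by
  rw [coeK_apply]; exact (RatFunc.coe_coe p).symm

/-- `algebraMap K K⸨X⸩ r` is the constant series. -/
lemma algebraMap_laurent (r : K) : algebraMap K K⸨X⸩ r = HahnSeries.C r := by
  rw [HahnSeries.algebraMap_apply']; simp

/-! ### Expansion at a finite point `a` and at infinity, on `RatFunc K` -/

/-- Expansion of a rational function at `a : K` (local parameter `X - a`). -/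
noncomputable def ratAt (a : K) : RatFunc K →ₐ[K] K⸨X⸩ :=
  (coeK K).comp (RatFunc.laurent a)

lemma ratAt_X (a : K) :
    ratAt a (RatFunc.X : RatFunc K) = HahnSeries.C a + HahnSeries.single 1 1 := by
  unfold ratAt
  rw [AlgHom.comp_apply, RatFunc.laurent_X, map_add, coeK_X, add_comm]
  congr 1
  rw [← RatFunc.algebraMap_C, coeK_polynomial]
  simp

lemma ratAt_polynomial (a : K) (p : Polynomial K) :
    ratAt a (algebraMap (Polynomial K) (RatFunc K) p) =
      HahnSeries.ofPowerSeries ℤ K ((Polynomial.taylor a p : Polynomial K) : PowerSeries K) := by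
  unfold ratAt
  rw [AlgHom.comp_apply, RatFunc.laurent_algebraMap, coeK_polynomial]

lemma X_inv_not_C : ¬ ∃ c : K, (RatFunc.X : RatFunc K)⁻¹ = RatFunc.C c := by
  rintro ⟨c, hc⟩
  have := congrArg RatFunc.intDegree hc
  rw [RatFunc.intDegree_inv, RatFunc.intDegree_X, RatFunc.intDegree_C] at this
  omega

/-- The `K`-algebra endomorphism `X ↦ X⁻¹` of `RatFunc K`. -/
noncomputable def invX (K : Type*) [Field K] : RatFunc K →ₐ[K] RatFunc K :=
  (IntermediateField.val _).comp
    (RatFunc.algEquivOfTranscendental ((RatFunc.X : RatFunc K)⁻¹)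
      (RatFunc.transcendental_of_ne_C _ X_inv_not_C)).toAlgHom

lemma invX_X : invX K (RatFunc.X : RatFunc K) = (RatFunc.X : RatFunc K)⁻¹ := by
  unfold invX
  simp [RatFunc.algEquivOfTranscendental_X]

/-- Expansion of a rational function at infinity (local parameter `1/X`). -/
noncomputable def ratInf (K : Type*) [Field K] : RatFunc K →ₐ[K] K⸨X⸩ :=
  (coeK K).comp (invX K)

lemma ratInf_X : ratInf K (RatFunc.X : RatFunc K) = HahnSeries.single (-1) 1 := by
  unfold ratInf
  rw [AlgHom.comp_apply, invX_X, map_inv₀, coeK_X, HahnSeries.inv_single, inv_one]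

/-! ### The residue theorem on `RatFunc K` -/

/-- The property to be proved for every rational function. -/
def Good (f : RatFunc K) : Prop :=
  {a : K | (ratAt a f).coeff (-1) ≠ 0}.Finite ∧
    ∑ᶠ a : K, (ratAt a f).coeff (-1) = (ratInf K f).coeff 1

lemma good_zero : Good (0 : RatFunc K) := by
  refine ⟨?_, ?_⟩
  · simp
  · simp

lemma good_add {f g : RatFunc K} (hf : Good f) (hg : Good g) : Good (f + g) := by
  obtain ⟨hf1, hf2⟩ := hf
  obtain ⟨hg1, hg2⟩ := hg
  refine ⟨?_, ?_⟩
  · refine (hf1.union hg1).subset ?_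
    intro a ha
    rw [Set.mem_ofPred_eq, map_add, HahnSeries.coeff_add] at ha
    rw [Set.mem_union, Set.mem_ofPred_eq, Set.mem_ofPred_eq]
    by_contra hcon
    rw [not_or, not_not, not_not] at hcon
    rw [hcon.1, hcon.2, add_zero] at ha
    exact ha rfl
  · simp only [map_add, HahnSeries.coeff_add]
    rw [finsum_add_distrib hf1 hg1, hf2, hg2]

lemma algHom_C (φ : RatFunc K →ₐ[K] K⸨X⸩) (c : K) : φ (RatFunc.C c) = HahnSeries.C c := by
  rw [← RatFunc.algebraMap_eq_C, AlgHom.commutes, algebraMap_laurent]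

lemma coeff_map_C_mul (φ : RatFunc K →ₐ[K] K⸨X⸩) (c : K) (f : RatFunc K) (n : ℤ) :
    (φ (RatFunc.C c * f)).coeff n = c * (φ f).coeff n := by
  rw [map_mul, algHom_C]
  exact HahnSeries.coeff_single_zero_mul

lemma good_C_mul (c : K) {f : RatFunc K} (hf : Good f) : Good (RatFunc.C c * f) := by
  obtain ⟨hf1, hf2⟩ := hf
  refine ⟨?_, ?_⟩
  · refine hf1.subset ?_
    intro a ha
    rw [Set.mem_ofPred_eq, coeff_map_C_mul] at ha
    rw [Set.mem_ofPred_eq]
    intro h0
    rw [h0, mul_zero] at ha
    exact ha rfl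
  · simp only [coeff_map_C_mul]
    rw [← mul_finsum, hf2]

lemma good_sum {ι : Type*} (s : Finset ι) (f : ι → RatFunc K) (h : ∀ i ∈ s, Good (f i)) :
    Good (∑ i ∈ s, f i) := by
  classical
  induction s using Finset.induction_on with
  | empty => simpa using good_zero
  | insert i s hi ih =>
    rw [Finset.sum_insert hi]
    exact good_add (h i (Finset.mem_insert_self i s))
      (ih fun j hj => h j (Finset.mem_insert_of_mem hj))

lemma coeff_ofPowerSeries_neg (w : PowerSeries K) {i : ℤ} (hi : i < 0) :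
    (HahnSeries.ofPowerSeries ℤ K w).coeff i = 0 := by
  rw [PowerSeries.coeff_coe, if_pos hi]

lemma inv_ofPowerSeries {u w : PowerSeries K} (h : u * w = 1) :
    (HahnSeries.ofPowerSeries ℤ K u)⁻¹ = HahnSeries.ofPowerSeries ℤ K w := by
  symm
  apply eq_inv_of_mul_eq_one_right
  rw [← map_mul, h, map_one]

lemma ratAt_polynomial_coeff (q : Polynomial K) (a : K) :
    (ratAt a (algebraMap (Polynomial K) (RatFunc K) q)).coeff (-1) = 0 := by
  rw [ratAt_polynomial]
  exact coeff_ofPowerSeries_neg _ (by norm_num)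

lemma ratInf_polynomial_coeff (q : Polynomial K) :
    (ratInf K (algebraMap (Polynomial K) (RatFunc K) q)).coeff 1 = 0 := by
  induction q using Polynomial.induction_on' with
  | add p q hp hq => rw [map_add, map_add, HahnSeries.coeff_add, hp, hq, add_zero]
  | monomial n c =>
    rw [RatFunc.algebraMap_monomial, coeff_map_C_mul, map_pow, ratInf_X,
      HahnSeries.single_pow, HahnSeries.coeff_single_of_ne, mul_zero]
    intro h
    have : (1 : ℤ) = -(n : ℤ) := by rw [h]; simp
    omega

lemma good_polynomial (q : Polynomial K) : Good (algebraMap (Polynomial K) (RatFunc K) q) := by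
  refine ⟨?_, ?_⟩
  · simp [ratAt_polynomial_coeff]
  · simp [ratAt_polynomial_coeff, ratInf_polynomial_coeff]

/-! #### The simple fractions `(X - b)^{-(m+1)}` -/

lemma ratAt_lin_of_ne {a b : K} :
    ratAt a (RatFunc.X - RatFunc.C b) =
      HahnSeries.ofPowerSeries ℤ K (PowerSeries.X + PowerSeries.C (a - b)) := by
  rw [map_sub, ratAt_X, algHom_C, map_add, HahnSeries.ofPowerSeries_X,
    HahnSeries.ofPowerSeries_C, map_sub]
  abel

lemma ratAt_lin_self (b : K) :
    ratAt b (RatFunc.X - RatFunc.C b) = HahnSeries.single 1 1 := by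
  rw [map_sub, ratAt_X, algHom_C]
  abel

lemma ratAt_invpow_coeff_of_ne {a b : K} (hab : a ≠ b) (m : ℕ) :
    (ratAt a ((RatFunc.X - RatFunc.C b)⁻¹ ^ (m + 1))).coeff (-1) = 0 := by
  have hc : PowerSeries.constantCoeff (PowerSeries.X + PowerSeries.C (a - b) : PowerSeries K)
      ≠ 0 := by
    simp [sub_ne_zero.mpr hab]
  rw [map_pow, map_inv₀, ratAt_lin_of_ne, inv_ofPowerSeries (PowerSeries.mul_inv_cancel _ hc),
    ← map_pow]
  exact coeff_ofPowerSeries_neg _ (by norm_num)

lemma ratAt_invpow_coeff_self (b : K) (m : ℕ) :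
    (ratAt b ((RatFunc.X - RatFunc.C b)⁻¹ ^ (m + 1))).coeff (-1) = if m = 0 then 1 else 0 := by
  rw [map_pow, map_inv₀, ratAt_lin_self, HahnSeries.inv_single, HahnSeries.single_pow]
  split_ifs with hm
  · subst hm
    simp
  · rw [HahnSeries.coeff_single_of_ne]
    intro h
    have : (-1 : ℤ) = -((m : ℤ) + 1) := by
      rw [h]; simp
    omega

lemma ratInf_lin (b : K) :
    ratInf K (RatFunc.X - RatFunc.C b) =
      HahnSeries.single (-1) 1 *
        HahnSeries.ofPowerSeries ℤ K (1 - PowerSeries.C b * PowerSeries.X) := by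
  rw [map_sub, ratInf_X, algHom_C, map_sub, (HahnSeries.ofPowerSeries ℤ K).map_one, map_mul,
    HahnSeries.ofPowerSeries_X, HahnSeries.ofPowerSeries_C, mul_sub, mul_one, mul_left_comm,
    HahnSeries.single_mul_single]
  simp

lemma single_inv_pow (m : ℕ) :
    ((HahnSeries.single (-1 : ℤ) (1 : K))⁻¹) ^ (m + 1) = HahnSeries.single ((m : ℤ) + 1) 1 := by
  rw [HahnSeries.inv_single, HahnSeries.single_pow]
  congr 1
  · simp
  · simp

lemma ratInf_invpow_coeff (b : K) (m : ℕ) :
    (ratInf K ((RatFunc.X - RatFunc.C b)⁻¹ ^ (m + 1))).coeff 1 = if m = 0 then 1 else 0 := by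
  have hc : PowerSeries.constantCoeff (1 - PowerSeries.C b * PowerSeries.X : PowerSeries K)
      ≠ 0 := by
    simp
  rw [map_pow, map_inv₀, ratInf_lin, mul_inv, inv_ofPowerSeries (PowerSeries.mul_inv_cancel _ hc),
    mul_pow, single_inv_pow, ← map_pow]
  have key := HahnSeries.coeff_single_mul_add (r := (1 : K))
    (x := HahnSeries.ofPowerSeries ℤ K
      ((1 - PowerSeries.C b * PowerSeries.X : PowerSeries K)⁻¹ ^ (m + 1)))
    (a := -(m : ℤ)) (b := (m : ℤ) + 1)
  have h1 : -(m : ℤ) + ((m : ℤ) + 1) = 1 := by ring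
  rw [h1, one_mul] at key
  rw [key]
  split_ifs with hm
  · subst hm
    simp [PowerSeries.coeff_coe]
  · rw [coeff_ofPowerSeries_neg]
    have : 0 < m := Nat.pos_of_ne_zero hm
    omega

lemma good_invpow (b : K) (m : ℕ) : Good ((RatFunc.X - RatFunc.C b)⁻¹ ^ (m + 1)) := by
  refine ⟨?_, ?_⟩
  · refine (Set.finite_singleton b).subset ?_
    intro a ha
    rw [Set.mem_ofPred_eq] at ha
    rw [Set.mem_singleton_iff]
    by_contra hab
    exact ha (ratAt_invpow_coeff_of_ne hab m)
  · rw [finsum_eq_single _ b (fun a hab => ratAt_invpow_coeff_of_ne hab m),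
      ratAt_invpow_coeff_self, ratInf_invpow_coeff]

/-! #### Partial fractions: every rational function is good -/

theorem good_all [IsAlgClosed K] (f : RatFunc K) : Good f := by
  classical
  let s : Finset K := f.denom.roots.toFinset
  let g : K → Polynomial K := fun b => Polynomial.X - Polynomial.C b
  let n : K → ℕ := fun b => f.denom.roots.count b
  let gi : K → RatFunc K := fun b => (RatFunc.X - RatFunc.C b)⁻¹
  have hprod : f.denom = ∏ b ∈ s, g b ^ n b := by
    have h := (IsAlgClosed.splits f.denom).eq_prod_roots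
    rw [f.monic_denom.leadingCoeff, Polynomial.C_1, one_mul,
      Finset.prod_multiset_map_count] at h
    exact h
  have hg : ∀ i ∈ s, (g i).Monic := fun i _ => Polynomial.monic_X_sub_C i
  have hgg : Set.Pairwise (s : Set K) fun i j => IsCoprime (g i) (g j) :=
    fun i _ j _ hij => Polynomial.isCoprime_X_sub_C_of_isUnit_sub (sub_ne_zero.mpr hij).isUnit
  have hlin : ∀ b : K, algebraMap (Polynomial K) (RatFunc K) (g b) = RatFunc.X - RatFunc.C b := by
    intro b
    simp only [g, map_sub, RatFunc.algebraMap_X, RatFunc.algebraMap_C]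
  have hne : ∀ b : K, (RatFunc.X - RatFunc.C b : RatFunc K) ≠ 0 := by
    intro b h0
    have h1 : algebraMap (Polynomial K) (RatFunc K) (g b) = 0 := by rw [hlin, h0]
    have h2 : g b = 0 := by
      have hinj := RatFunc.algebraMap_injective K
      exact hinj (by rw [h1, map_zero])
    exact Polynomial.X_sub_C_ne_zero b h2
  have hgi : ∀ i ∈ s, gi i * algebraMap (Polynomial K) (RatFunc K) (g i) = 1 := by
    intro i _
    rw [hlin]
    exact inv_mul_cancel₀ (hne i)
  obtain ⟨q, r, hr, hf⟩ :=
    Polynomial.mul_prod_pow_inverse_eq_quo_add_sum_rem_mul_pow_inverse f.num hg hgg n hgi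
  have hden : algebraMap (Polynomial K) (RatFunc K) f.denom =
      ∏ b ∈ s, (RatFunc.X - RatFunc.C b) ^ n b := by
    conv_lhs => rw [hprod]
    rw [map_prod]
    refine Finset.prod_congr rfl fun b _ => ?_
    rw [map_pow, hlin]
  have hfeq : f = algebraMap (Polynomial K) (RatFunc K) f.num * ∏ i ∈ s, gi i ^ n i := by
    conv_lhs => rw [← RatFunc.num_div_denom f, div_eq_mul_inv, hden]
    congr 1
    rw [← Finset.prod_inv_distrib]
    refine Finset.prod_congr rfl fun b _ => ?_
    rw [inv_pow]
  rw [hfeq, hf]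
  refine good_add (good_polynomial q) (good_sum _ _ fun i hi => good_sum _ _ fun j _ => ?_)
  have hdeg : (r i j).degree < 1 := by
    have := hr i hi j
    rwa [Polynomial.degree_X_sub_C] at this
  have hle : (r i j).degree ≤ 0 := Nat.WithBot.lt_one_iff_le_zero.mp hdeg
  rw [Polynomial.eq_C_of_degree_le_zero hle, RatFunc.algebraMap_C]
  exact good_C_mul _ (good_invpow i j.1)

/-! ### Transfer to a simple transcendental extension `K⟮x⟯ ⊆ F` -/

variable {x : F}

/-- Expansion of an element of `K⟮x⟯` at the point `x = a`: the unique `K`-algebra hom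
`K⟮x⟯ → K⸨X⸩` with `x ↦ a + X`. -/
noncomputable def iotaAt (hx : Transcendental K x) (a : K) : K⟮x⟯ →ₐ[K] LaurentSeries K :=
  (ratAt a).comp (RatFunc.algEquivOfTranscendental x hx).symm.toAlgHom

theorem iotaAt_gen (hx : Transcendental K x) (a : K) :
    iotaAt hx a (AdjoinSimple.gen K x) = HahnSeries.C a + HahnSeries.single 1 1 := by
  unfold iotaAt
  rw [AlgHom.comp_apply]
  show ratAt a ((RatFunc.algEquivOfTranscendental x hx).symm (AdjoinSimple.gen K x)) = _
  rw [RatFunc.algEquivOfTranscendental_symm_gen, ratAt_X]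

/-- Expansion of an element of `K⟮x⟯` at `x = ∞`: the unique `K`-algebra hom
`K⟮x⟯ → K⸨X⸩` with `x ↦ X⁻¹`. -/
noncomputable def iotaInf (hx : Transcendental K x) : K⟮x⟯ →ₐ[K] LaurentSeries K :=
  (ratInf K).comp (RatFunc.algEquivOfTranscendental x hx).symm.toAlgHom

theorem iotaInf_gen (hx : Transcendental K x) :
    iotaInf hx (AdjoinSimple.gen K x) = HahnSeries.single (-1) 1 := by
  unfold iotaInf
  rw [AlgHom.comp_apply]
  show ratInf K ((RatFunc.algEquivOfTranscendental x hx).symm (AdjoinSimple.gen K x)) = _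
  rw [RatFunc.algEquivOfTranscendental_symm_gen, ratInf_X]

/-- A `K`-algebra hom out of `K⟮x⟯` is determined by the image of the generator. -/
theorem algHom_ext_gen {L : Type*} [Field L] [Algebra K L] {φ ψ : K⟮x⟯ →ₐ[K] L}
    (h : φ (AdjoinSimple.gen K x) = ψ (AdjoinSimple.gen K x)) : φ = ψ := by
  refine IntermediateField.adjoin_algHom_ext K fun y hy => ?_
  rw [Set.mem_singleton_iff] at hy
  subst hy
  exact h

theorem eq_iotaAt (hx : Transcendental K x) (a : K) (φ : K⟮x⟯ →ₐ[K] LaurentSeries K)
    (h : φ (AdjoinSimple.gen K x) = HahnSeries.C a + HahnSeries.single 1 1) :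
    φ = iotaAt hx a :=
  algHom_ext_gen (h.trans (iotaAt_gen hx a).symm)

theorem eq_iotaInf (hx : Transcendental K x) (φ : K⟮x⟯ →ₐ[K] LaurentSeries K)
    (h : φ (AdjoinSimple.gen K x) = HahnSeries.single (-1) 1) :
    φ = iotaInf hx :=
  algHom_ext_gen (h.trans (iotaInf_gen hx).symm)

/-- Only finitely many finite points carry a nonzero residue. -/
theorem finite_support_res [IsAlgClosed K] (hx : Transcendental K x) (r : K⟮x⟯) :
    {a : K | (iotaAt hx a r).coeff (-1) ≠ 0}.Finite :=
  (good_all ((RatFunc.algEquivOfTranscendental x hx).symm r)).1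

/-- **Residue theorem on the projective line**: the sum of the residues of `r dx` at the finite
points equals the coefficient of `X` in the expansion of `r` at infinity (i.e. minus the residue
of `r dx` at infinity). -/
theorem sum_res_eq [IsAlgClosed K] (hx : Transcendental K x) (r : K⟮x⟯) :
    ∑ᶠ a : K, (iotaAt hx a r).coeff (-1) = (iotaInf hx r).coeff 1 :=
  (good_all ((RatFunc.algEquivOfTranscendental x hx).symm r)).2

end Fermat.Agent.S20.RR.ResP1
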