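-- S20 / RR block: the RESIDUE THEOREM `Σ_v res_v η = 0`, UNCONDITIONAL (only `h : Hyp K F`),
-- assembled from
--   * row D5 bookkeeping core  `ResidueThm.residue_theorem_of_trace` (helper29),
--   * row D3 residue theorem on `K(x)`  `RatFuncResidue.sum_res_eq` (helper32),
--   * row D4 local trace formulas  `LocalTraceInstB.sum_res_zerosOver / sum_res_polesOf` (helper78).
-- Independent backup assembly (owner helper78); separate path + namespace, no name collisions.
import Mathlib
import Fermat.Agent.S20.RR.LocalTraceInstB
import Fermat.Agent.S20.RR.ResidueThm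
import Fermat.Agent.S20.RatFuncResidueShapes

set_option autoImplicit false

open AlgebraicCurve KaehlerDifferential IntermediateField

namespace Fermat.Agent.S20.RR.ResidueThmB

open Fermat.Agent.S20.RR

variable {K F : Type*} [Field K] [Field F] [Algebra K F] [IsAlgClosed K] [CharZero K]

/-- **The residue theorem** on a function field of one variable over an algebraically closed
field of characteristic zero. -/
theorem residue_theorem (h : Hyp K F) (η : Ω[F⁄K]) : ∑ᶠ v : Place K F, res h v η = 0 := by
  obtain ⟨x, hx, hfin⟩ := id h.ff
  have := hfin
  exact ResidueThm.residue_theorem_of_trace h hx (RatFuncResidue.iotaAt hx)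
    (RatFuncResidue.iotaInf hx) (fun r => RatFuncResidue.sum_res_eq hx r)
    (fun a f => LocalTraceInstB.sum_res_zerosOver h hx a _ (RatFuncResidue.iotaAt_gen hx a) f)
    (fun f => LocalTraceInstB.sum_res_polesOf h hx _ (RatFuncResidue.iotaInf_gen hx) f) η

/-- Finite support of the residues (re-export of `ResidueThm.res_finite_support`). -/
theorem res_finite_support (h : Hyp K F) (η : Ω[F⁄K]) :
    {v : Place K F | res h v η ≠ 0}.Finite :=
  ResidueThm.res_finite_support h η

end Fermat.Agent.S20.RR.ResidueThmB
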