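/-
S20 / RR block, row B: Riemann's inequality (Stichtenoth 1.4.14 - 1.4.17).
Owner: helper54.
-/
import Fermat.Agent.S20.RR.Defs
import Fermat.Agent.S20.RR.LSpace
import Fermat.Agent.S24.Exchange

set_option autoImplicit false

open AlgebraicCurve KaehlerDifferential IntermediateField Polynomial

namespace Fermat.Agent.S20.RR.Riemann

variable {K F : Type*} [Field K] [Field F] [Algebra K F]

/-- The statements of row A (`LSpace`) that are used here, bundled as a hypothesis. -/
structure RowA (h : Hyp K F) : Prop where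
  finite_L : ∀ D : Divisor K F, Module.Finite K (riemannRochSpace D)
  ell_le_of_le : ∀ {D E : Divisor K F}, D ≤ E →
    ell D ≤ ell E ∧ (ell E : ℤ) - ell D ≤ Divisor.degree E - Divisor.degree D
  ell_zero : ell (0 : Divisor K F) = 1
  ell_add_div : ∀ (D : Divisor K F) {f : F}, f ≠ 0 → ell (D + h.div f) = ell D

/-! ### Pole divisors -/

/-- The pole divisor `(f)_∞` of a function. -/
noncomputable def polar (h : Hyp K F) (f : F) : Divisor K F :=
  (h.div f).mapRange (fun n : ℤ => max 0 (-n)) (by simp)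

theorem polar_apply (h : Hyp K F) {f : F} (hf : f ≠ 0) (v : Place K F) :
    polar h f v = max 0 (-v.ord f) := by
  unfold polar
  rw [Finsupp.mapRange_apply, h.div_apply hf]

theorem polar_nonneg (h : Hyp K F) (f : F) (v : Place K F) : 0 ≤ polar h f v := by
  unfold polar
  rw [Finsupp.mapRange_apply]
  exact le_max_left _ _

theorem neg_polar_le_ord (h : Hyp K F) {f : F} (hf : f ≠ 0) (v : Place K F) :
    -polar h f v ≤ v.ord f := by
  rw [polar_apply h hf]
  have := le_max_right 0 (-v.ord f)
  omega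

theorem ord_pow (v : Place K F) (f : F) (j : ℕ) : v.ord (f ^ j) = j * v.ord f := by
  have := v.ord_zpow f (j : ℤ)
  rwa [zpow_natCast] at this

/-- The degree of the pole divisor of a transcendental `x` is `[F : K(x)]`. -/
theorem degree_polar (h : Hyp K F) {x : F} (hx : Transcendental K x) :
    Divisor.degree (polar h x) = (Module.finrank K⟮x⟯ F : ℤ) := by
  have hx0 : x ≠ 0 := fun h0 => by
    rw [h0] at hx
    exact hx (isAlgebraic_zero)
  rw [h.degree_eq_finsum, ← Fermat.Agent.S24.Exchange.finrank_adjoin_inv x,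
    ← h.zeros x⁻¹ (Fermat.Agent.S24.Exchange.transcendental_inv hx), finsum_mem_def]
  refine finsum_congr fun v => ?_
  rw [polar_apply h hx0, Set.indicator_apply]
  have hinv : v.ord x⁻¹ = -v.ord x := v.ord_inv x
  by_cases hv : v ∈ {v : Place K F | 0 < v.ord x⁻¹}
  · rw [if_pos hv, hinv]
    have hv' : 0 < v.ord x⁻¹ := hv
    rw [hinv] at hv'
    exact max_eq_right hv'.le
  · rw [if_neg hv]
    have hv' : ¬ 0 < v.ord x⁻¹ := hv
    rw [hinv] at hv'
    exact max_eq_left (not_lt.mp hv')

/-! ### The lower bound `ℓ(mB + C) ≥ (m+1) n` -/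

section LowerBound

variable (h : Hyp K F) (x : F) (hx : Transcendental K x) [FiniteDimensional K⟮x⟯ F]

/-- The auxiliary divisor `C = Σ_i (u_i)_∞` for the chosen basis `u_i` of `F / K(x)`. -/
noncomputable def auxC : Divisor K F :=
  ∑ i : Fin (Module.finrank K⟮x⟯ F), polar h ((Module.finBasis K⟮x⟯ F) i)

theorem auxC_nonneg (v : Place K F) : 0 ≤ auxC h x v := by
  unfold auxC
  rw [Finsupp.finsetSum_apply]
  exact Finset.sum_nonneg fun i _ => polar_nonneg h _ v

theorem polar_le_auxC (i : Fin (Module.finrank K⟮x⟯ F)) (v : Place K F) :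
    polar h ((Module.finBasis K⟮x⟯ F) i) v ≤ auxC h x v := by
  unfold auxC
  rw [Finsupp.finsetSum_apply]
  exact Finset.single_le_sum (f := fun j => polar h ((Module.finBasis K⟮x⟯ F) j) v)
    (fun j _ => polar_nonneg h _ v) (Finset.mem_univ i)

include hx in
theorem pow_mul_basis_mem (m j : ℕ) (hj : j ≤ m) (i : Fin (Module.finrank K⟮x⟯ F)) :
    x ^ j * (Module.finBasis K⟮x⟯ F) i ∈ riemannRochSpace (m • polar h x + auxC h x) := by
  have hx0 : x ≠ 0 := fun h0 => by
    rw [h0] at hx
    exact hx (isAlgebraic_zero)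
  have hu0 : (Module.finBasis K⟮x⟯ F) i ≠ 0 := (Module.finBasis K⟮x⟯ F).ne_zero i
  rw [mem_riemannRochSpace_iff]
  intro v
  right
  rw [v.ord_mul (pow_ne_zero j hx0) hu0, ord_pow, Finsupp.add_apply, Finsupp.smul_apply,
    nsmul_eq_mul]
  have h1 := neg_polar_le_ord h hx0 v
  have h2 := neg_polar_le_ord h hu0 v
  have h3 := polar_le_auxC h x i v
  have h4 := polar_nonneg h x v
  have h5 : (j : ℤ) * polar h x v ≤ (m : ℤ) * polar h x v :=
    mul_le_mul_of_nonneg_right (by exact_mod_cast hj) h4
  have h6 : -((j : ℤ) * polar h x v) ≤ (j : ℤ) * v.ord x := by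
    have : (j : ℤ) * (-polar h x v) ≤ (j : ℤ) * v.ord x :=
      mul_le_mul_of_nonneg_left h1 (by positivity)
    linarith
  linarith

include hx in
theorem aeval_mul_basis_mem (m : ℕ) (q : K[X]) (hq : q ∈ degreeLT K (m + 1))
    (i : Fin (Module.finrank K⟮x⟯ F)) :
    aeval x q * (Module.finBasis K⟮x⟯ F) i ∈ riemannRochSpace (m • polar h x + auxC h x) := by
  have hdeg : q.natDegree < m + 1 := by
    rcases eq_or_ne q 0 with rfl | hq0
    · simp
    · rw [mem_degreeLT] at hq
      exact (natDegree_lt_iff_degree_lt hq0).mpr hq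
  rw [aeval_eq_sum_range' hdeg, Finset.sum_mul]
  refine Submodule.sum_mem _ fun j hj => ?_
  rw [smul_mul_assoc]
  refine Submodule.smul_mem _ _ ?_
  exact pow_mul_basis_mem h x hx m j (by have := Finset.mem_range.mp hj; omega) i

include hx in
/-- The `K`-linear map `(p_i)_i ↦ Σ_i p_i(x) u_i` into `L(mB + C)`. -/
noncomputable def evalMap (m : ℕ) :
    (Fin (Module.finrank K⟮x⟯ F) → degreeLT K (m + 1)) →ₗ[K]
      riemannRochSpace (m • polar h x + auxC h x) where
  toFun p := ⟨∑ i, aeval x (p i : K[X]) * (Module.finBasis K⟮x⟯ F) i,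
    Submodule.sum_mem _ fun i _ => aeval_mul_basis_mem h x hx m _ (p i).2 i⟩
  map_add' p q := by
    apply Subtype.ext
    simp only [Pi.add_apply, Submodule.coe_add, map_add, add_mul, Finset.sum_add_distrib]
  map_smul' c p := by
    apply Subtype.ext
    simp only [Pi.smul_apply, Submodule.coe_smul, map_smul, smul_mul_assoc, Finset.smul_sum,
      RingHom.id_apply]

include hx in
theorem evalMap_injective (m : ℕ) : Function.Injective (evalMap h x hx m) := by
  rw [← LinearMap.ker_eq_bot, LinearMap.ker_eq_bot']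
  intro p hp
  have hp' : ∑ i, aeval x (p i : K[X]) * (Module.finBasis K⟮x⟯ F) i = 0 :=
    congrArg Subtype.val hp
  -- rewrite as a `K(x)`-linear relation among the basis vectors
  have hrel : ∑ i, (aeval (AdjoinSimple.gen K x) (p i : K[X]) : K⟮x⟯) •
      (Module.finBasis K⟮x⟯ F) i = 0 := by
    rw [← hp']
    refine Finset.sum_congr rfl fun i _ => ?_
    rw [Algebra.smul_def]
    congr 1
    rw [← aeval_algebraMap_apply, AdjoinSimple.algebraMap_gen]
  have hzero := Fintype.linearIndependent_iff.mp (Module.finBasis K⟮x⟯ F).linearIndependent _ hrel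
  funext i
  apply Subtype.ext
  have h1 : aeval x (p i : K[X]) = 0 := by
    have h2 := congrArg (algebraMap K⟮x⟯ F) (hzero i)
    rwa [← aeval_algebraMap_apply, AdjoinSimple.algebraMap_gen, map_zero] at h2
  exact (transcendental_iff.mp hx) _ h1

include hx in
theorem le_ell (A : RowA h) (m : ℕ) :
    (m + 1) * Module.finrank K⟮x⟯ F ≤ ell (m • polar h x + auxC h x) := by
  have := A.finite_L (m • polar h x + auxC h x)
  have hle := LinearMap.finrank_le_finrank_of_injective (evalMap_injective h x hx m)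
  have hdom : Module.finrank K (Fin (Module.finrank K⟮x⟯ F) → degreeLT K (m + 1)) =
      (m + 1) * Module.finrank K⟮x⟯ F := by
    rw [Module.finrank_pi_fintype]
    simp only [LinearEquiv.finrank_eq (degreeLTEquiv K (m + 1)), Module.finrank_fin_fun,
      Finset.sum_const, Finset.card_univ, Fintype.card_fin, smul_eq_mul]
    ring
  rw [hdom] at hle
  exact hle

include hx in
/-- `deg(mB) - ℓ(mB) ≤ deg C - n` for all `m`. -/
theorem degree_sub_ell_nsmul_polar_le (A : RowA h) (m : ℕ) :
    Divisor.degree (m • polar h x) - ell (m • polar h x) ≤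
      Divisor.degree (auxC h x) - (Module.finrank K⟮x⟯ F : ℤ) := by
  have h1 : (m • polar h x : Divisor K F) ≤ m • polar h x + auxC h x := by
    rw [Finsupp.le_def]
    intro v
    rw [Finsupp.add_apply]
    have := auxC_nonneg h x v
    omega
  have h2 := (A.ell_le_of_le h1).2
  have h3 : ((m + 1) * Module.finrank K⟮x⟯ F : ℤ) ≤ ell (m • polar h x + auxC h x) := by
    exact_mod_cast le_ell h x hx A m
  rw [map_add, map_nsmul, degree_polar h hx] at h2
  rw [map_nsmul, degree_polar h hx]
  simp only [nsmul_eq_mul] at h2 ⊢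
  nlinarith

end LowerBound

/-! ### Positive parts of divisors -/

/-- The positive part of a divisor. -/
noncomputable def posPart (D : Divisor K F) : Divisor K F :=
  D.mapRange (fun n : ℤ => max 0 n) (by simp)

theorem posPart_apply (D : Divisor K F) (v : Place K F) : posPart D v = max 0 (D v) := by
  unfold posPart
  rw [Finsupp.mapRange_apply]

theorem le_posPart (D : Divisor K F) : D ≤ posPart D := by
  rw [Finsupp.le_def]
  intro v
  rw [posPart_apply]
  exact le_max_right _ _

/-! ### Riemann's inequality -/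

theorem finrank_adjoin_pos (x : F) [FiniteDimensional K⟮x⟯ F] : 0 < Module.finrank K⟮x⟯ F :=
  Module.finrank_pos

/-- Version of `exists_bound` with row A as an explicit hypothesis. -/
theorem exists_bound_of (h : Hyp K F) (A : RowA h) :
    ∃ γ : ℤ, ∀ D : Divisor K F, Divisor.degree D - ell D ≤ γ := by
  obtain ⟨x, hx, hfin⟩ := h.ff
  have : FiniteDimensional K⟮x⟯ F := hfin
  set n : ℕ := Module.finrank K⟮x⟯ F with hn
  have hnpos : 0 < n := finrank_adjoin_pos x
  set B := polar h x with hB
  set C := auxC h x with hC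
  refine ⟨Divisor.degree C - n, fun D => ?_⟩
  -- choose `m` large
  set D₁ := posPart D with hD₁
  set m : ℕ := (Divisor.degree C + Divisor.degree D₁).toNat with hm
  have hmlarge : Divisor.degree C + Divisor.degree D₁ < (m + 1 : ℤ) * n := by
    have h1 : Divisor.degree C + Divisor.degree D₁ ≤ m := Int.self_le_toNat _
    have h2 : (1 : ℤ) ≤ n := by exact_mod_cast hnpos
    nlinarith
  have hbound := degree_sub_ell_nsmul_polar_le h x hx A m
  have hdegmB : Divisor.degree (m • B) = (m : ℤ) * n := by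
    rw [map_nsmul, degree_polar h hx, nsmul_eq_mul]
  -- `ℓ(mB - D₁) > 0`
  have hle1 : (m • B - D₁ : Divisor K F) ≤ m • B := by
    rw [Finsupp.le_def]
    intro v
    rw [Finsupp.sub_apply, posPart_apply]
    have := le_max_left 0 (D v)
    omega
  have h3 := (A.ell_le_of_le hle1).2
  rw [map_sub] at h3
  have hpos : 0 < ell (m • B - D₁) := by
    have : (0 : ℤ) < ell (m • B - D₁) := by
      rw [hdegmB] at hbound
      linarith
    exact_mod_cast this
  have := A.finite_L (m • B - D₁)
  obtain ⟨⟨z, hzmem⟩, hz⟩ := Module.finrank_pos_iff_exists_ne_zero.mp hpos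
  have hz0 : z ≠ 0 := fun h0 => hz (Subtype.ext h0)
  rw [mem_riemannRochSpace_iff] at hzmem
  -- the divisor `D' = D - div z ≤ mB`
  have hle2 : D + h.div z⁻¹ ≤ m • B := by
    rw [Finsupp.le_def]
    intro v
    rw [Finsupp.add_apply, h.div_apply (inv_ne_zero hz0), v.ord_inv]
    have h4 := (hzmem v).resolve_left hz0
    rw [Finsupp.sub_apply, posPart_apply] at h4
    have := le_max_right 0 (D v)
    omega
  have h5 := (A.ell_le_of_le hle2).2
  rw [A.ell_add_div D (inv_ne_zero hz0), map_add, h.degree_div, add_zero] at h5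
  linarith

/-- Version of `exists_genus` with row A as an explicit hypothesis. -/
theorem exists_genus_of (h : Hyp K F) (A : RowA h) :
    ∃ g : ℕ, (∀ D : Divisor K F, Divisor.degree D + 1 - g ≤ ell D) ∧
      ∃ D₀ : Divisor K F, (ell D₀ : ℤ) = Divisor.degree D₀ + 1 - g := by
  obtain ⟨γ, hγ⟩ := exists_bound_of h A
  -- the set of values `deg D - ℓ(D) + 1` is bounded above and contains `0`
  have hbdd : ∃ b : ℤ, ∀ z : ℤ, (∃ D : Divisor K F, Divisor.degree D - ell D + 1 = z) → z ≤ b :=
    ⟨γ + 1, by rintro z ⟨D, rfl⟩; have := hγ D; omega⟩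
  have hinh : ∃ z : ℤ, ∃ D : Divisor K F, Divisor.degree D - ell D + 1 = z :=
    ⟨0, 0, by rw [map_zero, A.ell_zero]; norm_num⟩
  obtain ⟨g, ⟨D₀, hD₀⟩, hmax⟩ := Int.exists_greatest_of_bdd hbdd hinh
  have hg0 : 0 ≤ g := hmax 0 ⟨0, by rw [map_zero, A.ell_zero]; norm_num⟩
  lift g to ℕ using hg0
  refine ⟨g, fun D => ?_, D₀, by omega⟩
  have := hmax _ ⟨D, rfl⟩
  omega

/-- Version of `ell_eq_of_le` with row A as an explicit hypothesis. -/
theorem ell_eq_of_le_of (h : Hyp K F) (A : RowA h) {g : ℕ}
    (hg : ∀ D : Divisor K F, Divisor.degree D + 1 - g ≤ ell D) {D₀ D : Divisor K F}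
    (h0 : (ell D₀ : ℤ) = Divisor.degree D₀ + 1 - g) (hD : D₀ ≤ D) :
    (ell D : ℤ) = Divisor.degree D + 1 - g := by
  have h1 := (A.ell_le_of_le hD).2
  have h2 := hg D
  omega

/-! ### Final forms, with row A supplied by `LSpace` -/

/-- Row A holds (from `Fermat.Agent.S20.RR.LSpace`). -/
theorem rowA (h : Hyp K F) : RowA h where
  finite_L := LSpace.finite_L h
  ell_le_of_le := fun hDE => LSpace.ell_le_of_le h hDE
  ell_zero := LSpace.ell_zero h
  ell_add_div := fun D _ hf => LSpace.ell_add_div h D hf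

/-- `deg D - ℓ(D)` is bounded above (Stichtenoth 1.4.14). -/
theorem exists_bound (h : Hyp K F) :
    ∃ γ : ℤ, ∀ D : Divisor K F, Divisor.degree D - ell D ≤ γ :=
  exists_bound_of h (rowA h)

/-- Existence of the genus and Riemann's inequality, with equality attained (1.4.15 - 1.4.17). -/
theorem exists_genus (h : Hyp K F) :
    ∃ g : ℕ, (∀ D : Divisor K F, Divisor.degree D + 1 - g ≤ ell D) ∧
      ∃ D₀ : Divisor K F, (ell D₀ : ℤ) = Divisor.degree D₀ + 1 - g :=
  exists_genus_of h (rowA h)

/-- Equality in Riemann's inequality propagates upwards. -/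
theorem ell_eq_of_le (h : Hyp K F) {g : ℕ}
    (hg : ∀ D : Divisor K F, Divisor.degree D + 1 - g ≤ ell D) {D₀ D : Divisor K F}
    (h0 : (ell D₀ : ℤ) = Divisor.degree D₀ + 1 - g) (hD : D₀ ≤ D) :
    (ell D : ℤ) = Divisor.degree D + 1 - g :=
  ell_eq_of_le_of h (rowA h) hg h0 hD

end Fermat.Agent.S20.RR.Riemann
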